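import Fermat.Agent.Igusa.IsogenyFunctions

/-!
# Construction of the modular polynomial

`exists_polyData` constructs `PolyData p` for a prime `p`: the symmetric polynomials in the
`isoJ` and `isoF` are invariant, hence lie in `ℤ[ζ_p][j]`. `allData` packages a choice for all
primes.
-/

set_option autoImplicit false

noncomputable section

open UpperHalfPlane Complex ModularCurve
open scoped MatrixGroups Manifold Topology ModularForm

namespace FLTAgent.Igusa

open FLTAgent.ModularFF

variable (p : ℕ) [NeZero p]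

/-- Holomorphic functions paired with their expansion over `ℤ[ζ_p]` in `exp (2πiτ/p)`. -/
def pairRing : Subring ((ℍ → ℂ) × LaurentSeries (ZetaRing p)) where
  carrier := {x | HasLaurent p x.1 (coeffMap (iotaC p) x.2) ∧ MDiff x.1}
  mul_mem' {x y} hx hy := by
    refine ⟨?_, hx.2.mul hy.2⟩
    rw [Prod.snd_mul, map_mul]
    exact hx.1.mul hy.1
  one_mem' := by
    refine ⟨?_, mdifferentiable_const⟩
    rw [Prod.snd_one, Prod.fst_one, map_one, ← map_one HahnSeries.C]
    exact hasLaurent_const (h := (p : ℝ)) 1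
  add_mem' {x y} hx hy := by
    refine ⟨?_, hx.2.add hy.2⟩
    rw [Prod.snd_add, map_add]
    exact hx.1.add hy.1
  zero_mem' := by
    refine ⟨?_, mdifferentiable_const⟩
    rw [Prod.snd_zero, Prod.fst_zero, map_zero, ← map_zero HahnSeries.C]
    exact hasLaurent_const (h := (p : ℝ)) 0
  neg_mem' {x} hx := by
    refine ⟨?_, hx.2.neg⟩
    rw [Prod.snd_neg, map_neg]
    exact hx.1.neg

/-- Evaluation of a pair at a point. -/
def evalPair (τ : ℍ) : pairRing p →+* ℂ :=
  (Pi.evalRingHom (fun _ : ℍ => ℂ) τ).comp ((RingHom.fst _ _).comp (pairRing p).subtype)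

/-- The expansion of a pair. -/
def expandPair : pairRing p →+* LaurentSeries (ZetaRing p) :=
  (RingHom.snd _ _).comp (pairRing p).subtype

/-- `isoJ` as an element of `pairRing`. -/
def pairJ (i : Option (ZMod p)) : pairRing p :=
  ⟨(isoJ p i, isoJSeries p i), hasLaurent_isoJ p i, mdiff_isoJ p i⟩

/-- `isoF` as an element of `pairRing`. -/
def pairF (i : Option (ZMod p)) : pairRing p :=
  ⟨(isoF p i, isoFSeries p i), hasLaurent_isoF p i, mdiff_isoF p i⟩

@[simp] theorem evalPair_pairJ (τ : ℍ) (i : Option (ZMod p)) :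
    evalPair p τ (pairJ p i) = isoJ p i τ := rfl

@[simp] theorem evalPair_pairF (τ : ℍ) (i : Option (ZMod p)) :
    evalPair p τ (pairF p i) = isoF p i τ := rfl

@[simp] theorem expandPair_pairJ (i : Option (ZMod p)) :
    expandPair p (pairJ p i) = isoJSeries p i := rfl

@[simp] theorem expandPair_pairF (i : Option (ZMod p)) :
    expandPair p (pairF p i) = isoFSeries p i := rfl

/-- A polynomial over `pairRing` whose values are invariant comes from `ℤ[ζ_p][j]`. -/
theorem mem_lifts_of_invariant [Fact p.Prime] (Q : Polynomial (pairRing p))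
    (hS : ∀ τ, Q.map (evalPair p (ModularGroup.S • τ)) = Q.map (evalPair p τ))
    (hT : ∀ τ, Q.map (evalPair p (ModularGroup.T • τ)) = Q.map (evalPair p τ)) :
    Q.map (expandPair p) ∈ Polynomial.lifts (ev (jv (1 : (ZetaRing p)ˣ) p)) := by
  rw [Polynomial.lifts_iff_coeff_lifts]
  intro n
  rw [Polynomial.coeff_map]
  refine exists_poly_of_invariant (f := fun τ => evalPair p τ (Q.coeff n))
    (c := expandPair p (Q.coeff n)) ?_ ?_ (fun τ => ?_) (fun τ => ?_)
  · exact (Q.coeff n).2.1
  · exact (Q.coeff n).2.2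
  · have := congrArg (fun P => Polynomial.coeff P n) (hS τ)
    simp only [Polynomial.coeff_map] at this
    exact this
  · have := congrArg (fun P => Polynomial.coeff P n) (hT τ)
    simp only [Polynomial.coeff_map] at this
    exact this

open Polynomial

/-- `∏ (X - j_i)`. -/
def pairPhi : Polynomial (pairRing p) := ∏ i : Option (ZMod p), (X - C (pairJ p i))

/-- `∏ (X - F_i)`. -/
def pairPsi : Polynomial (pairRing p) := ∏ i : Option (ZMod p), (X - C (pairF p i))

/-- `∑ F_i ∏_{l ≠ i} (X - j_l)`. -/
def pairLagrange : Polynomial (pairRing p) :=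
  ∑ i : Option (ZMod p), C (pairF p i) * ∏ l ∈ Finset.univ.erase i, (X - C (pairJ p l))

theorem lagrange_perm {ι A : Type} [Fintype ι] [DecidableEq ι] [CommRing A] (π : ι ≃ ι)
    (a b : ι → A) :
    (∑ i, C (b (π i)) * ∏ l ∈ Finset.univ.erase i, (X - C (a (π l)))) =
      ∑ i, C (b i) * ∏ l ∈ Finset.univ.erase i, (X - C (a l)) := by
  refine Fintype.sum_equiv π _ _ fun i => ?_
  refine congrArg _ (Finset.prod_equiv π (fun l => ?_) fun l _ => rfl)
  simp [π.injective.eq_iff]

theorem invariant_of_perm (g : ℍ → ℍ) (π : Option (ZMod p) ≃ Option (ZMod p))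
    (h : ∀ i τ, isoJ p i (g τ) = isoJ p (π i) τ ∧ isoF p i (g τ) = isoF p (π i) τ) (τ : ℍ) :
    (pairPhi p).map (evalPair p (g τ)) = (pairPhi p).map (evalPair p τ) ∧
      (pairPsi p).map (evalPair p (g τ)) = (pairPsi p).map (evalPair p τ) ∧
      (pairLagrange p).map (evalPair p (g τ)) = (pairLagrange p).map (evalPair p τ) := by
  refine ⟨?_, ?_, ?_⟩
  · simp only [pairPhi, Polynomial.map_prod, Polynomial.map_sub, map_X, map_C, evalPair_pairJ]
    exact Fintype.prod_equiv π _ _ fun i => by rw [(h i τ).1]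
  · simp only [pairPsi, Polynomial.map_prod, Polynomial.map_sub, map_X, map_C, evalPair_pairF]
    exact Fintype.prod_equiv π _ _ fun i => by rw [(h i τ).2]
  · simp only [pairLagrange, Polynomial.map_sum, Polynomial.map_mul, Polynomial.map_prod,
      Polynomial.map_sub, map_X, map_C, evalPair_pairJ, evalPair_pairF]
    simp_rw [(h _ τ).1, (h _ τ).2]
    exact lagrange_perm π (fun i => isoJ p i τ) (fun i => isoF p i τ)

theorem mem_lifts_all [Fact p.Prime] :
    (pairPhi p).map (expandPair p) ∈ lifts (ev (jv (1 : (ZetaRing p)ˣ) p)) ∧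
      (pairPsi p).map (expandPair p) ∈ lifts (ev (jv (1 : (ZetaRing p)ˣ) p)) ∧
      (pairLagrange p).map (expandPair p) ∈ lifts (ev (jv (1 : (ZetaRing p)ˣ) p)) := by
  have hS := invariant_of_perm p (fun τ => ModularGroup.S • τ) (permS p) (iso_S p)
  have hT := invariant_of_perm p (fun τ => ModularGroup.T • τ) (permT p) (iso_T p)
  exact ⟨mem_lifts_of_invariant p _ (fun τ => (hS τ).1) (fun τ => (hT τ).1),
    mem_lifts_of_invariant p _ (fun τ => (hS τ).2.1) (fun τ => (hT τ).2.1),
    mem_lifts_of_invariant p _ (fun τ => (hS τ).2.2) (fun τ => (hT τ).2.2)⟩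

theorem prod_zmod_eq_prod_range {α : Type*} [CommMonoid α] (g : ℕ → α) :
    ∏ b : ZMod p, g b.val = ∏ a ∈ Finset.range p, g a := by
  refine Finset.prod_bij (fun b _ => b.val) (fun b _ => Finset.mem_range.mpr (ZMod.val_lt b))
    (fun a _ b _ h => ZMod.val_injective p h)
    (fun a ha => ⟨(a : ZMod p), Finset.mem_univ _, ZMod.val_cast_of_lt (Finset.mem_range.mp ha)⟩)
    (fun b _ => rfl)

theorem monic_expand_prod (g : Option (ZMod p) → pairRing p) :
    ((∏ i : Option (ZMod p), (X - C (g i))).map (expandPair p)).Monic :=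
  (Polynomial.monic_prod_of_monic _ _ fun _ _ => monic_X_sub_C _).map _

theorem exists_polyData [Fact p.Prime] : Nonempty (PolyData p) := by
  classical
  obtain ⟨h1, h2, h3⟩ := mem_lifts_all p
  obtain ⟨Φ, hΦ, -, hΦm⟩ := lifts_and_natDegree_eq_and_monic h1 (monic_expand_prod p _)
  obtain ⟨Ψ, hΨ, -, hΨm⟩ := lifts_and_natDegree_eq_and_monic h2 (monic_expand_prod p _)
  obtain ⟨G, hG⟩ := (mem_lifts _).mp h3
  refine ⟨⟨Φ, Ψ, G, hΦm, ?_, hΨm, ?_, ?_⟩⟩
  · rw [hΦ, pairPhi, Fintype.prod_option]
    simp only [Polynomial.map_mul, Polynomial.map_prod, Polynomial.map_sub, map_X, map_C,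
      expandPair_pairJ, isoJSeries]
    rw [prod_zmod_eq_prod_range p fun a => X - C (jv (zetaU p ^ a) 1)]
  · rw [hΨ, pairPsi, Polynomial.map_prod, Polynomial.eval_prod]
    refine Finset.prod_eq_zero (Finset.mem_univ none) ?_
    simp [isoFSeries]
  · rw [hG, pairLagrange, Polynomial.map_sum, Polynomial.eval_finsetSum,
      Finset.sum_eq_single (none : Option (ZMod p))]
    · simp only [Polynomial.map_mul, Polynomial.map_prod, Polynomial.map_sub, map_X, map_C,
        eval_mul, eval_C, eval_prod, eval_sub, eval_X, expandPair_pairJ, expandPair_pairF,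
        isoFSeries]
      congr 1
      have herase : (Finset.univ : Finset (Option (ZMod p))).erase none =
          (Finset.univ : Finset (ZMod p)).map Function.Embedding.some := by
        ext x
        cases x <;> simp
      rw [herase, Finset.prod_map]
      exact prod_zmod_eq_prod_range p fun a => jv 1 (p * p) - jv (zetaU p ^ a) 1
    · intro i _ hi
      simp only [Polynomial.map_mul, Polynomial.map_prod, Polynomial.map_sub, map_X, map_C,
        eval_mul, eval_prod, eval_sub, eval_X, eval_C]
      rw [Finset.prod_eq_zero (Finset.mem_erase.mpr ⟨Ne.symm hi, Finset.mem_univ none⟩), mul_zero]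
      simp [isoJSeries]
    · exact fun h => absurd (Finset.mem_univ _) h

/-- Modular polynomial data for all primes. -/
def allData : ∀ (p : ℕ) [NeZero p], p.Prime → PolyData p := fun p _ hp =>
  haveI : Fact p.Prime := ⟨hp⟩
  Classical.choice (exists_polyData p)

end FLTAgent.Igusa
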