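import Mathlib.RingTheory.LaurentSeries
import Mathlib.RingTheory.Algebraic.Basic
import Fermat.Prelude.Def_ModularCurve_X0ModL

/-!
# The series `j(c q^m)`

Monomial substitutions `q ↦ c q` (`scale`) and `q ↦ q^m` (`qx`) in Laurent series, leading
terms (`Lead`), and the series `jv c m = j(c q^m)` with its injectivity in `(c, m)` and
transcendence.
-/

set_option autoImplicit false

noncomputable section

open HahnSeries ModularCurve

namespace FLTAgent.Igusa

universe u v

variable {R : Type u} {S : Type v} [CommRing R] [CommRing S]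

/-- Underlying function of `q ↦ c q`. -/
def scaleFun (c : Rˣ) (x : LaurentSeries R) : LaurentSeries R where
  coeff n := ((c ^ n : Rˣ) : R) * x.coeff n
  isPWO_support' := x.isPWO_support.mono fun n hn h0 => hn (by simp [h0])

theorem support_scaleFun (c : Rˣ) (x : LaurentSeries R) :
    (scaleFun c x).support = x.support := by
  ext n
  simp [scaleFun, HahnSeries.mem_support]

/-- The coefficientwise substitution `q ↦ c q` on Laurent series. -/
def scale (c : Rˣ) : LaurentSeries R →+* LaurentSeries R where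
  toFun := scaleFun c
  map_zero' := by ext n; simp [scaleFun]
  map_one' := by
    ext n
    rcases eq_or_ne n 0 with rfl | hn
    · simp [scaleFun]
    · simp [scaleFun, HahnSeries.coeff_one, hn]
  map_add' x y := by ext n; simp [scaleFun, mul_add]
  map_mul' x y := by
    ext n
    rw [HahnSeries.coeff_mul_left' x.isPWO_support (support_scaleFun c x).le,
      show (scaleFun c (x * y)).coeff n = ((c ^ n : Rˣ) : R) * (x * y).coeff n from rfl,
      HahnSeries.coeff_mul, Finset.mul_sum]
    refine Finset.sum_congr ?_ ?_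
    · ext ij
      simp [Finset.mem_antidiagonal, support_scaleFun]
    · intro ij hij
      have h : ij.1 + ij.2 = n := (Finset.mem_antidiagonal.mp hij).2.2
      simp only [scaleFun]
      rw [← h, zpow_add, Units.val_mul]
      ring

/-- The coefficients of the series in `c q`. -/
theorem coeff_scale (c : Rˣ) (x : LaurentSeries R) (n : ℤ) :
    (scale c x).coeff n = ((c ^ n : Rˣ) : R) * x.coeff n := rfl

theorem scale_scale (c d : Rˣ) (x : LaurentSeries R) : scale c (scale d x) = scale (c * d) x := by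
  ext n
  rw [coeff_scale, coeff_scale, coeff_scale, mul_zpow, Units.val_mul, mul_assoc]

/-- Scaling by one does nothing. -/
@[simp]
theorem scale_one (x : LaurentSeries R) : scale (1 : Rˣ) x = x := by
  ext n
  simp [coeff_scale]

/-- Scaling a monomial. -/
theorem scale_single (c : Rˣ) (n : ℤ) (r : R) :
    scale c (single n r) = single n (((c ^ n : Rˣ) : R) * r) := by
  ext m
  rcases eq_or_ne m n with rfl | hm
  · simp [coeff_scale]
  · simp [coeff_scale, hm]

/-- Scaling commutes with maps of coefficients. -/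
theorem coeffMap_scale (f : R →+* S) (c : Rˣ) (x : LaurentSeries R) :
    coeffMap f (scale c x) = scale (Units.map (f : R →* S) c) (coeffMap f x) := by
  ext n
  simp only [coeffMap_coeff, coeff_scale, map_mul, ← map_zpow, Units.coe_map, MonoidHom.coe_coe]

variable (R) in
/-- The substitution `q ↦ q ^ m` (identity for `m = 0`). -/
def qx (m : ℕ) : LaurentSeries R →+* LaurentSeries R :=
  if h : m = 0 then RingHom.id _ else haveI : NeZero m := ⟨h⟩; qExpand R m

/-- For `m ≠ 0` the substitution is `qExpand`. -/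
theorem qx_eq (m : ℕ) [NeZero m] : qx R m = qExpand R m := by
  rw [qx, dif_neg (NeZero.ne m)]

theorem qx_coeff_mul {m : ℕ} (hm : m ≠ 0) (x : LaurentSeries R) (i : ℤ) :
    (qx R m x).coeff (m * i) = x.coeff i := by
  have : NeZero m := ⟨hm⟩
  rw [qx_eq, qExpand_coeff_mul]

theorem qx_coeff_of_not_dvd {m : ℕ} (hm : m ≠ 0) (x : LaurentSeries R) {i : ℤ}
    (hi : ¬ (m : ℤ) ∣ i) : (qx R m x).coeff i = 0 := by
  have : NeZero m := ⟨hm⟩
  rw [qx_eq, qExpand_coeff_of_not_dvd m x hi]

theorem qx_single {m : ℕ} (hm : m ≠ 0) (i : ℤ) (r : R) :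
    qx R m (single i r) = single ((m : ℤ) * i) r := by
  have : NeZero m := ⟨hm⟩
  rw [qx_eq, qExpand_single]

@[simp]
theorem qx_one_apply (x : LaurentSeries R) : qx R 1 x = x := by
  rw [qx_eq, qExpand_one_apply]

theorem qx_qx {a b : ℕ} (ha : a ≠ 0) (hb : b ≠ 0) (x : LaurentSeries R) :
    qx R a (qx R b x) = qx R (a * b) x := by
  have : NeZero a := ⟨ha⟩
  have : NeZero b := ⟨hb⟩
  rw [qx_eq, qx_eq, qx_eq, qExpand_qExpand]

theorem coeffMap_qx (f : R →+* S) {m : ℕ} (hm : m ≠ 0) (x : LaurentSeries R) :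
    coeffMap f (qx R m x) = qx S m (coeffMap f x) := by
  have : NeZero m := ⟨hm⟩
  rw [qx_eq, qx_eq, coeffMap_qExpand]

theorem scale_qx (c : Rˣ) {m : ℕ} (hm : m ≠ 0) (x : LaurentSeries R) :
    scale c (qx R m x) = qx R m (scale (c ^ m) x) := by
  ext i
  by_cases hi : (m : ℤ) ∣ i
  · obtain ⟨k, rfl⟩ := hi
    rw [coeff_scale, qx_coeff_mul hm, qx_coeff_mul hm, coeff_scale, ← zpow_natCast, ← zpow_mul]
  · rw [coeff_scale, qx_coeff_of_not_dvd hm _ hi, qx_coeff_of_not_dvd hm _ hi, mul_zero]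

/-! ### Leading terms -/

/-- `Lead f n a`: the coefficient of `q^n` in `f` is `a` and all lower ones vanish. -/
def Lead (f : LaurentSeries R) (n : ℤ) (a : R) : Prop :=
  f.coeff n = a ∧ ∀ i < n, f.coeff i = 0

/-- A series with nonzero leading coefficient is nonzero. -/
theorem Lead.ne_zero {f : LaurentSeries R} {n : ℤ} {a : R} (h : Lead f n a) (ha : a ≠ 0) :
    f ≠ 0 := by
  rintro rfl
  exact ha (by simpa using h.1.symm)

theorem Lead.unique_deg {f : LaurentSeries R} {n n' : ℤ} {a a' : R} (h : Lead f n a)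
    (h' : Lead f n' a') (ha : a ≠ 0) (ha' : a' ≠ 0) : n = n' ∧ a = a' := by
  rcases lt_trichotomy n n' with hlt | heq | hgt
  · exact absurd (h.1.symm.trans (h'.2 n hlt)) ha
  · subst heq
    exact ⟨rfl, h.1.symm.trans h'.1⟩
  · exact absurd (h'.1.symm.trans (h.2 n' hgt)) ha'

/-- Leading terms multiply. -/
theorem Lead.mul {f g : LaurentSeries R} {n m : ℤ} {a b : R} (hf : Lead f n a) (hg : Lead g m b) :
    Lead (f * g) (n + m) (a * b) := by
  have hmem : ∀ (i : ℤ) (ij : ℤ × ℤ),
      ij ∈ Finset.antidiagonal f.isPWO_support g.isPWO_support i → n ≤ ij.1 ∧ m ≤ ij.2 := by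
    intro i ij hij
    obtain ⟨h1, h2, -⟩ := Finset.mem_antidiagonal.mp hij
    exact ⟨not_lt.mp fun h => h1 (hf.2 _ h), not_lt.mp fun h => h2 (hg.2 _ h)⟩
  refine ⟨?_, fun i hi => ?_⟩
  · rw [HahnSeries.coeff_mul, Finset.sum_eq_single (n, m), hf.1, hg.1]
    · intro ij hij hne
      obtain ⟨h1, h2⟩ := hmem _ ij hij
      obtain ⟨-, -, h3⟩ := Finset.mem_antidiagonal.mp hij
      exact absurd (Prod.ext (by omega : ij.1 = n) (by omega : ij.2 = m)) hne
    · intro hnm
      by_contra h0
      refine hnm (Finset.mem_antidiagonal.mpr ⟨fun h => h0 ?_, fun h => h0 ?_, rfl⟩)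
      · simp only [h, zero_mul]
      · simp only [h, mul_zero]
  · rw [HahnSeries.coeff_mul]
    refine Finset.sum_eq_zero fun ij hij => ?_
    obtain ⟨h1, h2⟩ := hmem _ ij hij
    obtain ⟨-, -, h3⟩ := Finset.mem_antidiagonal.mp hij
    omega

theorem lead_one : Lead (1 : LaurentSeries R) 0 1 :=
  ⟨by simp, fun i hi => by simp [HahnSeries.coeff_one, hi.ne]⟩

theorem lead_single (n : ℤ) (a : R) : Lead (single n a) n a :=
  ⟨HahnSeries.coeff_single_same n a, fun _ hi => HahnSeries.coeff_single_of_ne hi.ne⟩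

theorem lead_C (a : R) : Lead (HahnSeries.C a : LaurentSeries R) 0 a := lead_single 0 a

theorem lead_ofPowerSeries (F : PowerSeries R) :
    Lead (HahnSeries.ofPowerSeries ℤ R F) 0 (PowerSeries.constantCoeff F) :=
  ⟨by rw [show (0 : ℤ) = ((0 : ℕ) : ℤ) from rfl, HahnSeries.ofPowerSeries_apply_coeff,
      PowerSeries.coeff_zero_eq_constantCoeff],
    fun _ hi => ofPowerSeries_coeff_of_neg _ hi⟩

/-- The leading term of a power. -/
theorem Lead.pow {f : LaurentSeries R} {n : ℤ} {a : R} (hf : Lead f n a) :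
    ∀ k : ℕ, Lead (f ^ k) (k * n) (a ^ k)
  | 0 => by simpa using lead_one (R := R)
  | k + 1 => by
    rw [pow_succ, pow_succ, show ((k + 1 : ℕ) : ℤ) * n = k * n + n by push_cast; ring]
    exact (hf.pow k).mul hf

theorem Lead.qx {f : LaurentSeries R} {n : ℤ} {a : R} (hf : Lead f n a) {m : ℕ} (hm : m ≠ 0) :
    Lead (qx R m f) (m * n) a := by
  refine ⟨by rw [qx_coeff_mul hm, hf.1], fun i hi => ?_⟩
  by_cases hd : (m : ℤ) ∣ i
  · obtain ⟨k, rfl⟩ := hd
    rw [qx_coeff_mul hm]
    refine hf.2 k (lt_of_mul_lt_mul_left hi (Int.natCast_nonneg m))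
  · exact qx_coeff_of_not_dvd hm f hd

theorem Lead.scale {f : LaurentSeries R} {n : ℤ} {a : R} (hf : Lead f n a) (c : Rˣ) :
    Lead (scale c f) n (((c ^ n : Rˣ) : R) * a) :=
  ⟨by rw [coeff_scale, hf.1], fun i hi => by rw [coeff_scale, hf.2 i hi, mul_zero]⟩

theorem lead_jqModC : Lead (jqModC R) (-1) 1 :=
  ⟨coeff_jqModC_neg_one R, fun _ hi => coeff_jqModC_of_lt R hi⟩

/-! ### The series `j(c q^m)` -/

/-- `jv c m` is the series `j(c q^m)`. -/
def jv (c : Rˣ) (m : ℕ) : LaurentSeries R := qx R m (scale c (jqModC R))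

theorem jv_one_one : jv (1 : Rˣ) 1 = jqModC R := by
  simp [jv]

theorem jv_one_eq (m : ℕ) [NeZero m] : jv (1 : Rˣ) m = qExpand R m (jqModC R) := by
  rw [jv, scale_one, qx_eq]

theorem qx_jv (c : Rˣ) {a m : ℕ} (ha : a ≠ 0) (hm : m ≠ 0) :
    qx R a (jv c m) = jv c (a * m) := by
  rw [jv, jv, qx_qx ha hm]

theorem scale_jv (e c : Rˣ) {m : ℕ} (hm : m ≠ 0) : scale e (jv c m) = jv (e ^ m * c) m := by
  rw [jv, jv, scale_qx e hm, scale_scale]

/-- The series `j(c q ^ m)` commutes with maps of coefficients. -/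
theorem coeffMap_jv (f : R →+* S) (c : Rˣ) {m : ℕ} (hm : m ≠ 0) :
    coeffMap f (jv c m) = jv (Units.map (f : R →* S) c) m := by
  rw [jv, jv, coeffMap_qx f hm, coeffMap_scale, coeffMap_jqModC]

theorem lead_jv (c : Rˣ) {m : ℕ} (hm : m ≠ 0) : Lead (jv c m) (-(m : ℤ)) ((c⁻¹ : Rˣ) : R) := by
  have h := ((lead_jqModC (R := R)).scale c).qx hm
  rwa [zpow_neg_one, mul_one, mul_neg, mul_one] at h

theorem jv_inj [Nontrivial R] {c c' : Rˣ} {m m' : ℕ} (hm : m ≠ 0) (hm' : m' ≠ 0)
    (h : jv c m = jv c' m') : m = m' ∧ c = c' := by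
  obtain ⟨h1, h2⟩ := (h ▸ lead_jv c hm : Lead (jv c' m') _ _).unique_deg (lead_jv c' hm')
    (Units.ne_zero _) (Units.ne_zero _)
  exact ⟨by omega, inv_injective (Units.ext h2)⟩

/-- Evaluation of a polynomial at a series with negative leading exponent. -/
theorem lead_aeval {k : Type u} [Field k] {f : LaurentSeries k} {n : ℤ} {a : k}
    (hf : Lead f n a) (hn : n < 0) (P : Polynomial k) :
    Lead (Polynomial.aeval f P) (P.natDegree * n) (P.leadingCoeff * a ^ P.natDegree) := by
  have halg : ∀ (r : k) (i : ℕ), Lead (algebraMap k (LaurentSeries k) r * f ^ i) (i * n)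
      (r * a ^ i) := by
    intro r i
    rw [algebraMap_laurentSeries_eq_single]
    simpa using (lead_single 0 r).mul (hf.pow i)
  rw [Polynomial.aeval_eq_sum_range]
  simp only [Algebra.smul_def]
  refine ⟨?_, fun i hi => ?_⟩
  · rw [HahnSeries.coeff_sum, Finset.sum_eq_single P.natDegree]
    · exact (halg _ _).1
    · intro b hb hne
      refine (halg _ _).2 _ ?_
      have hb' : b < P.natDegree :=
        lt_of_le_of_ne (Nat.lt_succ_iff.mp (Finset.mem_range.mp hb)) hne
      have hb'' : (b : ℤ) < P.natDegree := by exact_mod_cast hb'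
      nlinarith
    · intro h
      exact absurd (Finset.mem_range.mpr (Nat.lt_succ_self _)) h
  · rw [HahnSeries.coeff_sum]
    refine Finset.sum_eq_zero fun b hb => (halg _ _).2 _ (hi.trans_le ?_)
    have hb'' : (b : ℤ) ≤ P.natDegree := by
      exact_mod_cast Nat.lt_succ_iff.mp (Finset.mem_range.mp hb)
    nlinarith

theorem transcendental_of_lead {k : Type u} [Field k] {f : LaurentSeries k} {n : ℤ} {a : k}
    (hf : Lead f n a) (ha : a ≠ 0) (hn : n < 0) : Transcendental k f := by
  rintro ⟨P, hP, hP0⟩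
  exact (lead_aeval hf hn P).ne_zero
    (mul_ne_zero (Polynomial.leadingCoeff_ne_zero.mpr hP) (pow_ne_zero _ ha)) hP0

/-- `j(c q ^ m)` is transcendental. -/
theorem transcendental_jv {k : Type u} [Field k] (c : kˣ) {m : ℕ} (hm : m ≠ 0) :
    Transcendental k (jv c m) :=
  transcendental_of_lead (lead_jv c hm) (Units.ne_zero _) (by omega)

end FLTAgent.Igusa
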