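import Fermat.Agent.Igusa.ExpansionDegree
import Mathlib.Analysis.Complex.Polynomial.Basic
import Mathlib.RingTheory.IntegralClosure.IntegrallyClosed

/-!
# Integrality of `j(q^d)` over `ℤ[j(q)]`

`isIntegralElem_qExpand_jq`: the series `j(q^d)` is a root of a monic polynomial with
coefficients in `ℤ[j(q)]`.
-/

set_option autoImplicit false

noncomputable section

open ModularCurve Polynomial

namespace FLTAgent.Igusa

/-- `ℤ[X] → R((q))` sending `X` to `y`. -/
def evInt {R : Type} [CommRing R] (y : LaurentSeries R) : Polynomial ℤ →+* LaurentSeries R :=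
  Polynomial.eval₂RingHom (Int.castRingHom _) y

theorem isIntegralElem_jv_ctx {N : ℕ} (C : Ctx ℂ N) {d : ℕ} (hd : d ∣ N) :
    (evInt (jv (1 : ℂˣ) N)).IsIntegralElem (jv (1 : ℂˣ) (N * d)) := by
  let : Algebra (Polynomial ℤ) (LaurentSeries ℂ) := (evInt (jv (1 : ℂˣ) N)).toAlgebra
  show IsIntegral (Polynomial ℤ) (jv (1 : ℂˣ) (N * d))
  induction d using Nat.strong_induction_on with
  | _ d ih =>
    rcases eq_or_ne d 1 with rfl | hd1
    · have h : algebraMap (Polynomial ℤ) (LaurentSeries ℂ) Polynomial.X =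
          jv (1 : ℂˣ) (N * 1) := by
        simp [RingHom.algebraMap_toAlgebra, evInt]
      rw [← h]
      exact isIntegral_algebraMap
    obtain ⟨p, hp, e, rfl⟩ : ∃ p : ℕ, p.Prime ∧ p ∣ d :=
      ⟨_, Nat.minFac_prime hd1, Nat.minFac_dvd d⟩
    have : NeZero p := ⟨hp.ne_zero⟩
    have hpN : p ∣ N := (dvd_mul_right p e).trans hd
    obtain ⟨m0, hm0⟩ := id hpN
    have he0 : e ≠ 0 := fun h => C.hM (Nat.eq_zero_of_zero_dvd (by simpa [h] using hd))
    have hm00 : m0 ≠ 0 := fun h => C.hM (by rw [hm0, h, mul_zero])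
    have hy : IsIntegral (Polynomial ℤ) (jv (1 : ℂˣ) (N * e)) :=
      ih e (by nlinarith [hp.two_le, Nat.pos_of_ne_zero he0]) ((dvd_mul_left e p).trans hd)
    set f := zetaHom (C.zeta p : ℂ) (C.zeta_spec hpN)
    set y := jv (1 : ℂˣ) (N * e)
    let g : Polynomial (ZetaRing p) →+* LaurentSeries ℂ :=
      Polynomial.eval₂RingHom (HahnSeries.C.comp f) y
    have : Module.Finite ℤ (ZetaRing p) := (Polynomial.cyclotomic.monic p ℤ).finite_adjoinRoot
    have hg : ∀ P, g P ∈ integralClosure (Polynomial ℤ) (LaurentSeries ℂ) := by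
      intro P
      induction P using Polynomial.induction_on' with
      | add P Q hP hQ => rw [map_add]; exact add_mem hP hQ
      | monomial n r =>
        rw [show g (Polynomial.monomial n r) = (HahnSeries.C.comp f) r * y ^ n by
          simp [g, Polynomial.eval₂_monomial]]
        refine mul_mem ?_ (pow_mem hy n)
        have hr : IsIntegral ℤ r := Algebra.IsIntegral.isIntegral r
        obtain ⟨P, hP, hP0⟩ := hr
        refine ⟨P.map Polynomial.C, hP.map _, ?_⟩
        have h0 := congrArg (HahnSeries.C.comp f : ZetaRing p →+* LaurentSeries ℂ) hP0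
        rw [map_zero, Polynomial.hom_eval₂] at h0
        rw [Polynomial.eval₂_map]
        convert! h0 using 3
        exact Subsingleton.elim _ _
    let g' := g.codRestrict (integralClosure (Polynomial ℤ) (LaurentSeries ℂ)) hg
    have hroot : IsIntegral (integralClosure (Polynomial ℤ) (LaurentSeries ℂ))
        (jv (1 : ℂˣ) (N * (p * e))) := by
      refine ⟨(C.D p hp).Φ.map g', (C.D p hp).Φ_monic.map _, ?_⟩
      rw [Polynomial.eval₂_map,
        show (algebraMap (integralClosure (Polynomial ℤ) (LaurentSeries ℂ))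
          (LaurentSeries ℂ)).comp g' = g from rfl]
      have hfac := PolyData.phiK_eq (C.D p hp) (C.zeta_spec hpN) 1 (m := m0 * e)
        (mul_ne_zero hm00 he0)
      rw [one_pow, one_pow, show m0 * e * p = N * e by rw [hm0]; ring,
        show m0 * e * (p * p) = N * (p * e) by rw [hm0]; ring, PolyData.phiK,
        Polynomial.map_map] at hfac
      have hgeq : (Polynomial.aeval (R := ℂ) y).toRingHom.comp (Polynomial.mapRingHom f) = g := by
        refine Polynomial.ringHom_ext (fun a => ?_) ?_
        · simp [g, algebraMap_laurentSeries_eq_single]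
        · simp [g]
      rw [hgeq] at hfac
      rw [← Polynomial.eval_map, hfac]
      simp
    exact isIntegral_trans _ hroot

/-- `j(q^d)` is a root of a monic polynomial over `ℤ[j(q)]`. -/
theorem isIntegralElem_qExpand_jq (d : ℕ) [NeZero d] :
    (evInt jq).IsIntegralElem (qExpand ℚ d jq) := by
  obtain ⟨C⟩ := exists_ctx ℂ (N := d) (Nat.cast_ne_zero.mpr (NeZero.ne d))
  obtain ⟨P, hP, hP0⟩ := isIntegralElem_jv_ctx C dvd_rfl
  refine ⟨P, hP, ?_⟩
  set e : LaurentSeries ℚ →+* LaurentSeries ℂ :=
    (qx ℂ d).comp (coeffMap (algebraMap ℚ ℂ)) with he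
  have hej : e jq = jv (1 : ℂˣ) d := by
    rw [he, RingHom.comp_apply, ← jqModC_rat, coeffMap_jqModC, jv, scale_one]
  have hed : e (qExpand ℚ d jq) = jv (1 : ℂˣ) (d * d) := by
    rw [he, RingHom.comp_apply, coeffMap_qExpand, ← jqModC_rat, coeffMap_jqModC, ← qx_eq,
      qx_qx (NeZero.ne d) (NeZero.ne d), jv, scale_one]
  apply e.injective
  rw [map_zero, Polynomial.hom_eval₂, hed]
  rw [show e.comp (evInt jq) = evInt (jv (1 : ℂˣ) d) from ?_]
  · exact hP0
  · refine Polynomial.ringHom_ext (fun a => by simp [evInt]) ?_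
    simp [evInt, hej]

end FLTAgent.Igusa
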