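import Fermat.Agent.Igusa.Residue
import Fermat.Agent.Igusa.Integrality
import Mathlib.FieldTheory.IsAlgClosed.AlgebraicClosure
import Mathlib.LinearAlgebra.Dimension.DivisionRing

/-!
# An integral monomial basis of the modular function field

`exists_monBasis`: for `ℓ ∤ N` there are monomials in the `j(q^d)`, `d ∣ N`, over `ℤ_(ℓ)` whose
reductions modulo `ℓ` are independent over `𝔽_ℓ[j]`, as many as the degree over the `j`-line.
`exists_rat_relation` says that more elements than this degree are dependent over `ℚ[j]`.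
-/

set_option autoImplicit false

noncomputable section

open ModularCurve IntermediateField GaloisRep

namespace FLTAgent.Igusa

section Field

variable {k : Type} [Field k] {N : ℕ} [NeZero N]

omit [NeZero N] in
theorem adjoin_jq_le_fullC : k⟮jqModC k⟯ ≤ modularFunctionFieldFullC k N :=
  adjoin_simple_le_iff.mpr (jqModC_mem_full k N)

variable [IsAlgClosed k]

omit [NeZero N] in
theorem exists_monomial_basis (hN : (N : k) ≠ 0) :
    ∃ m : Fin (relfinrank k⟮jqModC k⟯ (modularFunctionFieldFullC k N)) → LaurentSeries k,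
      (∀ i, m i ∈ Submonoid.closure (divisorExpansionsC k N)) ∧
      ∀ P : Fin (relfinrank k⟮jqModC k⟯ (modularFunctionFieldFullC k N)) → Polynomial k,
        ∑ i, Polynomial.aeval (jqModC k) (P i) * m i = 0 → ∀ i, P i = 0 := by
  set n := relfinrank k⟮jqModC k⟯ (modularFunctionFieldFullC k N) with hn
  set K := k⟮jqModC k⟯ with hK
  set E : IntermediateField K (LaurentSeries k) :=
    extendScalars (adjoin_jq_le_fullC (k := k) (N := N))
  have hfr : Module.finrank K E = n := (relfinrank_eq_finrank_of_le adjoin_jq_le_fullC).symm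
  have hpos : 0 < n := relfinrank_fullC_pos k hN
  have : FiniteDimensional K E := Module.finite_of_finrank_pos (hfr ▸ hpos)
  set S := divisorExpansionsC k N
  have hE : E = IntermediateField.adjoin K S := by
    apply IntermediateField.restrictScalars_injective k
    rw [IntermediateField.restrictScalars_adjoin, extendScalars_restrictScalars]
    refine le_antisymm (adjoin.mono _ _ _ Set.subset_union_right) (adjoin_le_iff.mpr ?_)
    rintro x (hx | hx)
    · exact adjoin_jq_le_fullC (N := N) hx
    · exact subset_adjoin k _ hx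
  have halg : ∀ x ∈ S, IsAlgebraic K x := by
    intro x hx
    have hxE : x ∈ E := by rw [hE]; exact subset_adjoin K _ hx
    exact (IntermediateField.isIntegral_iff.mp
      (Algebra.IsIntegral.isIntegral (R := K) (⟨x, hxE⟩ : E))).isAlgebraic
  set t : Set (LaurentSeries k) := (Submonoid.closure S : Set (LaurentSeries k))
  have hspan : Submodule.span K t = E.toSubalgebra.toSubmodule := by
    rw [hE, adjoin_toSubalgebra_of_isAlgebraic halg, Algebra.adjoin_eq_span]
  obtain ⟨b, hbt, hbspan, hbli⟩ := exists_linearIndependent K t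
  rw [hspan] at hbspan
  let v : b → E := fun x => ⟨x, by
    have := Submodule.subset_span (R := K) x.2
    rw [hbspan] at this
    exact this⟩
  have hvli : LinearIndependent K v := LinearIndependent.of_comp E.val.toLinearMap hbli
  have : Finite b := hvli.finite
  have : Fintype b := Fintype.ofFinite b
  have hcard : Fintype.card b = n := by
    have h := finrank_span_eq_card hbli
    rw [Subtype.range_coe_subtype] at h
    simp only [Set.ofPred_mem_eq] at h
    rw [(LinearEquiv.ofEq _ _ hbspan).finrank_eq] at h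
    rw [← h, ← hfr]
    rfl
  let e : Fin n ≃ b := (Fintype.equivFinOfCardEq hcard).symm
  refine ⟨fun i => (e i).1, fun i => hbt (e i).2, fun P hP i => ?_⟩
  have hmem : ∀ Q : Polynomial k, Polynomial.aeval (jqModC k) Q ∈ K := fun Q =>
    IntermediateField.algebra_adjoin_le_adjoin k _ (Polynomial.aeval_mem_adjoin_singleton k _)
  have hli : LinearIndependent K (fun i => (e i : LaurentSeries k)) := hbli.comp e e.injective
  have h0 := Fintype.linearIndependent_iff.mp hli (fun i => ⟨_, hmem (P i)⟩)
    (by simpa [Algebra.smul_def] using hP) i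
  have htr : Transcendental k (jqModC k) :=
    transcendental_of_lead lead_jqModC one_ne_zero (by norm_num)
  exact (transcendental_iff.mp htr) (P i) (congrArg Subtype.val h0)

omit [NeZero N] in
/-- More than `[F̄ : k(j)]` elements satisfy a relation with polynomial coefficients. -/
theorem exists_relation (hN : (N : k) ≠ 0) {ι : Type} [Fintype ι]
    (hι : relfinrank k⟮jqModC k⟯ (modularFunctionFieldFullC k N) < Fintype.card ι)
    {v : ι → LaurentSeries k} (hv : ∀ i, v i ∈ modularFunctionFieldFullC k N) :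
    ∃ P : ι → Polynomial k, (∃ i, P i ≠ 0) ∧
      ∑ i, Polynomial.aeval (jqModC k) (P i) * v i = 0 := by
  classical
  set K := k⟮jqModC k⟯ with hK
  set E : IntermediateField K (LaurentSeries k) :=
    extendScalars (adjoin_jq_le_fullC (k := k) (N := N))
  have hfr : Module.finrank K E = relfinrank k⟮jqModC k⟯ (modularFunctionFieldFullC k N) :=
    (relfinrank_eq_finrank_of_le adjoin_jq_le_fullC).symm
  have : FiniteDimensional K E :=
    Module.finite_of_finrank_pos (hfr ▸ relfinrank_fullC_pos k hN)
  have hnli : ¬ LinearIndependent K (fun i => (⟨v i, hv i⟩ : E)) := fun h =>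
    absurd (h.fintype_card_le_finrank.trans_eq hfr) (not_le.mpr hι)
  obtain ⟨g, hg, i0, hi0⟩ := Fintype.not_linearIndependent_iff.mp hnli
  have hg' : ∑ i, (g i : LaurentSeries k) * v i = 0 := by
    have := congrArg (fun z : E => (z : LaurentSeries k)) hg
    simpa [Algebra.smul_def] using this
  have hrep : ∀ i, ∃ r s : Polynomial k,
      (g i : LaurentSeries k) = Polynomial.aeval (jqModC k) r / Polynomial.aeval (jqModC k) s :=
    fun i => mem_adjoin_simple_iff k (g i : LaurentSeries k) |>.mp (g i).2
  choose r s hrs using hrep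
  have htr : Transcendental k (jqModC k) :=
    transcendental_of_lead lead_jqModC one_ne_zero (by norm_num)
  let s' : ι → Polynomial k := fun i => if s i = 0 then 1 else s i
  let r' : ι → Polynomial k := fun i => if s i = 0 then 0 else r i
  have hs' : ∀ i, Polynomial.aeval (jqModC k) (s' i) ≠ 0 := fun i h => by
    have h1 := (transcendental_iff.mp htr) _ h
    by_cases hs : s i = 0 <;> simp [s', hs] at h1
  have hrs' : ∀ i, (g i : LaurentSeries k) * Polynomial.aeval (jqModC k) (s' i) =
      Polynomial.aeval (jqModC k) (r' i) := fun i => by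
    by_cases hs : s i = 0
    · simp [s', r', hs, hrs i]
    · simp only [s', r', if_neg hs, hrs i]
      exact div_mul_cancel₀ _ fun h => hs ((transcendental_iff.mp htr) _ h)
  refine ⟨fun i => r' i * ∏ l ∈ Finset.univ.erase i, s' l, ⟨i0, ?_⟩, ?_⟩
  · refine mul_ne_zero (fun h => hi0 ?_) (Finset.prod_ne_zero_iff.mpr fun l _ h => hs' l (by
      rw [h, map_zero]))
    have := hrs' i0
    rw [h, map_zero, mul_eq_zero, or_iff_left (hs' i0)] at this
    exact Subtype.ext this
  · have key : ∀ i, Polynomial.aeval (jqModC k) (r' i * ∏ l ∈ Finset.univ.erase i, s' l) * v i =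
        (∏ l, Polynomial.aeval (jqModC k) (s' l)) * ((g i : LaurentSeries k) * v i) := fun i => by
      rw [map_mul, map_prod, ← hrs' i,
        ← Finset.mul_prod_erase Finset.univ _ (Finset.mem_univ i)]
      ring
    simp only [key, ← Finset.mul_sum, hg', mul_zero]

end Field

variable (ℓ : ℕ) [Fact ℓ.Prime] (N : ℕ) [NeZero N]

/-- The generators `j(q^d)`, `d ∣ N`, over `ℤ_(ℓ)`. -/
def genSeries : Set (LaurentSeries (Zl ℓ)) :=
  (fun d => qx (Zl ℓ) d (jqModC (Zl ℓ))) '' {d | d ∣ N}

variable {ℓ N}

omit [Fact (Nat.Prime ℓ)] in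
theorem map_genSeries {k : Type} [Field k] (f : Zl ℓ →+* k) :
    coeffMap f '' genSeries ℓ N = divisorExpansionsC k N := by
  rw [divisorExpansionsC_eq k (NeZero.ne N), genSeries, Set.image_image]
  refine Set.image_congr fun d hd => ?_
  show coeffMap f (qx (Zl ℓ) d _) = jv (1 : kˣ) d
  rw [coeffMap_qx f (fun h => NeZero.ne N (Nat.eq_zero_of_zero_dvd (h ▸ hd))), coeffMap_jqModC,
    jv, scale_one]

/-- Members of the monomial basis over `ℤ_(ℓ)`. -/
structure MonBasis (ℓ : ℕ) [Fact ℓ.Prime] (N : ℕ) [NeZero N] where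
  n : ℕ
  e : Fin n → LaurentSeries (Zl ℓ)
  mem_closure : ∀ i, e i ∈ Submonoid.closure (genSeries ℓ N)
  indep : ∀ P : Fin n → Polynomial (ZMod ℓ),
    ∑ i, Polynomial.aeval (jqModC (ZMod ℓ)) (P i) * redSeries ℓ (e i) = 0 → ∀ i, P i = 0
  degree_eq : n = relfinrank ℂ⟮jqModC ℂ⟯ (modularFunctionFieldFullC ℂ N)

theorem exists_monBasis (hℓN : ¬ ℓ ∣ N) : Nonempty (MonBasis ℓ N) := by
  set k := AlgebraicClosure (ZMod ℓ)
  have hNk : (N : k) ≠ 0 := by
    rw [← map_natCast (algebraMap (ZMod ℓ) k), Ne,
      map_eq_zero_iff _ (algebraMap (ZMod ℓ) k).injective, ZMod.natCast_eq_zero_iff]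
    exact hℓN
  obtain ⟨m, hm, hind⟩ := exists_monomial_basis (k := k) (N := N) hNk
  set f : Zl ℓ →+* k := (algebraMap (ZMod ℓ) k).comp (redHom ℓ) with hf
  have hlift : ∀ i, ∃ x ∈ Submonoid.closure (genSeries ℓ N), coeffMap f x = m i := by
    intro i
    have h := hm i
    rw [← map_genSeries f, ← MonoidHom.map_mclosure (coeffMap f)] at h
    exact h
  choose e he hem using hlift
  refine ⟨⟨_, e, he, fun P hP i => ?_,
    relfinrank_fullC_eq_relfinrank_fullC k ℂ hNk (Nat.cast_ne_zero.mpr (NeZero.ne N))⟩⟩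
  have h := congrArg (coeffMap (algebraMap (ZMod ℓ) k)) hP
  rw [map_sum, map_zero] at h
  have hz := hind (fun i => (P i).map (algebraMap (ZMod ℓ) k)) (by
    rw [← h]
    refine Finset.sum_congr rfl fun i _ => ?_
    rw [map_mul, ← hem i, redSeries, coeffMap_coeffMap, ← hf]
    congr 1
    show _ = coeffMap _ ((Polynomial.aeval (jqModC (ZMod ℓ))).toRingHom (P i))
    rw [← ev_eq_aeval, ← RingHom.comp_apply, coeffMap_ev, coeffMap_jqModC, RingHom.comp_apply,
      ev_eq_aeval]
    rfl) i
  exact (Polynomial.map_eq_zero_iff (algebraMap (ZMod ℓ) k).injective).mp hz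

/-- More than `[F : ℚ(j)]` elements of `ℚ((q))` coming from the modular function field satisfy a
relation with coefficients in `ℚ[j]`. -/
theorem exists_rat_relation {ι : Type} [Fintype ι]
    (hι : relfinrank ℂ⟮jqModC ℂ⟯ (modularFunctionFieldFullC ℂ N) < Fintype.card ι)
    {v : ι → LaurentSeries ℚ} (hv : ∀ i, v i ∈ modularFunctionFieldFull N) :
    ∃ P : ι → Polynomial ℚ, (∃ i, P i ≠ 0) ∧
      ∑ i, Polynomial.aeval jq (P i) * v i = 0 := by
  classical
  set c : LaurentSeries ℚ →+* LaurentSeries ℂ := coeffMap (algebraMap ℚ ℂ) with hc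
  have hvC : ∀ i, c (v i) ∈ modularFunctionFieldFullC ℂ N := by
    intro i
    have h := hv i
    generalize v i = x at h ⊢
    induction h using IntermediateField.adjoin_induction ℚ with
    | mem y hy =>
      obtain ⟨d, hd0, hd, rfl⟩ := hy
      rw [hc, coeffMap_qExpand, ← jqModC_rat, coeffMap_jqModC]
      exact jqModCd_mem_full ℂ N hd
    | algebraMap a =>
      rw [hc, algebraMap_laurentSeries_eq_single, coeffMap_single,
        ← algebraMap_laurentSeries_eq_single]
      exact IntermediateField.algebraMap_mem _ _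
    | add x y _ _ hx hy => rw [map_add]; exact add_mem hx hy
    | inv x _ hx => rw [map_inv₀]; exact inv_mem hx
    | mul x y _ _ hx hy => rw [map_mul]; exact mul_mem hx hy
  obtain ⟨P, ⟨i0, hi0⟩, hP⟩ := exists_relation (k := ℂ) (N := N)
    (Nat.cast_ne_zero.mpr (NeZero.ne N)) hι hvC
  obtain ⟨n0, hn0⟩ : ∃ n0, (P i0).coeff n0 ≠ 0 :=
    ⟨_, Polynomial.leadingCoeff_ne_zero.mpr hi0⟩
  obtain ⟨lam, hlam⟩ : ∃ lam : Module.Dual ℚ ℂ, lam ((P i0).coeff n0) ≠ 0 :=
    not_forall.mp fun h => hn0 ((Module.forall_dual_apply_eq_zero_iff ℚ _).mp h)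
  obtain ⟨D, hD⟩ : ∃ D, ∀ i, (P i).natDegree < D :=
    ⟨(Finset.univ.sup fun i => (P i).natDegree) + 1,
      fun i => Nat.lt_succ_of_le
        (Finset.le_sup (f := fun i => (P i).natDegree) (Finset.mem_univ i))⟩
  let Q : ι → Polynomial ℚ := fun i =>
    ∑ n ∈ Finset.range D, Polynomial.monomial n (lam ((P i).coeff n))
  refine ⟨Q, ⟨i0, fun h => hlam ?_⟩, ?_⟩
  · have hc' := congrArg (fun R => Polynomial.coeff R n0) h
    have hlt : n0 < D := lt_of_le_of_lt (Polynomial.le_natDegree_of_ne_zero hn0) (hD i0)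
    simpa [Q, Polynomial.coeff_monomial, Finset.sum_ite_eq', hlt] using hc'
  · ext z
    have hz := congrArg (fun x : LaurentSeries ℂ => lam (x.coeff z)) hP
    simp only [HahnSeries.coeff_sum, map_sum, HahnSeries.coeff_zero, map_zero] at hz
    simp only [HahnSeries.coeff_sum, HahnSeries.coeff_zero]
    rw [← hz]
    refine Finset.sum_congr rfl fun i _ => ?_
    have hPexp : Polynomial.aeval (jqModC ℂ) (P i) =
        ∑ n ∈ Finset.range D, HahnSeries.C ((P i).coeff n) * c (jq ^ n) := by
      rw [Polynomial.aeval_eq_sum_range' (hD i)]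
      refine Finset.sum_congr rfl fun n _ => ?_
      rw [Algebra.smul_def, algebraMap_laurentSeries_eq_single, hc, map_pow, ← jqModC_rat,
        coeffMap_jqModC]
      rfl
    have hQexp : Polynomial.aeval jq (Q i) =
        ∑ n ∈ Finset.range D, HahnSeries.C (lam ((P i).coeff n)) * jq ^ n := by
      simp only [Q, map_sum, Polynomial.aeval_monomial]
      refine Finset.sum_congr rfl fun n _ => ?_
      rw [algebraMap_laurentSeries_eq_single]
      rfl
    rw [hPexp, hQexp, Finset.sum_mul, Finset.sum_mul, HahnSeries.coeff_sum, HahnSeries.coeff_sum,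
      map_sum]
    refine Finset.sum_congr rfl fun n _ => ?_
    rw [mul_assoc, mul_assoc, HahnSeries.C_apply, HahnSeries.C_apply,
      HahnSeries.coeff_single_zero_mul, HahnSeries.coeff_single_zero_mul, ← map_mul c,
      hc, coeffMap_coeff, mul_comm ((P i).coeff n), ← Algebra.smul_def, map_smul, smul_eq_mul,
      mul_comm]

end FLTAgent.Igusa
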