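import Fermat.Agent.Igusa.Orbits
import Mathlib.FieldTheory.PrimitiveElement
import Mathlib.FieldTheory.SeparableClosure
import Mathlib.FieldTheory.Relrank

/-!
# The degree of the field of the standard family

The field `famField N` generated over `k(j)` by the standard family of level `N` inside `Amb` is
separable (`separable_famField`) of degree `orbitDeg N` (`finrank_famField`).
-/

set_option autoImplicit false

noncomputable section

open ModularCurve IntermediateField Polynomial

namespace FLTAgent.Igusa.Ctx

variable {k : Type} [Field k] [IsAlgClosed k] {M : ℕ} (C : Ctx k M)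

/-- `k(j)` inside `Amb`. -/
abbrev jField : IntermediateField k (Amb k M) := k⟮C.std 1⟯

/-- The standard family as a set. -/
def stdSet (N : ℕ) : Set (Amb k M) := C.std '' {d | d ∣ N}

/-- The field generated by the standard family over `k(j)`. -/
abbrev famField (N : ℕ) : IntermediateField C.jField (Amb k M) :=
  IntermediateField.adjoin C.jField (C.stdSet N)

theorem separable_phi_std {d p : ℕ} (hp : p.Prime) (hdp : d * p ∣ M) :
    ((C.phi p).map (Polynomial.aeval (C.std d)).toRingHom).Separable := by
  have : NeZero p := ⟨hp.ne_zero⟩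
  have hdM : d ∣ M := (dvd_mul_right d p).trans hdp
  have hpM : p ∣ M := (Dvd.intro_left d rfl).trans hdp
  obtain ⟨m0, hm0⟩ := id hpM
  set m := m0 * d with hm'
  have hd0 : d ≠ 0 := fun h => C.hM (Nat.eq_zero_of_zero_dvd (h ▸ hdM))
  have hm : m ≠ 0 := mul_ne_zero (fun h => C.hM (by rw [hm0, h, mul_zero])) hd0
  have hMd : M * d = m * p := by rw [hm', hm0]; ring
  have hmem : jv ((1 : kˣ) ^ p) (m * p) ∈ algPart k M := by
    rw [one_pow, ← hMd]; exact (C.isVx_std hdM).2.1
  rw [show C.std d = vx ((1 : kˣ) ^ p) (m * p) by rw [one_pow, ← hMd]; rfl,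
    C.phi_map_vx hp hpM hm hmem]
  refine Polynomial.separable_X_sub_C.mul (Polynomial.separable_prod_X_sub_C_iff'.mpr ?_) ?_
  · intro a ha b hb hab
    obtain ⟨-, h⟩ := vx_inj (C.down_mem hp hpM hm hmem (Finset.mem_range.mp ha))
      (C.down_mem hp hpM hm hmem (Finset.mem_range.mp hb)) hm hm hab
    exact (C.zeta_spec hpM).pow_inj (Finset.mem_range.mp ha) (Finset.mem_range.mp hb)
      (by simpa using congrArg Units.val (mul_left_cancel h))
  · refine IsCoprime.prod_right fun a ha => Polynomial.isCoprime_X_sub_C_of_isUnit_sub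
      (isUnit_iff_ne_zero.mpr (sub_ne_zero.mpr fun h => ?_))
    obtain ⟨h', -⟩ := vx_inj (C.up_mem hp hpM hm hmem)
      (C.down_mem hp hpM hm hmem (Finset.mem_range.mp ha))
      (mul_ne_zero hm (mul_ne_zero hp.ne_zero hp.ne_zero)) hm h
    have : 1 < p * p := Nat.one_lt_mul_iff.mpr ⟨hp.pos, hp.pos, Or.inl hp.one_lt⟩
    have := Nat.pos_of_ne_zero hm
    nlinarith

theorem isSeparable_std {d : ℕ} (hd : d ∣ M) : IsSeparable C.jField (C.std d) := by
  induction d using Nat.strong_induction_on with
  | _ d ih =>
    rcases eq_or_ne d 1 with rfl | hd1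
    · exact isSeparable_algebraMap (⟨_, mem_adjoin_simple_self k _⟩ : C.jField)
    obtain ⟨p, hp, e, rfl⟩ : ∃ p : ℕ, p.Prime ∧ p ∣ d :=
      ⟨_, Nat.minFac_prime hd1, Nat.minFac_dvd d⟩
    have he0 : 0 < e := Nat.pos_of_ne_zero fun h => C.hM (Nat.eq_zero_of_zero_dvd
      (by simpa [h] using hd))
    have hep : e * p ∣ M := by rwa [mul_comm]
    rw [mul_comm p e]
    have hmem : C.std e ∈ separableClosure C.jField (Amb k M) :=
      mem_separableClosure_iff.mpr (ih e (by nlinarith [hp.two_le]) ((dvd_mul_left e p).trans hd))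
    have hcomp : (algebraMap (separableClosure C.jField (Amb k M)) (Amb k M)).comp
        (Polynomial.aeval (R := k) (⟨_, hmem⟩ : separableClosure C.jField (Amb k M))).toRingHom =
        (Polynomial.aeval (R := k) (C.std e)).toRingHom := by
      refine RingHom.ext fun P => ?_
      exact (Polynomial.aeval_algHom_apply
        ((separableClosure C.jField (Amb k M)).val.restrictScalars k)
        (⟨_, hmem⟩ : separableClosure C.jField (Amb k M)) P).symm
    set Q := (C.phi p).map (Polynomial.aeval (R := k)
      (⟨_, hmem⟩ : separableClosure C.jField (Amb k M))).toRingHom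
    have hQ : Q.map (algebraMap (separableClosure C.jField (Amb k M)) (Amb k M)) =
        (C.phi p).map (Polynomial.aeval (R := k) (C.std e)).toRingHom := by
      rw [Polynomial.map_map, hcomp]
    have hsep : Q.Separable := by
      rw [← Polynomial.separable_map (algebraMap (separableClosure C.jField (Amb k M)) (Amb k M)),
        hQ]
      exact C.separable_phi_std hp hep
    refine IsSeparable.of_algebra_isSeparable_of_isSeparable C.jField
      (E := separableClosure C.jField (Amb k M)) (Polynomial.Separable.of_dvd hsep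
        (minpoly.dvd _ _ ?_))
    rw [Polynomial.aeval_def, ← Polynomial.eval_map, hQ]
    exact C.rel_std_up hp hep

theorem finiteDimensional_famField {N : ℕ} (hN : N ∣ M) :
    FiniteDimensional C.jField (C.famField N) := by
  have hfin : ({d | d ∣ N} : Set ℕ).Finite :=
    (Set.finite_Iic N).subset fun d hd => Nat.le_of_dvd
      (Nat.pos_of_ne_zero fun h => C.hM (Nat.eq_zero_of_zero_dvd (h ▸ hN))) hd
  have : Finite (C.stdSet N) := (hfin.image C.std).to_subtype
  refine IntermediateField.finiteDimensional_adjoin fun x hx => ?_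
  obtain ⟨d, hd, rfl⟩ := hx
  exact (C.isSeparable_std (hd.trans hN)).isIntegral

theorem separable_famField {N : ℕ} (hN : N ∣ M) :
    Algebra.IsSeparable C.jField (C.famField N) := by
  rw [IntermediateField.isSeparable_adjoin_iff_isSeparable]
  rintro x ⟨d, hd, rfl⟩
  exact C.isSeparable_std (hd.trans hN)

theorem natCard_algHom_eq_orbitDeg {N : ℕ} (hN : N ∣ M) :
    Nat.card (C.famField N →ₐ[C.jField] Amb k M) = C.orbitDeg N := by
  have := C.finiteDimensional_famField hN
  have hA : Algebra.IsAlgebraic C.jField (Amb k M) := C.isAlgebraic_adjoin_std (one_dvd M)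
  have : IsAlgClosure C.jField (Amb k M) := ⟨inferInstance, hA⟩
  have : Normal C.jField (Amb k M) := IsAlgClosure.normal C.jField (Amb k M)
  have hfix : ∀ σ : C.fixGroup 1, ∀ z : C.jField, (σ : Amb k M ≃ₐ[k] Amb k M) z = z := by
    rintro ⟨σ, hσ⟩ ⟨z, hz⟩
    show σ z = z
    induction hz using IntermediateField.adjoin_induction k with
    | mem y hy => rw [Set.mem_singleton_iff] at hy; rw [hy]; exact hσ 1 dvd_rfl
    | algebraMap a => exact σ.commutes a
    | add x y _ _ hx hy => rw [map_add, hx, hy]
    | inv x _ hx => rw [map_inv₀, hx]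
    | mul x y _ _ hx hy => rw [map_mul, hx, hy]
  let res : C.fixGroup 1 → (C.famField N →ₐ[C.jField] Amb k M) := fun σ =>
    { toRingHom := (σ.1 : Amb k M →+* Amb k M).comp (C.famField N).val.toRingHom
      commutes' := fun z => hfix σ z }
  have hsurj : Function.Surjective res := by
    intro φ
    obtain ⟨σ, hσ⟩ : ∃ σ : Amb k M ≃ₐ[C.jField] Amb k M, ∀ z : C.famField N, σ z = φ z := by
      obtain ⟨f, hf⟩ := IntermediateField.exists_algHom_of_splits' (E := Amb k M) φ
        fun s => ⟨Algebra.IsIntegral.isIntegral s, IsAlgClosed.splits _⟩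
      exact ⟨AlgEquiv.ofBijective f (Algebra.IsAlgebraic.algHom_bijective f),
        fun z => congrArg (fun g => g z) hf⟩
    refine ⟨⟨σ.restrictScalars k, fun d hd => ?_⟩, AlgHom.ext hσ⟩
    rw [Nat.dvd_one.mp hd]
    exact σ.commutes (⟨_, mem_adjoin_simple_self k _⟩ : C.jField)
  have hker : ∀ σ τ : C.fixGroup 1, res σ = res τ ↔
      σ⁻¹ * τ ∈ (C.fixGroup N).subgroupOf (C.fixGroup 1) := by
    intro σ τ
    rw [Subgroup.mem_subgroupOf]
    constructor
    · intro h d hd
      have h' := congrArg (fun f => f ⟨C.std d,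
        IntermediateField.subset_adjoin _ _ ⟨d, hd, rfl⟩⟩) h
      show σ.1.symm (τ.1 (C.std d)) = C.std d
      rw [AlgEquiv.symm_apply_eq]
      exact h'.symm
    · intro h
      have key : ∀ z ∈ C.famField N, σ.1 z = τ.1 z := by
        intro z hz
        induction hz using IntermediateField.adjoin_induction C.jField with
        | mem y hy =>
          obtain ⟨d, hd, rfl⟩ := hy
          have := h d hd
          change σ.1.symm (τ.1 (C.std d)) = C.std d at this
          rw [AlgEquiv.symm_apply_eq] at this
          exact this.symm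
        | algebraMap a => exact (hfix σ a).trans (hfix τ a).symm
        | add x y _ _ hx hy => rw [map_add, map_add, hx, hy]
        | inv x _ hx => rw [map_inv₀, map_inv₀, hx]
        | mul x y _ _ hx hy => rw [map_mul, map_mul, hx, hy]
      exact AlgHom.ext fun z => key z.1 z.2
  rw [orbitDeg, Subgroup.relIndex, Subgroup.index]
  refine (Nat.card_congr ?_).symm
  refine Equiv.ofBijective
    (Quotient.lift res fun σ τ h => (hker σ τ).mpr (QuotientGroup.leftRel_apply.mp h)) ⟨?_, ?_⟩
  · rintro ⟨σ⟩ ⟨τ⟩ h
    exact Quotient.sound (QuotientGroup.leftRel_apply.mpr ((hker σ τ).mp h))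
  · intro φ
    obtain ⟨σ, hσ⟩ := hsurj φ
    exact ⟨Quotient.mk _ σ, hσ⟩

theorem finrank_famField {N : ℕ} (hN : N ∣ M) :
    Module.finrank C.jField (C.famField N) = C.orbitDeg N := by
  have := C.finiteDimensional_famField hN
  have := C.separable_famField hN
  rw [← C.natCard_algHom_eq_orbitDeg hN, Nat.card_eq_fintype_card, AlgHom.card]

end FLTAgent.Igusa.Ctx
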