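import Mathlib.RingTheory.AdjoinRoot
import Mathlib.RingTheory.Polynomial.Cyclotomic.Roots
import Mathlib.RingTheory.Polynomial.RationalRoot
import Mathlib.FieldTheory.RatFunc.AsPolynomial
import Mathlib.FieldTheory.IsAlgClosed.Basic
import Fermat.Agent.Igusa.Series

/-!
# Modular polynomial data of prime level

`PolyData p` records formal modular polynomial identities over `ℤ[ζ_p]((s))`, `q = s^p`.
They specialise to any field with a primitive `p`-th root of unity (`phiK`, `phiK_eq`), and
`jv_not_mem_adjoin` says that `j(q^p)` is not in `k(j(q))` when `p` is invertible.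
-/

set_option autoImplicit false

noncomputable section

open HahnSeries ModularCurve Polynomial

namespace FLTAgent.Igusa

universe u

/-- `ℤ[ζ_p]`. -/
abbrev ZetaRing (p : ℕ) : Type := AdjoinRoot (Polynomial.cyclotomic p ℤ)

theorem root_pow_eq_one (p : ℕ) :
    (AdjoinRoot.root (Polynomial.cyclotomic p ℤ) : ZetaRing p) ^ p = 1 := by
  obtain ⟨g, hg⟩ := Polynomial.cyclotomic.dvd_X_pow_sub_one p ℤ
  have h := congrArg (AdjoinRoot.mk (Polynomial.cyclotomic p ℤ)) hg
  rw [map_mul, AdjoinRoot.mk_self, zero_mul, map_sub, map_pow, AdjoinRoot.mk_X, map_one,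
    sub_eq_zero] at h
  exact h

/-- `ζ_p` as a unit of `ℤ[ζ_p]`. -/
def zetaU (p : ℕ) [NeZero p] : (ZetaRing p)ˣ :=
  Units.ofPowEqOne _ p (root_pow_eq_one p) (NeZero.ne p)

/-- Evaluate `Y ↦ y`, constants as constants. -/
def ev {R : Type u} [CommRing R] (y : LaurentSeries R) :
    Polynomial R →+* LaurentSeries R :=
  Polynomial.eval₂RingHom HahnSeries.C y

/-- `q^(p*p - p) * U(q^(p*p)) / U(q^p)` with `Δ(q) = q U(q)`: the series of `Δ(q^(p²))/Δ(q^p)`. -/
def deltaQ (R : Type u) [CommRing R] (p : ℕ) : LaurentSeries R :=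
  single ((p : ℤ) * p - p) 1 *
    qx R (p * p) (HahnSeries.ofPowerSeries ℤ R (dedekindEtaUnit.map (Int.castRingHom R))) *
    qx R p (HahnSeries.ofPowerSeries ℤ R (dedekindEtaUnitInv.map (Int.castRingHom R)))

theorem lead_deltaQ (R : Type u) [CommRing R] (p : ℕ) [NeZero p] :
    Lead (deltaQ R p) ((p : ℤ) * p - p) 1 := by
  have hU : Lead (HahnSeries.ofPowerSeries ℤ R (dedekindEtaUnit.map (Int.castRingHom R))) 0 1 := by
    have h := lead_ofPowerSeries (dedekindEtaUnit.map (Int.castRingHom R))
    rwa [← PowerSeries.coeff_zero_eq_constantCoeff, PowerSeries.coeff_map,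
      PowerSeries.coeff_zero_eq_constantCoeff, constantCoeff_dedekindEtaUnit, map_one] at h
  have hV :
      Lead (HahnSeries.ofPowerSeries ℤ R (dedekindEtaUnitInv.map (Int.castRingHom R))) 0 1 := by
    have h := lead_ofPowerSeries (dedekindEtaUnitInv.map (Int.castRingHom R))
    rwa [← PowerSeries.coeff_zero_eq_constantCoeff, PowerSeries.coeff_map,
      PowerSeries.coeff_zero_eq_constantCoeff, constantCoeff_dedekindEtaUnitInv, map_one] at h
  have h := ((lead_single ((p : ℤ) * p - p) (1 : R)).mul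
    (hU.qx (mul_ne_zero (NeZero.ne p) (NeZero.ne p)))).mul (hV.qx (NeZero.ne p))
  simpa [deltaQ] using h

theorem coeffMap_deltaQ {R S : Type u} [CommRing R] [CommRing S] (f : R →+* S) (p : ℕ)
    [NeZero p] : coeffMap f (deltaQ R p) = deltaQ S p := by
  have hmap : ∀ F : PowerSeries ℤ,
      (F.map (Int.castRingHom R)).map f = F.map (Int.castRingHom S) := by
    intro F
    ext n
    simp
  simp only [deltaQ, map_mul, coeffMap_single, map_one,
    coeffMap_qx f (mul_ne_zero (NeZero.ne p) (NeZero.ne p)), coeffMap_qx f (NeZero.ne p),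
    coeffMap_ofPowerSeries, hmap]

/-- Modular polynomial data of prime level `p`, all identities in `ℤ[ζ_p]((s))`, `q = s^p`. -/
structure PolyData (p : ℕ) [NeZero p] where
  Φ : Polynomial (Polynomial (ZetaRing p))
  Ψ : Polynomial (Polynomial (ZetaRing p))
  G : Polynomial (Polynomial (ZetaRing p))
  Φ_monic : Φ.Monic
  Φ_eq : Φ.map (ev (jv 1 p)) =
    (Polynomial.X - Polynomial.C (jv 1 (p * p))) *
      ∏ a ∈ Finset.range p, (Polynomial.X - Polynomial.C (jv (zetaU p ^ a) 1))
  Ψ_monic : Ψ.Monic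
  Ψ_eq : (Ψ.map (ev (jv 1 p))).eval ((p : LaurentSeries (ZetaRing p)) ^ 12 *
    deltaQ (ZetaRing p) p) = 0
  G_eq : (G.map (ev (jv 1 p))).eval (jv 1 (p * p)) =
    (p : LaurentSeries (ZetaRing p)) ^ 12 * deltaQ (ZetaRing p) p *
      ∏ a ∈ Finset.range p, (jv 1 (p * p) - jv (zetaU p ^ a) 1)

/-! ### Specialisation to a field -/

variable {k : Type} [Field k]

theorem ev_eq_aeval (y : LaurentSeries k) :
    (ev y : Polynomial k →+* LaurentSeries k) = (Polynomial.aeval y).toRingHom := by
  refine Polynomial.ringHom_ext (fun a => ?_) ?_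
  · simp [ev, algebraMap_laurentSeries_eq_single]
  · simp [ev]

theorem coeffMap_ev {R S : Type u} [CommRing R] [CommRing S] (f : R →+* S) (y : LaurentSeries R) :
    (coeffMap f).comp (ev y) = (ev (coeffMap f y)).comp (Polynomial.mapRingHom f) := by
  refine Polynomial.ringHom_ext (fun a => ?_) ?_
  · simp [ev, HahnSeries.C_apply]
  · simp [ev]

/-- The map `ℤ[ζ_p] → k` attached to a primitive root. -/
def zetaHom {p : ℕ} (ζ : k) (hζ : IsPrimitiveRoot ζ p) [NeZero p] : ZetaRing p →+* k :=
  AdjoinRoot.lift (Int.castRingHom k) ζ (by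
    rw [← Polynomial.eval_map, Polynomial.map_cyclotomic]
    exact hζ.isRoot_cyclotomic (Nat.pos_of_ne_zero (NeZero.ne p)))

theorem zetaHom_zetaU {p : ℕ} [NeZero p] {ζ : kˣ} (hζ : IsPrimitiveRoot (ζ : k) p) :
    Units.map (zetaHom (ζ : k) hζ : ZetaRing p →* k) (zetaU p) = ζ := by
  ext
  simp [zetaU, zetaHom]

theorem map_ev_jv {p : ℕ} [NeZero p] (f : ZetaRing p →+* k)
    (P : Polynomial (Polynomial (ZetaRing p))) :
    (P.map (ev (jv 1 p))).map (coeffMap f) =
      (P.map (Polynomial.mapRingHom f)).map (Polynomial.aeval (jv (1 : kˣ) p)).toRingHom := by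
  rw [Polynomial.map_map, coeffMap_ev, coeffMap_jv f 1 (NeZero.ne p), map_one, ev_eq_aeval,
    Polynomial.map_map]

/-- `subst c m` is the substitution `s ↦ c s^m`. -/
def subst (c : kˣ) (m : ℕ) : LaurentSeries k →+* LaurentSeries k :=
  (qx k m).comp (scale c)

theorem subst_C (c : kˣ) {m : ℕ} (hm : m ≠ 0) (r : k) :
    subst c m (HahnSeries.C r) = HahnSeries.C r := by
  rw [subst, RingHom.comp_apply, HahnSeries.C_apply, scale_single, zpow_zero, Units.val_one,
    one_mul, qx_single hm, mul_zero]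

theorem subst_aeval (c : kˣ) {m : ℕ} (hm : m ≠ 0) (y : LaurentSeries k) :
    (subst c m).comp (Polynomial.aeval (R := k) y).toRingHom =
      (Polynomial.aeval (R := k) (subst c m y)).toRingHom := by
  rw [← ev_eq_aeval, ← ev_eq_aeval]
  refine Polynomial.ringHom_ext (fun a => ?_) ?_
  · simp only [ev, RingHom.comp_apply, Polynomial.coe_eval₂RingHom, Polynomial.eval₂_C]
    exact subst_C c hm a
  · simp [ev]

theorem subst_jv (c d : kˣ) {m a : ℕ} (hm : m ≠ 0) (ha : a ≠ 0) :
    subst c m (jv d a) = jv (c ^ a * d) (m * a) := by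
  rw [subst, RingHom.comp_apply, scale_jv c d ha, qx_jv _ hm ha]

namespace PolyData

variable {p : ℕ} [NeZero p] (D : PolyData p) {ζ : kˣ} (hζ : IsPrimitiveRoot (ζ : k) p)

/-- The modular polynomial over `k`. -/
def phiK : Polynomial (Polynomial k) :=
  D.Φ.map (Polynomial.mapRingHom (zetaHom (ζ : k) hζ))

theorem phiK_monic : (D.phiK hζ).Monic := D.Φ_monic.map _

/-- Factorisation of the modular polynomial at `j(c^p s^(p m))`. -/
theorem phiK_eq (c : kˣ) {m : ℕ} (hm : m ≠ 0) :
    (D.phiK hζ).map (Polynomial.aeval (jv (c ^ p) (m * p))).toRingHom =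
      (Polynomial.X - Polynomial.C (jv (c ^ (p * p)) (m * (p * p)))) *
        ∏ a ∈ Finset.range p, (Polynomial.X - Polynomial.C (jv (c * ζ ^ a) m)) := by
  have hp : p ≠ 0 := NeZero.ne p
  have h := congrArg (Polynomial.map (coeffMap (zetaHom (ζ : k) hζ))) D.Φ_eq
  rw [map_ev_jv] at h
  have h2 := congrArg (Polynomial.map (subst c m)) h
  rw [Polynomial.map_map, subst_aeval c hm, subst_jv c 1 hm hp, mul_one] at h2
  rw [phiK, h2]
  simp only [Polynomial.map_mul, Polynomial.map_prod, Polynomial.map_sub, Polynomial.map_X,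
    Polynomial.map_C, coeffMap_jv _ _ (mul_ne_zero hp hp), coeffMap_jv _ _ one_ne_zero, map_one,
    map_pow, zetaHom_zetaU hζ, subst_jv _ _ hm (mul_ne_zero hp hp), subst_jv _ _ hm one_ne_zero,
    mul_one, pow_one]

/-- `j(q^p)` is not a rational function of `j(q)` when `p` is invertible. -/
theorem jv_not_mem_adjoin (D : PolyData p) (hζ : IsPrimitiveRoot (ζ : k) p) (hp1 : 1 < p)
    (hpk : (p : k) ≠ 0) {m : ℕ} (hm : m ≠ 0) :
    jv (1 : kˣ) (m * (p * p)) ∉
      IntermediateField.adjoin k {jv (1 : kˣ) (m * p)} := by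
  intro hx
  have hp : p ≠ 0 := NeZero.ne p
  set f := zetaHom (ζ : k) hζ
  set J : LaurentSeries k := jv (1 : kˣ) (m * p) with hJ
  set x : LaurentSeries k := jv (1 : kˣ) (m * (p * p)) with hx'
  set E := IntermediateField.adjoin k {J} with hE
  set W : LaurentSeries k := subst 1 m ((p : LaurentSeries k) ^ 12 * deltaQ k p) with hW
  have hsub : subst (1 : kˣ) m (jv 1 p) = J := by rw [subst_jv 1 1 hm hp]; simp [hJ]
  have hsub2 : subst (1 : kˣ) m (jv 1 (p * p)) = x := by
    rw [subst_jv 1 1 hm (mul_ne_zero hp hp)]; simp [hx']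
  -- specialisation of the two identities
  have hΨ :
      ((D.Ψ.map (Polynomial.mapRingHom f)).map (Polynomial.aeval J).toRingHom).eval W = 0 := by
    have h := congrArg (fun z => subst (1 : kˣ) m (coeffMap f z)) D.Ψ_eq
    simp only [← Polynomial.eval_map_apply, map_ev_jv] at h
    rw [Polynomial.map_map, subst_aeval 1 hm, hsub] at h
    simpa [map_zero, map_mul, map_pow, coeffMap_deltaQ, hW] using h
  have hG : ((D.G.map (Polynomial.mapRingHom f)).map (Polynomial.aeval J).toRingHom).eval x =
      W * ∏ a ∈ Finset.range p, (x - subst (1 : kˣ) m (jv (ζ ^ a) 1)) := by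
    have h := congrArg (fun z => subst (1 : kˣ) m (coeffMap f z)) D.G_eq
    simp only [← Polynomial.eval_map_apply, map_ev_jv] at h
    rw [Polynomial.map_map, subst_aeval 1 hm, hsub,
      coeffMap_jv _ _ (mul_ne_zero hp hp), map_one, hsub2] at h
    simp only [map_mul, map_pow, map_natCast, coeffMap_deltaQ, map_prod, map_sub,
      coeffMap_jv _ _ (mul_ne_zero hp hp), coeffMap_jv _ _ one_ne_zero, map_one, hsub2] at h
    rw [h, hW, map_mul, map_pow, map_natCast]
    simp only [f, zetaHom_zetaU hζ]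
  set P : LaurentSeries k := ∏ a ∈ Finset.range p, (x - subst (1 : kˣ) m (jv (ζ ^ a) 1)) with hP
  have hmapsE : ∀ (Q : Polynomial (Polynomial k)) (z : LaurentSeries k), z ∈ E →
      (Q.map (Polynomial.aeval J).toRingHom).eval z ∈ E := by
    intro Q z hz
    rw [Polynomial.eval_map, Polynomial.eval₂_eq_sum]
    refine sum_mem fun i _ => mul_mem ?_ (pow_mem hz i)
    exact IntermediateField.algebra_adjoin_le_adjoin k _ (Polynomial.aeval_mem_adjoin_singleton k J)
  have hPE : P ∈ E := by
    have hfac := D.phiK_eq hζ 1 hm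
    simp only [one_pow, one_mul] at hfac
    have hd :
        ((Polynomial.derivative (D.phiK hζ)).map (Polynomial.aeval J).toRingHom).eval x = P := by
      rw [← Polynomial.derivative_map, hfac, Polynomial.derivative_mul, Polynomial.eval_add,
        Polynomial.eval_mul, Polynomial.eval_mul]
      simp only [Polynomial.derivative_X_sub_C, Polynomial.eval_one, one_mul, Polynomial.eval_sub,
        Polynomial.eval_X, Polynomial.eval_C, ← hx', sub_self, zero_mul, add_zero,
        Polynomial.eval_prod, hP, subst_jv _ _ hm one_ne_zero, one_pow, mul_one]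
    rw [← hd]
    exact hmapsE _ _ hx
  have hPne : P ≠ 0 := by
    refine Finset.prod_ne_zero_iff.mpr fun a _ => sub_ne_zero.mpr fun h => ?_
    rw [subst_jv _ _ hm one_ne_zero] at h
    obtain ⟨h1, -⟩ := jv_inj (mul_ne_zero hm (mul_ne_zero hp hp)) (mul_ne_zero hm one_ne_zero) h
    have := Nat.eq_of_mul_eq_mul_left (Nat.pos_of_ne_zero hm) h1
    nlinarith
  have hWE : W ∈ E := by
    have h : W =
        ((D.G.map (Polynomial.mapRingHom f)).map (Polynomial.aeval J).toRingHom).eval x / P := by
      rw [hG, mul_div_assoc, div_self hPne, mul_one]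
    rw [h]
    exact div_mem (hmapsE _ _ hx) hPE
  -- `W` is integral over `k[J]`, hence a polynomial in `J`
  have hJt : Transcendental k J := transcendental_jv 1 (mul_ne_zero hm hp)
  let e := RatFunc.algEquivOfTranscendental J hJt
  set r := e.symm ⟨W, hWE⟩ with hr
  have hroot : Polynomial.aeval r (D.Ψ.map (Polynomial.mapRingHom f)) = 0 := by
    refine e.injective (Subtype.val_injective ?_)
    rw [map_zero, ZeroMemClass.coe_zero, ← hΨ]
    rw [Polynomial.aeval_def, Polynomial.eval_map (Polynomial.aeval J).toRingHom,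
      show ((e (Polynomial.eval₂ (algebraMap (Polynomial k) (RatFunc k)) r
        (D.Ψ.map (Polynomial.mapRingHom f)))) : LaurentSeries k) =
        ((E.val : E →+* LaurentSeries k).comp (e : RatFunc k →+* E))
          (Polynomial.eval₂ (algebraMap (Polynomial k) (RatFunc k)) r
            (D.Ψ.map (Polynomial.mapRingHom f))) from rfl,
      Polynomial.hom_eval₂]
    congr 1
    · refine RingHom.ext fun g => ?_
      show ((e (algebraMap (Polynomial k) (RatFunc k) g) : E) : LaurentSeries k) =
        Polynomial.aeval J g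
      rw [show e (algebraMap (Polynomial k) (RatFunc k) g) =
        Polynomial.aeval (IntermediateField.AdjoinSimple.gen k J) g from
          RatFunc.algEquivOfTranscendental_algebraMap J hJt g]
      exact (Polynomial.aeval_algHom_apply E.val
        (IntermediateField.AdjoinSimple.gen k J) g).symm
    · simp [hr]
  obtain ⟨g, hg⟩ := isInteger_of_is_root_of_monic (D.Ψ_monic.map _) hroot
  have hWg : W = Polynomial.aeval J g := by
    have h := congrArg (fun z => ((e z : E) : LaurentSeries k)) hg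
    simpa [hr, e] using h.symm
  -- compare leading exponents
  have hlW : Lead W ((m : ℤ) * ((p : ℤ) * p - p)) ((p : k) ^ 12) := by
    have h1 : Lead ((p : LaurentSeries k) ^ 12 * deltaQ k p) ((p : ℤ) * p - p) ((p : k) ^ 12) := by
      have h0 : Lead ((p : LaurentSeries k) ^ 12) 0 ((p : k) ^ 12) := by
        have := (lead_C (p : k)).pow 12
        rwa [map_natCast, mul_zero] at this
      simpa using h0.mul (lead_deltaQ k p)
    have := (h1.scale (1 : kˣ)).qx hm
    simpa [hW, subst] using this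
  have hlg := lead_aeval (lead_jv (1 : kˣ) (mul_ne_zero hm hp)) (by
    have := Nat.pos_of_ne_zero (mul_ne_zero hm hp); omega) g
  rw [← hJ, ← hWg] at hlg
  rcases eq_or_ne g 0 with rfl | hg0
  · exact hlW.ne_zero (pow_ne_zero _ hpk) (by simpa using hWg)
  obtain ⟨hdeg, -⟩ := hlW.unique_deg hlg (pow_ne_zero _ hpk)
    (mul_ne_zero (Polynomial.leadingCoeff_ne_zero.mpr hg0) (pow_ne_zero _ (Units.ne_zero _)))
  have hp2 : (2 : ℤ) ≤ p := by exact_mod_cast hp1
  have hm1 : (1 : ℤ) ≤ m := by exact_mod_cast Nat.pos_of_ne_zero hm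
  push_cast at hdeg
  nlinarith [mul_le_mul hm1 (show (1 : ℤ) ≤ (p : ℤ) * p - p by nlinarith) zero_le_one
    (by linarith), mul_nonneg (Int.natCast_nonneg g.natDegree)
    (mul_nonneg (Int.natCast_nonneg m) (Int.natCast_nonneg p))]

end PolyData

end FLTAgent.Igusa
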