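import Mathlib.FieldTheory.AlgebraicClosure
import Mathlib.FieldTheory.IsAlgClosed.AlgebraicClosure
import Mathlib.FieldTheory.Normal.Basic
import Fermat.Agent.Igusa.Data

/-!
# The ambient field `Amb` of the modular polynomials

`Amb k M` is an algebraic closure of `k(j(s^M))` containing the elements algebraic over it in
`k((s))`. It carries the elements `vx c m = j(c s^m)` and enough `k`-automorphisms:
`exists_equiv_map` and the substitutions `exists_scaleAut`.
-/

set_option autoImplicit false

noncomputable section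

open ModularCurve IntermediateField

namespace FLTAgent.Igusa

/-- Extension of an isomorphism of fields, compatible with a common subfield, to an algebraic
closure of both. -/
theorem exists_extend {k K K' A : Type} [Field k] [Field K] [Field K'] [Field A] [Algebra k K]
    [Algebra k K'] [Algebra k A] [Algebra K A] [Algebra K' A] [IsScalarTower k K A]
    [IsScalarTower k K' A] [IsAlgClosure K A] [IsAlgClosure K' A] (e : K ≃ₐ[k] K') :
    ∃ σ : A ≃ₐ[k] A, ∀ z, σ (algebraMap K A z) = algebraMap K' A (e z) := by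
  refine ⟨AlgEquiv.ofRingEquiv (f := IsAlgClosure.equivOfEquiv A A e.toRingEquiv) (fun c => ?_),
    fun z => IsAlgClosure.equivOfEquiv_algebraMap A A e.toRingEquiv z⟩
  rw [IsScalarTower.algebraMap_apply k K A, IsAlgClosure.equivOfEquiv_algebraMap A A]
  show algebraMap K' A (e (algebraMap k K c)) = _
  rw [e.commutes, ← IsScalarTower.algebraMap_apply, ← IsScalarTower.algebraMap_apply]

/-- Modular polynomial data for every prime level. -/
abbrev AllData : Type := ∀ (p : ℕ) [NeZero p], p.Prime → PolyData p

variable (k : Type) [Field k] [IsAlgClosed k] (M : ℕ)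

/-- `k(j)` with `j = j(s^M)` inside `k((s))`. -/
abbrev baseField : IntermediateField k (LaurentSeries k) :=
  IntermediateField.adjoin k {jv (1 : kˣ) M}

/-- The algebraic closure of `k(j)` in `k((s))`. -/
abbrev algPart : IntermediateField (baseField k M) (LaurentSeries k) :=
  algebraicClosure (baseField k M) (LaurentSeries k)

/-- An algebraic closure of `k(j)` containing `algPart`. -/
def Amb : Type := AlgebraicClosure (algPart k M)

instance instFieldAmb : Field (Amb k M) := inferInstanceAs (Field (AlgebraicClosure (algPart k M)))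

instance instAlgebraAlgPartAmb : Algebra (algPart k M) (Amb k M) :=
  inferInstanceAs (Algebra (algPart k M) (AlgebraicClosure (algPart k M)))

instance instIsAlgClosureAmb : IsAlgClosure (algPart k M) (Amb k M) :=
  inferInstanceAs (IsAlgClosure (algPart k M) (AlgebraicClosure (algPart k M)))

instance instIsAlgClosedAmb : IsAlgClosed (Amb k M) :=
  IsAlgClosure.isAlgClosed (algPart k M)

instance instAlgebraBaseFieldAmb : Algebra (baseField k M) (Amb k M) :=
  ((algebraMap (algPart k M) (Amb k M)).comp
    (algebraMap (baseField k M) (algPart k M))).toAlgebra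

instance instTowerBaseAlgPartAmb : IsScalarTower (baseField k M) (algPart k M) (Amb k M) :=
  IsScalarTower.of_algebraMap_eq' rfl

instance instAlgebraAmb : Algebra k (Amb k M) :=
  ((algebraMap (algPart k M) (Amb k M)).comp (algebraMap k (algPart k M))).toAlgebra

instance instTowerAlgPartAmb : IsScalarTower k (algPart k M) (Amb k M) :=
  IsScalarTower.of_algebraMap_eq' rfl

instance instTowerBaseFieldAmb : IsScalarTower k (baseField k M) (Amb k M) :=
  IsScalarTower.of_algebraMap_eq' (by
    refine RingHom.ext fun c => ?_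
    show algebraMap (algPart k M) (Amb k M) (algebraMap k (algPart k M) c) =
      algebraMap (algPart k M) (Amb k M)
        (algebraMap (baseField k M) (algPart k M) (algebraMap k (baseField k M) c))
    rw [← IsScalarTower.algebraMap_apply]
    rfl)

/-- The embedding of `algPart` in `Amb`. -/
def emb : algPart k M →ₐ[k] Amb k M := IsScalarTower.toAlgHom k (algPart k M) (Amb k M)

variable {k M}

/-- The series `jv c m` as an element of `Amb` (junk `0` when not algebraic over `k(j)`). -/
def vx (c : kˣ) (m : ℕ) : Amb k M :=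
  open Classical in if h : jv c m ∈ algPart k M then emb k M ⟨jv c m, h⟩ else 0

omit [IsAlgClosed k] in
theorem vx_eq {c : kˣ} {m : ℕ} (h : jv c m ∈ algPart k M) :
    vx c m = emb k M ⟨jv c m, h⟩ := dif_pos h

omit [IsAlgClosed k] in
theorem self_mem_algPart : jv (1 : kˣ) M ∈ algPart k M :=
  mem_algebraicClosure_iff.mpr
    (isAlgebraic_algebraMap (⟨_, mem_adjoin_simple_self k _⟩ : baseField k M))

omit [IsAlgClosed k] in
theorem vx_inj {c c' : kˣ} {m m' : ℕ} (hc : jv c m ∈ algPart k M) (hc' : jv c' m' ∈ algPart k M)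
    (hm : m ≠ 0) (hm' : m' ≠ 0) (h : (vx c m : Amb k M) = vx c' m') : m = m' ∧ c = c' := by
  rw [vx_eq hc, vx_eq hc'] at h
  exact jv_inj hm hm' (congrArg Subtype.val ((emb k M).toRingHom.injective h))

omit [IsAlgClosed k] in
/-- A root of a monic polynomial over `algPart` lies in `algPart`. -/
theorem mem_algPart_of_monic {x : LaurentSeries k} {P : Polynomial (algPart k M)} (hP : P.Monic)
    (hx : (P.map (algebraMap (algPart k M) (LaurentSeries k))).eval x = 0) :
    x ∈ algPart k M := by
  have : IsAlgebraic (algPart k M) x :=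
    ⟨P, hP.ne_zero, by rw [Polynomial.aeval_def, ← Polynomial.eval_map, hx]⟩
  exact mem_algebraicClosure_iff.mpr (this.restrictScalars (baseField k M))

omit [IsAlgClosed k] in
theorem vx_transcendental {c : kˣ} {m : ℕ} (h : jv c m ∈ algPart k M) (hm : m ≠ 0) :
    Transcendental k (vx c m : Amb k M) := by
  rw [vx_eq h]
  intro halg
  rw [isAlgebraic_algHom_iff (emb k M) (emb k M).toRingHom.injective,
    ← isAlgebraic_algHom_iff ((algPart k M).val.restrictScalars k) Subtype.val_injective] at halg
  exact transcendental_jv c hm halg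

omit [IsAlgClosed k] in
/-- `Amb` is algebraic over the image of `k(j)`. -/
theorem isAlgebraic_adjoin_vx_self :
    Algebra.IsAlgebraic k⟮(vx 1 M : Amb k M)⟯ (Amb k M) := by
  have : Algebra.IsAlgebraic (baseField k M) (Amb k M) :=
    Algebra.IsAlgebraic.trans (baseField k M) (algPart k M) (Amb k M)
  let f : baseField k M →ₐ[k] Amb k M := IsScalarTower.toAlgHom k (baseField k M) (Amb k M)
  have hj : f ⟨jv 1 M, mem_adjoin_simple_self k _⟩ = vx 1 M := by
    rw [vx_eq self_mem_algPart]
    exact IsScalarTower.algebraMap_apply (baseField k M) (algPart k M) (Amb k M) _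
  have hrange : ∀ b, f b ∈ k⟮(vx 1 M : Amb k M)⟯ := by
    rintro ⟨b, hb⟩
    induction hb using IntermediateField.adjoin_induction k with
    | mem y hy =>
      rw [Set.mem_singleton_iff] at hy
      subst hy
      exact hj ▸ mem_adjoin_simple_self k _
    | algebraMap a => exact (f.commutes a).symm ▸ IntermediateField.algebraMap_mem _ a
    | add x y hx hy h1 h2 => exact (map_add f ⟨x, hx⟩ ⟨y, hy⟩).symm ▸ add_mem h1 h2
    | inv x hx h1 => exact (map_inv₀ f ⟨x, hx⟩).symm ▸ inv_mem h1
    | mul x y hx hy h1 h2 => exact (map_mul f ⟨x, hx⟩ ⟨y, hy⟩).symm ▸ mul_mem h1 h2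
  let g : baseField k M →+* k⟮(vx 1 M : Amb k M)⟯ := f.toRingHom.codRestrict _ hrange
  refine ⟨fun z => ?_⟩
  obtain ⟨P, hP, hz⟩ := (Algebra.IsAlgebraic.isAlgebraic (R := baseField k M) z)
  refine ⟨P.map g, Polynomial.map_ne_zero hP, ?_⟩
  rw [Polynomial.aeval_def, Polynomial.eval₂_map]
  exact hz

omit [IsAlgClosed k] in
/-- Extension of `k(x) ≅ k(y)` to an automorphism of `Amb`. -/
theorem exists_equiv_map {x y : Amb k M} (hx : Transcendental k x) (hy : Transcendental k y)
    (hxa : Algebra.IsAlgebraic k⟮x⟯ (Amb k M)) (hya : Algebra.IsAlgebraic k⟮y⟯ (Amb k M)) :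
    ∃ σ : Amb k M ≃ₐ[k] Amb k M, σ x = y := by
  have := hxa
  have := hya
  have : IsAlgClosure k⟮x⟯ (Amb k M) := ⟨inferInstance, hxa⟩
  have : IsAlgClosure k⟮y⟯ (Amb k M) := ⟨inferInstance, hya⟩
  let e : k⟮x⟯ ≃ₐ[k] k⟮y⟯ :=
    (RatFunc.algEquivOfTranscendental x hx).symm.trans (RatFunc.algEquivOfTranscendental y hy)
  obtain ⟨σ, hσ⟩ := exists_extend (A := Amb k M) e
  refine ⟨σ, ?_⟩
  · refine (hσ ⟨x, mem_adjoin_simple_self k x⟩).trans ?_
    have hgen : (RatFunc.algEquivOfTranscendental x hx).symm ⟨x, mem_adjoin_simple_self k x⟩ =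
        RatFunc.X := by
      rw [AlgEquiv.symm_apply_eq]
      exact Subtype.ext (RatFunc.algEquivOfTranscendental_X x hx).symm
    show ((e ⟨x, mem_adjoin_simple_self k x⟩ : k⟮y⟯) : Amb k M) = y
    simp [e, hgen]

/-- The substitution `s ↦ u s` as an automorphism of `k((s))` over `k(j)`, for `u^M = 1`. -/
def scaleEquiv (u : kˣ) (hu : u ^ M = 1) (hM : M ≠ 0) :
    LaurentSeries k ≃ₐ[baseField k M] LaurentSeries k :=
  AlgEquiv.ofRingEquiv
    (f := RingEquiv.ofRingHom (scale u) (scale u⁻¹)
      (RingHom.ext fun x => by simp [scale_scale])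
      (RingHom.ext fun x => by simp [scale_scale]))
    (by
      rintro ⟨b, hb⟩
      show scale u b = b
      induction hb using IntermediateField.adjoin_induction k with
      | mem y hy => rw [Set.mem_singleton_iff] at hy; rw [hy, scale_jv u 1 hM, hu, one_mul]
      | algebraMap a =>
        rw [algebraMap_laurentSeries_eq_single, scale_single, zpow_zero, Units.val_one, one_mul]
      | add x y _ _ hx hy => rw [map_add, hx, hy]
      | inv x _ hx => rw [map_inv₀, hx]
      | mul x y _ _ hx hy => rw [map_mul, hx, hy])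

omit [IsAlgClosed k] in
/-- The automorphism of `Amb` induced by `s ↦ u s`. -/
theorem exists_scaleAut (hM : M ≠ 0) (u : kˣ) (hu : u ^ M = 1) :
    ∃ σ : Amb k M ≃ₐ[k] Amb k M, ∀ (c : kˣ) (m : ℕ), m ≠ 0 → jv c m ∈ algPart k M →
      jv (u ^ m * c) m ∈ algPart k M ∧ σ (vx c m) = vx (u ^ m * c) m := by
  let e : algPart k M ≃ₐ[baseField k M] algPart k M :=
    algebraicClosure.algEquivOfAlgEquiv (scaleEquiv u hu hM)
  obtain ⟨σ, hσ⟩ := exists_extend (A := Amb k M) (e.restrictScalars k)
  refine ⟨σ, fun c m hm hc => ?_⟩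
  · have he : ((e ⟨jv c m, hc⟩ : algPart k M) : LaurentSeries k) = jv (u ^ m * c) m :=
      scale_jv u c hm
    refine ⟨he ▸ (e ⟨jv c m, hc⟩).2, ?_⟩
    rw [vx_eq hc, vx_eq (he ▸ (e ⟨jv c m, hc⟩).2)]
    exact (hσ ⟨jv c m, hc⟩).trans (congrArg _ (Subtype.ext he))

end FLTAgent.Igusa
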