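import Fermat.Agent.Igusa.AmbDegree
import Fermat.Agent.Igusa.ModularPolynomial
import Mathlib.RingTheory.RootsOfUnity.EnoughRootsOfUnity
import Mathlib.FieldTheory.IsSepClosed

/-!
# The degree over the `j`-line in every characteristic

`relfinrank_fullC_eq`: `[k(j(q^d) : d ∣ N) : k(j(q))]` is the index `orbitDeg N` of a
stabiliser, so it is positive and the same for all algebraically closed fields `k` in which `N` is
invertible (`relfinrank_fullC_eq_relfinrank_fullC`).
-/

set_option autoImplicit false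

noncomputable section

open ModularCurve IntermediateField

namespace FLTAgent.Igusa

theorem exists_ctx (k : Type) [Field k] [IsAlgClosed k] {N : ℕ} (hN : (N : k) ≠ 0) :
    Nonempty (Ctx k N) := by
  have : NeZero (N : k) := ⟨hN⟩
  have : NeZero N := ⟨fun h => hN (by simp [h])⟩
  obtain ⟨z, hz⟩ := HasEnoughRootsOfUnity.exists_primitiveRoot k N
  obtain ⟨u, rfl⟩ := hz.isUnit (NeZero.ne N)
  exact ⟨⟨NeZero.ne N, hN, u, hz, allData⟩⟩

theorem divisorExpansionsC_eq (k : Type) [Field k] {N : ℕ} (hN : N ≠ 0) :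
    divisorExpansionsC k N = (fun d => jv (1 : kˣ) d) '' {d | d ∣ N} := by
  ext x
  constructor
  · rintro ⟨d, hd0, hd, rfl⟩
    exact ⟨d, hd, jv_one_eq d⟩
  · rintro ⟨d, hd, rfl⟩
    have : NeZero d := ⟨fun h => hN (Nat.eq_zero_of_zero_dvd (h ▸ hd))⟩
    exact ⟨d, inferInstance, hd, jv_one_eq d⟩

namespace Ctx

variable {k : Type} [Field k] [IsAlgClosed k] {N : ℕ} (C : Ctx k N)

theorem relfinrank_fullC_eq :
    relfinrank k⟮jqModC k⟯ (modularFunctionFieldFullC k N) = C.orbitDeg N := by
  have : NeZero N := ⟨C.hM⟩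
  set φ := qExpandAlgHomC k N with hφdef
  have hjv : ∀ d, d ∣ N → φ (jv (1 : kˣ) d) = jv 1 (N * d) := by
    intro d hd
    rw [hφdef, qExpandAlgHomC_apply, ← qx_eq,
      qx_jv 1 C.hM fun h => C.hM (Nat.eq_zero_of_zero_dvd (h ▸ hd))]
  set ν : algPart k N →ₐ[k] LaurentSeries k := (algPart k N).val.restrictScalars k
  let el : ℕ → algPart k N := fun d =>
    open Classical in if h : jv (1 : kˣ) (N * d) ∈ algPart k N then ⟨_, h⟩ else 0
  have hel : ∀ d, ∀ hd : d ∣ N, el d = ⟨_, (C.isVx_std hd).2.1⟩ := fun d hd => dif_pos _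
  have hνel : ν '' (el '' {d | d ∣ N}) = φ '' (divisorExpansionsC k N) := by
    rw [divisorExpansionsC_eq k C.hM, Set.image_image, Set.image_image]
    refine Set.image_congr fun d hd => ?_
    show ν (el d) = φ (jv 1 d)
    rw [hel d hd, hjv d hd]
    rfl
  have hνone : ν (el 1) = φ (jqModC k) := by
    rw [hel 1 (one_dvd N), ← jv_one_one, hjv 1 (one_dvd N)]
    rfl
  have hemb : ∀ d, d ∣ N → emb k N (el d) = C.std d := fun d hd => by
    rw [hel d hd]
    exact (vx_eq _).symm
  have h1 : relfinrank k⟮jqModC k⟯ (modularFunctionFieldFullC k N) =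
      relfinrank k⟮C.std 1⟯ (IntermediateField.adjoin k (C.stdSet N)) := by
    rw [← relfinrank_map_map k⟮jqModC k⟯ (modularFunctionFieldFullC k N) φ,
      modularFunctionFieldFullC, adjoin_map, adjoin_map, Set.image_singleton, ← hνel, ← hνone]
    rw [← Set.image_singleton (f := ν), ← adjoin_map, ← adjoin_map, relfinrank_map_map,
      ← relfinrank_map_map _ _ (emb k N), adjoin_map, adjoin_map, Set.image_singleton,
      hemb 1 (one_dvd N), Set.image_image]
    congr 2
    exact Set.image_congr fun d hd => hemb d hd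
  have h2 : IntermediateField.adjoin k (C.stdSet N) = (C.famField N).restrictScalars k := by
    rw [famField, IntermediateField.restrictScalars_adjoin]
    refine le_antisymm (adjoin.mono _ _ _ Set.subset_union_right) (adjoin_le_iff.mpr ?_)
    rintro x (hx | hx)
    · have hle : C.jField ≤ IntermediateField.adjoin k (C.stdSet N) :=
        adjoin_simple_le_iff.mpr (subset_adjoin k _ ⟨1, one_dvd N, rfl⟩)
      exact hle hx
    · exact subset_adjoin k _ hx
  have hle : C.jField ≤ (C.famField N).restrictScalars k := fun x hx =>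
    (C.famField N).algebraMap_mem ⟨x, hx⟩
  rw [h1, h2, relfinrank_eq_finrank_of_le hle, ← C.finrank_famField dvd_rfl]
  rfl

end Ctx

/-- The degree over the `j`-line is the same in every characteristic prime to `N`. -/
theorem relfinrank_fullC_eq_relfinrank_fullC (k k' : Type) [Field k] [IsAlgClosed k] [Field k']
    [IsAlgClosed k'] {N : ℕ} (hN : (N : k) ≠ 0) (hN' : (N : k') ≠ 0) :
    relfinrank k⟮jqModC k⟯ (modularFunctionFieldFullC k N) =
      relfinrank k'⟮jqModC k'⟯ (modularFunctionFieldFullC k' N) := by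
  obtain ⟨C⟩ := exists_ctx k hN
  obtain ⟨C'⟩ := exists_ctx k' hN'
  rw [C.relfinrank_fullC_eq, C'.relfinrank_fullC_eq, C.orbitDeg_eq_orbitDeg C' dvd_rfl]

theorem relfinrank_fullC_pos (k : Type) [Field k] [IsAlgClosed k] {N : ℕ} (hN : (N : k) ≠ 0) :
    0 < relfinrank k⟮jqModC k⟯ (modularFunctionFieldFullC k N) := by
  obtain ⟨C⟩ := exists_ctx k hN
  rw [C.relfinrank_fullC_eq]
  exact C.orbitDeg_pos dvd_rfl

end FLTAgent.Igusa
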