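import Mathlib.NumberTheory.ModularForms.LevelOne.Basic
import Mathlib.RingTheory.IntegralClosure.IntegralRestrict
import Fermat.Agent.ModularFF.CosetJ
import Fermat.Agent.Igusa.Data

/-!
# The expansion principle in level one

`exists_poly_of_invariant`: a holomorphic function invariant under `S` and `T` whose expansion
in `exp (2πiτ/p)` has coefficients in `ℤ[ζ_p]` is a polynomial in `j` over `ℤ[ζ_p]`.
-/

set_option autoImplicit false

noncomputable section

open UpperHalfPlane Complex ModularCurve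
open scoped MatrixGroups Manifold Topology ModularForm

namespace FLTAgent.Igusa

open FLTAgent.ModularFF

local notation "𝕢" => Function.Periodic.qParam

/-- The standard primitive root `exp (2πi/p)`. -/
theorem zetaC_spec (p : ℕ) [NeZero p] :
    IsPrimitiveRoot (Complex.exp (2 * Real.pi * Complex.I / p)) p :=
  Complex.isPrimitiveRoot_exp p (NeZero.ne p)

/-- `ℤ[ζ_p] → ℂ`. -/
def iotaC (p : ℕ) [NeZero p] : ZetaRing p →+* ℂ := zetaHom _ (zetaC_spec p)

theorem iotaC_injective (p : ℕ) [NeZero p] : Function.Injective (iotaC p) := by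
  rw [injective_iff_map_eq_zero]
  intro x hx
  obtain ⟨g, rfl⟩ := AdjoinRoot.mk_surjective x
  rw [AdjoinRoot.mk_eq_zero, Polynomial.cyclotomic_eq_minpoly (zetaC_spec p) (NeZero.pos p)]
  refine minpoly.isIntegrallyClosed_dvd ((zetaC_spec p).isIntegral (NeZero.pos p)) ?_
  simpa [iotaC, zetaHom, Polynomial.aeval_def] using hx

theorem qParam_nat_pow (p : ℕ) [NeZero p] (τ : ℍ) : 𝕢 1 τ = 𝕢 p τ ^ p := by
  simp only [Function.Periodic.qParam, ← Complex.exp_nat_mul]
  congr 1
  have : (p : ℂ) ≠ 0 := NeZero.ne _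
  push_cast
  field_simp

theorem hasLaurent_qExpand_one {f : ℍ → ℂ} {S : LaurentSeries ℂ} (p : ℕ) [NeZero p]
    (h : HasLaurent 1 f S) : HasLaurent p f (qx ℂ p S) := by
  rw [qx_eq]
  exact h.spread p id fun τ => qParam_nat_pow p τ

theorem hasLaurent_jFun_width (p : ℕ) [NeZero p] :
    HasLaurent p jFun (jv (1 : ℂˣ) p) := by
  have h := hasLaurent_qExpand_one p hasLaurent_jFun
  rwa [jv, scale_one]

/-- If a Laurent expansion has no negative exponent then it is a power sum. -/
theorem powerSum_of_hasLaurent {h : ℝ} {f : ℍ → ℂ} {S : LaurentSeries ℂ} (hf : HasLaurent h f S)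
    (hS : ∀ i < 0, S.coeff i = 0) :
    PowerSum h f (PowerSeries.mk fun m : ℕ => S.coeff m) := by
  obtain ⟨n, P, hP, hP'⟩ := hf
  intro τ
  have hq : 𝕢 h τ ≠ 0 := Function.Periodic.qParam_ne_zero _
  have hc : ∀ m : ℕ, PowerSeries.coeff m P = S.coeff ((m : ℤ) - n) := by
    intro m
    have := congrArg (fun z : LaurentSeries ℂ => z.coeff (m : ℤ)) hP
    simpa [HahnSeries.coeff_single_mul] using this
  have h1 := hP' τ
  rw [← hasSum_nat_add_iff' n] at h1
  have hz : ∑ i ∈ Finset.range n, PowerSeries.coeff i P * 𝕢 h τ ^ i = 0 := by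
    refine Finset.sum_eq_zero fun i hi => ?_
    have hi' : (i : ℤ) < n := by exact_mod_cast Finset.mem_range.mp hi
    rw [hc, hS _ (by omega), zero_mul]
  rw [hz, sub_zero] at h1
  have h2 := h1.mul_left ((𝕢 h τ ^ n)⁻¹)
  rw [← mul_assoc, inv_mul_cancel₀ (pow_ne_zero _ hq), one_mul] at h2
  refine h2.congr_fun fun m => ?_
  rw [hc, show ((m + n : ℕ) : ℤ) - n = m by push_cast; ring, PowerSeries.coeff_mk, pow_add]
  field_simp

/-- Expansion of an invariant function only involves powers of `q`. -/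
theorem coeff_eq_zero_of_not_dvd {p : ℕ} [NeZero p] {f : ℍ → ℂ} {S : LaurentSeries ℂ}
    (hS : HasLaurent p f S) (hmd : MDiff f) (hT : ∀ τ : ℍ, f (ModularGroup.T • τ) = f τ)
    {i : ℤ} (hi : ¬ (p : ℤ) ∣ i) : S.coeff i = 0 := by
  obtain ⟨n, P, hP, hP'⟩ := id hS
  have hp : (0 : ℝ) < p := Nat.cast_pos.mpr (NeZero.pos p)
  have hb := PowerSum.isBoundedAtImInfty hp
    (hP' : PowerSum p (fun τ => 𝕢 p τ ^ n * f τ) P)
  have hqb : IsBoundedAtImInfty fun τ : ℍ => 𝕢 p τ := by
    refine isBoundedAtImInfty_iff.mpr ⟨1, 0, fun τ _ => ?_⟩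
    exact (Function.Periodic.norm_qParam_lt_one hp τ.im_pos).le
  have hper : Function.Periodic (f ∘ ofComplex) (1 : ℝ) := by
    intro w
    by_cases hw : 0 < w.im
    · have hw' : 0 < (w + (1 : ℝ)).im := by simpa using hw
      simp only [Function.comp_apply, ofComplex_apply_of_im_pos hw,
        ofComplex_apply_of_im_pos hw']
      rw [← hT ⟨w, hw⟩, UpperHalfPlane.modular_T_smul]
      congr 1
      ext
      simp [UpperHalfPlane.coe_vadd, add_comm]
    · have h1 : (w + (1 : ℝ)).im ≤ 0 := by simpa using hw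
      simp only [Function.comp_apply, ofComplex_apply_of_im_nonpos h1,
        ofComplex_apply_of_im_nonpos (not_lt.mp hw)]
  have hbdd : IsBoundedAtImInfty fun τ : ℍ => 𝕢 1 τ ^ n * f τ := by
    have h2 : ∀ m : ℕ, IsBoundedAtImInfty fun τ : ℍ => 𝕢 p τ ^ m * (𝕢 p τ ^ n * f τ) := by
      intro m
      induction m with
      | zero => simpa using hb
      | succ m ih =>
        have := hqb.mul ih
        simpa [IsBoundedAtImInfty, Pi.mul_def, pow_succ', mul_assoc] using this
    obtain ⟨t, ht⟩ : ∃ t, p * n = t + n :=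
      ⟨p * n - n, (Nat.sub_add_cancel (Nat.le_mul_of_pos_left n (NeZero.pos p))).symm⟩
    have heq : (fun τ : ℍ => 𝕢 1 τ ^ n * f τ) = fun τ : ℍ => 𝕢 p τ ^ t * (𝕢 p τ ^ n * f τ) := by
      funext τ
      rw [qParam_nat_pow p τ, ← pow_mul, ht, pow_add, mul_assoc]
    rw [heq]
    exact h2 t
  obtain ⟨S₁, hS₁, -⟩ := exists_hasLaurent one_pos hper hmd n hbdd
  rw [HasLaurent.unique hp hS (hasLaurent_qExpand_one p hS₁)]
  exact qx_coeff_of_not_dvd (NeZero.ne p) _ hi

theorem invariant_of_ST {f : ℍ → ℂ} (hS : ∀ τ : ℍ, f (ModularGroup.S • τ) = f τ)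
    (hT : ∀ τ : ℍ, f (ModularGroup.T • τ) = f τ) (γ : SL(2, ℤ)) :
    f ∣[(0 : ℤ)] γ = f := by
  refine SlashInvariantForm.slash_action_generators_SL2Z ?_ ?_ γ <;> ext τ <;>
    rw [ModularForm.SL_slash_apply]
  · simpa using hS τ
  · simpa using hT τ

theorem eq_const_of_bounded {f : ℍ → ℂ} (hS : ∀ τ : ℍ, f (ModularGroup.S • τ) = f τ)
    (hT : ∀ τ : ℍ, f (ModularGroup.T • τ) = f τ) (hmd : MDiff f) (hb : IsBoundedAtImInfty f) :
    ∃ a : ℂ, f = fun _ => a := by
  have hinv := invariant_of_ST hS hT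
  let F : ModularForm 𝒮ℒ 0 :=
    { toFun := f
      slash_action_eq' := by
        rintro _ ⟨γ, rfl⟩
        exact hinv γ
      holo' := hmd
      bdd_at_cusps' := by
        intro c hc
        rw [Subgroup.IsArithmetic.isCusp_iff_isCusp_SL2Z] at hc
        rw [OnePoint.isBoundedAt_iff_forall_SL2Z hc]
        intro γ _
        rw [hinv γ]
        exact hb }
  exact ModularFormClass.levelOne_weight_zero_const F

/-- The invariance principle. -/
theorem exists_poly_of_invariant {p : ℕ} [NeZero p] {f : ℍ → ℂ} {c : LaurentSeries (ZetaRing p)}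
    (hc : HasLaurent p f (coeffMap (iotaC p) c)) (hmd : MDiff f)
    (hS : ∀ τ : ℍ, f (ModularGroup.S • τ) = f τ) (hT : ∀ τ : ℍ, f (ModularGroup.T • τ) = f τ) :
    ∃ P : Polynomial (ZetaRing p), ev (jv 1 p) P = c := by
  have hp : (0 : ℝ) < p := Nat.cast_pos.mpr (NeZero.pos p)
  suffices H : ∀ (n : ℕ) (f : ℍ → ℂ) (c : LaurentSeries (ZetaRing p)),
      HasLaurent p f (coeffMap (iotaC p) c) → MDiff f →
      (∀ τ : ℍ, f (ModularGroup.S • τ) = f τ) → (∀ τ : ℍ, f (ModularGroup.T • τ) = f τ) →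
      (∀ i : ℤ, i < -((p : ℤ) * n) → c.coeff i = 0) →
      ∃ P : Polynomial (ZetaRing p), ev (jv 1 p) P = c by
    refine H (-c.order).toNat f c hc hmd hS hT fun i hi => ?_
    refine HahnSeries.coeff_eq_zero_of_lt_order (lt_of_lt_of_le hi ?_)
    have h1 : -c.order ≤ ((-c.order).toNat : ℤ) := Int.self_le_toNat _
    have hp1 : (1 : ℤ) ≤ p := by exact_mod_cast NeZero.pos p
    nlinarith [Int.natCast_nonneg (-c.order).toNat]
  intro n
  induction n with
  | zero =>
    intro f c hc hmd hS hT hv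
    have hneg : ∀ i < 0, (coeffMap (iotaC p) c).coeff i = 0 := fun i hi => by
      rw [coeffMap_coeff, hv i (by simpa using hi), map_zero]
    obtain ⟨a, rfl⟩ := eq_const_of_bounded hS hT hmd
      ((powerSum_of_hasLaurent hc hneg).isBoundedAtImInfty hp)
    have heq := hc.unique hp (hasLaurent_const a)
    refine ⟨Polynomial.C (c.coeff 0), ?_⟩
    ext i
    simp only [ev, Polynomial.coe_eval₂RingHom, Polynomial.eval₂_C]
    rcases eq_or_ne i 0 with rfl | hi
    · simp [HahnSeries.C_apply]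
    · simp only [HahnSeries.C_apply, HahnSeries.coeff_single_of_ne hi]
      apply iotaC_injective p
      have := congrArg (fun z : LaurentSeries ℂ => z.coeff i) heq
      simpa [HahnSeries.C_apply, HahnSeries.coeff_single_of_ne hi] using this.symm
  | succ n ih =>
    intro f c hc hmd hS hT hv
    set a := c.coeff (-((p : ℤ) * (n + 1 : ℕ))) with ha
    set c' := c - HahnSeries.C a * jv (1 : (ZetaRing p)ˣ) p ^ (n + 1) with hc'
    set f' : ℍ → ℂ := f - (fun _ => iotaC p a) * jFun ^ (n + 1) with hf'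
    have hjpow : ∀ m : ℕ, HasLaurent p (jFun ^ m) (jv (1 : ℂˣ) p ^ m) := fun m =>
      (Subalgebra.pow_mem (laurentGraph p)
        (show (jFun, jv (1 : ℂˣ) p) ∈ laurentGraph p from hasLaurent_jFun_width p) m :)
    have hl : HasLaurent p f' (coeffMap (iotaC p) c') := by
      have h := hc.sub ((hasLaurent_const (iotaC p a)).mul (hjpow (n + 1)))
      rw [hc', map_sub, map_mul, map_pow, coeffMap_jv _ _ (NeZero.ne p), map_one,
        HahnSeries.C_apply, coeffMap_single]
      exact h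
    have hmd' : MDiff f' := hmd.sub (mdifferentiable_const.mul (mdiff_jFun.pow _))
    have hS' : ∀ τ : ℍ, f' (ModularGroup.S • τ) = f' τ := fun τ => by
      simp only [hf', Pi.sub_apply, Pi.mul_apply, Pi.pow_apply, hS, jFun_smul]
    have hT' : ∀ τ : ℍ, f' (ModularGroup.T • τ) = f' τ := fun τ => by
      simp only [hf', Pi.sub_apply, Pi.mul_apply, Pi.pow_apply, hT, jFun_smul]
    have hlead : Lead (HahnSeries.C a * jv (1 : (ZetaRing p)ˣ) p ^ (n + 1))
        (-((p : ℤ) * (n + 1 : ℕ))) a := by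
      have := (lead_C a).mul ((lead_jv (1 : (ZetaRing p)ˣ) (NeZero.ne p)).pow (n + 1))
      simpa [mul_comm] using this
    have hv' : ∀ i : ℤ, i < -((p : ℤ) * n) → c'.coeff i = 0 := by
      intro i hi
      by_cases hd : (p : ℤ) ∣ i
      · rw [hc', HahnSeries.coeff_sub]
        rcases lt_trichotomy i (-((p : ℤ) * (n + 1 : ℕ))) with h1 | h1 | h1
        · rw [hv i h1, hlead.2 i h1, sub_zero]
        · rw [h1, hlead.1, ← ha, sub_self]
        · obtain ⟨t, rfl⟩ := hd
          exfalso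
          have hp1 : (1 : ℤ) ≤ p := by exact_mod_cast NeZero.pos p
          push_cast at h1
          rcases le_or_gt t (-((n : ℤ) + 1)) with h2 | h2 <;> nlinarith
      · apply iotaC_injective p
        rw [map_zero, ← coeffMap_coeff]
        exact coeff_eq_zero_of_not_dvd hl hmd' hT' hd
    obtain ⟨P, hP⟩ := ih f' c' hl hmd' hS' hT' hv'
    refine ⟨P + Polynomial.C a * Polynomial.X ^ (n + 1), ?_⟩
    rw [map_add, map_mul, map_pow, hP]
    simp [ev, hc']

end FLTAgent.Igusa
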