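import Fermat.Agent.Igusa.InvariantExpansion

/-!
# The functions attached to the isogenies of degree `p`

The conjugates `isoJ` of `j(pτ)` and `isoF` of `p^12 Δ(pτ)/Δ(τ)`, indexed by `Option (ZMod p)`,
their permutation under `S` and `T` (`iso_S`, `iso_T`) and their Laurent expansions over `ℤ[ζ_p]`
(`hasLaurent_isoJ`, `hasLaurent_isoF`).
-/

set_option autoImplicit false

noncomputable section

open UpperHalfPlane Complex ModularCurve
open scoped MatrixGroups Manifold Topology ModularForm

namespace FLTAgent.Igusa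

open FLTAgent.ModularFF

local notation "𝕢" => Function.Periodic.qParam

variable (p : ℕ) [NeZero p]

/-- `τ ↦ (τ + b)/p`, or `τ ↦ pτ`. -/
def isoPoint : Option (ZMod p) → ℍ → ℍ
  | none => scaleH p
  | some b => affineH 1 p (b.val : ℤ)

/-- The weight factor. -/
def isoFactor : Option (ZMod p) → ℂ
  | none => (p : ℂ) ^ 12
  | some _ => 1

/-- The conjugates of `j(pτ)`. -/
def isoJ (i : Option (ZMod p)) (τ : ℍ) : ℂ := jFun (isoPoint p i τ)

/-- The conjugates of `p^12 Δ(pτ)/Δ(τ)`. -/
def isoF (i : Option (ZMod p)) (τ : ℍ) : ℂ :=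
  isoFactor p i * ModularForm.discriminant (isoPoint p i τ) / ModularForm.discriminant τ

theorem disc_smul (γ : SL(2, ℤ)) (τ : ℍ) : ModularForm.discriminant (γ • τ) =
    UpperHalfPlane.denom γ τ ^ (12 : ℕ) * ModularForm.discriminant τ := by
  have h := slash_eqn_SL CuspForm.discriminant γ τ
  rw [CuspForm.coe_discriminant] at h
  rw [h, ← zpow_natCast]
  rfl

/-! ### Translations -/

theorem affine_add_mul (b t : ℤ) (τ : ℍ) :
    affineH 1 p (b + p * t) τ = ModularGroup.T ^ t • affineH 1 p b τ := by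
  rw [UpperHalfPlane.modular_T_zpow_smul]
  ext
  have : (p : ℂ) ≠ 0 := NeZero.ne _
  simp only [UpperHalfPlane.coe_vadd, affineH]
  push_cast
  field_simp
  ring

theorem disc_T_zpow (t : ℤ) (τ : ℍ) :
    ModularForm.discriminant (ModularGroup.T ^ t • τ) = ModularForm.discriminant τ := by
  rw [disc_smul]
  have : UpperHalfPlane.denom (ModularGroup.T ^ t : SL(2, ℤ)) τ = 1 := by
    rw [ModularGroup.denom_apply, ModularGroup.coe_T_zpow]
    simp
  rw [this, one_pow, one_mul]

theorem values_eq_of_congr {b b' : ℤ} (h : (b : ZMod p) = (b' : ZMod p)) (τ : ℍ) :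
    jFun (affineH 1 p b τ) = jFun (affineH 1 p b' τ) ∧
      ModularForm.discriminant (affineH 1 p b τ) = ModularForm.discriminant (affineH 1 p b' τ) := by
  obtain ⟨t, ht⟩ := (ZMod.intCast_eq_intCast_iff_dvd_sub b b' p).mp h
  obtain rfl : b' = b + p * t := by linarith
  rw [affine_add_mul, jFun_smul, disc_T_zpow]
  exact ⟨rfl, rfl⟩

/-- Permutation of the indices under `T`. -/
def permT : Option (ZMod p) ≃ Option (ZMod p) :=
  Equiv.optionCongr (Equiv.addRight 1)

theorem iso_T (i : Option (ZMod p)) (τ : ℍ) :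
    isoJ p i (ModularGroup.T • τ) = isoJ p (permT p i) τ ∧
      isoF p i (ModularGroup.T • τ) = isoF p (permT p i) τ := by
  have hΔ : ModularForm.discriminant (ModularGroup.T • τ) = ModularForm.discriminant τ := by
    simpa using disc_T_zpow 1 τ
  cases i with
  | none =>
    have hpt : scaleH p (ModularGroup.T • τ) = ModularGroup.T ^ (p : ℤ) • scaleH p τ := by
      rw [UpperHalfPlane.modular_T_smul, UpperHalfPlane.modular_T_zpow_smul]
      ext
      simp [UpperHalfPlane.coe_vadd]
      ring
    constructor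
    · show jFun (scaleH p _) = jFun (scaleH p _)
      rw [hpt, jFun_smul]
    · show isoFactor p none * ModularForm.discriminant (scaleH p _) / _ =
        isoFactor p none * ModularForm.discriminant (scaleH p _) / _
      rw [hpt, disc_T_zpow, hΔ]
  | some b =>
    have hpt : affineH 1 p (b.val : ℤ) (ModularGroup.T • τ) = affineH 1 p ((b.val : ℤ) + 1) τ := by
      rw [UpperHalfPlane.modular_T_smul]
      ext
      simp [UpperHalfPlane.coe_vadd, affineH]
      ring
    obtain ⟨h1, h2⟩ := values_eq_of_congr p (b := (b.val : ℤ) + 1)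
      (b' := (((b + 1 : ZMod p)).val : ℤ)) (by simp) τ
    constructor
    · show jFun (affineH 1 p _ _) = jFun (affineH 1 p ((b + 1 : ZMod p).val : ℤ) τ)
      rw [hpt, h1]
    · show isoFactor p (some b) * ModularForm.discriminant (affineH 1 p _ _) / _ =
        isoFactor p (some (b + 1)) * ModularForm.discriminant
          (affineH 1 p ((b + 1 : ZMod p).val : ℤ) τ) / _
      rw [hpt, h2, hΔ]
      rfl

/-- Underlying map of the permutation of indices under `S`. -/
def permSFun [Fact p.Prime] : Option (ZMod p) → Option (ZMod p)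
  | none => some 0
  | some b => if b = 0 then none else some (-b⁻¹)

/-- Permutation of the indices under `S`. -/
def permS [Fact p.Prime] : Option (ZMod p) ≃ Option (ZMod p) :=
  Function.Involutive.toPerm (permSFun p) fun i => by
    cases i with
    | none => simp [permSFun]
    | some b =>
      by_cases hb : b = 0
      · simp [permSFun, hb]
      · have hb' : (-b⁻¹ : ZMod p) ≠ 0 := neg_ne_zero.mpr (inv_ne_zero hb)
        rw [show permSFun p (some b) = some (-b⁻¹) from if_neg hb,
          show permSFun p (some (-b⁻¹)) = some (-(-b⁻¹)⁻¹) from if_neg hb', inv_neg, inv_inv,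
          neg_neg]

theorem scaleH_S (τ : ℍ) :
    scaleH p (ModularGroup.S • τ) = ModularGroup.S • affineH 1 p 0 τ := by
  ext
  rw [coe_scaleH, UpperHalfPlane.modular_S_smul, UpperHalfPlane.modular_S_smul]
  have : (p : ℂ) ≠ 0 := NeZero.ne _
  have := τ.ne_zero
  simp only [affineH, Nat.cast_one, one_mul, Int.cast_zero, add_zero]
  field_simp

theorem affineH_zero_S (τ : ℍ) :
    affineH 1 p 0 (ModularGroup.S • τ) = ModularGroup.S • scaleH p τ := by
  ext
  rw [UpperHalfPlane.modular_S_smul, UpperHalfPlane.modular_S_smul]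
  have : (p : ℂ) ≠ 0 := NeZero.ne _
  have := τ.ne_zero
  simp only [affineH, coe_scaleH, Nat.cast_one, one_mul, Int.cast_zero, add_zero]
  field_simp

theorem affineH_S {b c u : ℤ} (h : b * c + 1 = p * u) (τ : ℍ) :
    ∃ γ : SL(2, ℤ), affineH 1 p b (ModularGroup.S • τ) = γ • affineH 1 p c τ ∧
      UpperHalfPlane.denom γ (affineH 1 p c τ) = (τ : ℂ) := by
  let γ : SL(2, ℤ) := ⟨!![b, -u; (p : ℤ), -c], by
    rw [Matrix.det_fin_two_of]; linear_combination -h⟩
  have hp : (p : ℂ) ≠ 0 := NeZero.ne _
  have hτ := τ.ne_zero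
  have hz : (affineH 1 p c τ : ℂ) = ((τ : ℂ) + c) / p := by simp [affineH]
  have h10 : ((γ 1 0 : ℤ) : ℂ) = (p : ℂ) := by simp [γ]
  have h11 : ((γ 1 1 : ℤ) : ℂ) = -(c : ℂ) := by simp [γ]
  have h00 : ((γ 0 0 : ℤ) : ℂ) = (b : ℂ) := by simp [γ]
  have h01 : ((γ 0 1 : ℤ) : ℂ) = -(u : ℂ) := by simp [γ]
  refine ⟨γ, ?_, ?_⟩
  · ext
    rw [coe_smul_SL γ, h00, h01, h10, h11, hz]
    have huC : (b : ℂ) * (c : ℂ) + 1 = (p : ℂ) * (u : ℂ) := by exact_mod_cast h
    have hnum : (b : ℂ) * (((τ : ℂ) + c) / p) + -(u : ℂ) = ((b : ℂ) * τ - 1) / p := by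
      field_simp
      linear_combination huC
    have hden : (p : ℂ) * (((τ : ℂ) + c) / p) + -(c : ℂ) = τ := by
      field_simp
      ring
    rw [hnum, hden, UpperHalfPlane.modular_S_smul]
    simp only [affineH, Nat.cast_one, one_mul]
    field_simp
    ring
  · rw [ModularGroup.denom_apply, h10, h11, hz]
    field_simp
    ring

theorem iso_S [Fact p.Prime] (i : Option (ZMod p)) (τ : ℍ) :
    isoJ p i (ModularGroup.S • τ) = isoJ p (permS p i) τ ∧
      isoF p i (ModularGroup.S • τ) = isoF p (permS p i) τ := by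
  have hp : (p : ℂ) ≠ 0 := NeZero.ne _
  have hτ : (τ : ℂ) ≠ 0 := τ.ne_zero
  have hdS : ∀ z : ℍ, UpperHalfPlane.denom ModularGroup.S z = (z : ℂ) := fun z =>
    ModularGroup.denom_S z
  have hΔ := disc_smul ModularGroup.S τ
  rw [hdS] at hΔ
  have hne := ModularForm.discriminant_ne_zero τ
  have key : ∀ (γ : SL(2, ℤ)) (i' : Option (ZMod p)),
      isoPoint p i (ModularGroup.S • τ) = γ • isoPoint p i' τ →
      isoFactor p i * UpperHalfPlane.denom γ (isoPoint p i' τ) ^ 12 =
        isoFactor p i' * (τ : ℂ) ^ 12 →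
      isoJ p i (ModularGroup.S • τ) = isoJ p i' τ ∧
        isoF p i (ModularGroup.S • τ) = isoF p i' τ := by
    intro γ i' h1 h2
    refine ⟨by rw [isoJ, h1, jFun_smul, isoJ], ?_⟩
    rw [isoF, h1, disc_smul, hΔ, isoF, ← mul_assoc, h2]
    field_simp
  cases i with
  | none =>
    refine key ModularGroup.S (some 0) ?_ ?_
    · show scaleH p _ = ModularGroup.S • affineH 1 p ((0 : ZMod p).val : ℤ) τ
      rw [ZMod.val_zero, Nat.cast_zero]
      exact scaleH_S p τ
    · rw [hdS]
      show (p : ℂ) ^ 12 * ((affineH 1 p ((0 : ZMod p).val : ℤ) τ : ℂ)) ^ 12 = 1 * (τ : ℂ) ^ 12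
      simp only [affineH, ZMod.val_zero, Nat.cast_zero, Int.cast_zero, Nat.cast_one, one_mul,
        add_zero]
      rw [← mul_pow, mul_div_cancel₀ _ hp]
  | some b =>
    by_cases hb : b = 0
    · subst hb
      rw [show permS p (some (0 : ZMod p)) = none from if_pos rfl]
      refine key ModularGroup.S none ?_ ?_
      · show affineH 1 p ((0 : ZMod p).val : ℤ) _ = ModularGroup.S • scaleH p τ
        rw [ZMod.val_zero, Nat.cast_zero]
        exact affineH_zero_S p τ
      · rw [hdS]
        show 1 * ((scaleH p τ : ℂ)) ^ 12 = (p : ℂ) ^ 12 * (τ : ℂ) ^ 12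
        rw [coe_scaleH, one_mul, mul_pow]
    · rw [show permS p (some b) = some (-b⁻¹) from if_neg hb]
      have hbc : (((b.val : ℤ) * ((-b⁻¹ : ZMod p).val : ℤ) + 1 : ℤ) : ZMod p) = 0 := by
        push_cast
        rw [ZMod.natCast_zmod_val, ZMod.natCast_zmod_val, mul_neg, mul_inv_cancel₀ hb,
          neg_add_cancel]
      obtain ⟨u, hu⟩ := (ZMod.intCast_zmod_eq_zero_iff_dvd _ _).mp hbc
      obtain ⟨γ, h1, h2⟩ := affineH_S p hu τ
      refine key γ (some (-b⁻¹)) h1 ?_
      show 1 * UpperHalfPlane.denom γ (affineH 1 p ((-b⁻¹ : ZMod p).val : ℤ) τ) ^ 12 =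
        1 * (τ : ℂ) ^ 12
      rw [h2]

/-! ### Expansions -/

/-- Substituting `q ↦ c q_h'` in an expansion. -/
theorem hasLaurent_comp_scale {h h' : ℝ} {f : ℍ → ℂ} {S : LaurentSeries ℂ}
    (hf : HasLaurent h f S) (σ : ℍ → ℍ) (c : ℂˣ) (hσ : ∀ τ : ℍ, 𝕢 h (σ τ) = c * 𝕢 h' τ) :
    HasLaurent h' (f ∘ σ) (scale c S) := by
  obtain ⟨n, P, hP, hP'⟩ := hf
  refine .of_powerSum n (PowerSeries.C (((c ^ n)⁻¹ : ℂˣ) : ℂ) * PowerSeries.rescale (c : ℂ) P) ?_ ?_
  · have h1 : HahnSeries.ofPowerSeries ℤ ℂ (PowerSeries.rescale (c : ℂ) P) =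
        scale c (HahnSeries.ofPowerSeries ℤ ℂ P) := by
      ext i
      rcases le_or_gt 0 i with hi | hi
      · lift i to ℕ using hi
        rw [HahnSeries.ofPowerSeries_apply_coeff, coeff_scale,
          HahnSeries.ofPowerSeries_apply_coeff, PowerSeries.coeff_rescale, zpow_natCast,
          Units.val_pow_eq_pow_val]
      · rw [ofPowerSeries_coeff_of_neg _ hi, coeff_scale, ofPowerSeries_coeff_of_neg _ hi,
          mul_zero]
    rw [map_mul, h1, hP, map_mul, scale_single, HahnSeries.ofPowerSeries_C, ← mul_assoc,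
      HahnSeries.C_apply, HahnSeries.single_mul_single, zero_add, mul_one, zpow_natCast,
      Units.inv_mul]
  · intro τ
    have h2 := (hP' (σ τ)).mul_left ((((c ^ n)⁻¹ : ℂˣ) : ℂ))
    rw [hσ] at h2
    have hne : (c : ℂ) ≠ 0 := c.ne_zero
    convert! h2 using 1
    · funext m
      rw [PowerSeries.coeff_C_mul, PowerSeries.coeff_rescale]
      ring
    · simp only [Function.comp_apply, Units.val_inv_eq_inv_val, Units.val_pow_eq_pow_val, mul_pow]
      field_simp

/-- The series of `Δ`. -/
def discSeries (R : Type) [CommRing R] : LaurentSeries R :=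
  HahnSeries.single 1 1 *
    HahnSeries.ofPowerSeries ℤ R (dedekindEtaUnit.map (Int.castRingHom R))

/-- The series of `1/Δ`. -/
def discInvSeries (R : Type) [CommRing R] : LaurentSeries R :=
  HahnSeries.single (-1) 1 *
    HahnSeries.ofPowerSeries ℤ R (dedekindEtaUnitInv.map (Int.castRingHom R))

/-- The discriminant series is invertible. -/
theorem discSeries_mul_inv (R : Type) [CommRing R] :
    discSeries R * discInvSeries R = 1 := by
  rw [discSeries, discInvSeries, mul_mul_mul_comm, HahnSeries.single_mul_single, ← map_mul,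
    ← map_mul (PowerSeries.map (Int.castRingHom R)), dedekindEtaUnit_mul_inv, map_one, map_one]
  simp

/-- Maps of coefficients carry the discriminant series and its inverse to themselves. -/
theorem coeffMap_discSeries {R S : Type} [CommRing R] [CommRing S] (f : R →+* S) :
    coeffMap f (discSeries R) = discSeries S ∧ coeffMap f (discInvSeries R) = discInvSeries S := by
  have hmap : ∀ F : PowerSeries ℤ,
      (F.map (Int.castRingHom R)).map f = F.map (Int.castRingHom S) := by
    intro F; ext n; simp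
  constructor <;>
    simp only [discSeries, discInvSeries, map_mul, coeffMap_single, map_one,
      coeffMap_ofPowerSeries, hmap]

theorem hasLaurent_disc : HasLaurent 1 ModularForm.discriminant (discSeries ℂ) := by
  refine .of_powerSum 0
    (PowerSeries.X * PowerSeries.map (Int.castRingHom ℂ) dedekindEtaUnit) ?_ ?_
  · rw [map_mul, HahnSeries.ofPowerSeries_X]
    simp [discSeries]
  · simpa using powerSum_discriminant

theorem mdiff_disc : MDiff ModularForm.discriminant := by
  have := ModularFormClass.holo CuspForm.discriminant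
  rwa [CuspForm.coe_discriminant] at this

theorem mdiff_disc_inv : MDiff fun τ : ℍ => (ModularForm.discriminant τ)⁻¹ := by
  have h := UpperHalfPlane.mdifferentiable_iff.mp mdiff_disc
  rw [UpperHalfPlane.mdifferentiable_iff]
  refine (h.inv fun z hz => ?_).congr fun z hz => ?_
  · simpa [Function.comp_apply, ofComplex_apply_of_im_pos hz] using
      ModularForm.discriminant_ne_zero (⟨z, hz⟩ : ℍ)
  · simp

theorem hasLaurent_disc_inv :
    HasLaurent 1 (fun τ : ℍ => (ModularForm.discriminant τ)⁻¹) (discInvSeries ℂ) := by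
  have hper : Function.Periodic ((fun τ : ℍ => (ModularForm.discriminant τ)⁻¹) ∘ ofComplex)
      (1 : ℝ) := by
    intro w
    have h := powerSum_discriminant.periodic one_ne_zero w
    simp only [Function.comp_apply] at h ⊢
    rw [h]
  have hbdd : IsBoundedAtImInfty fun τ : ℍ => 𝕢 1 τ ^ 1 * (ModularForm.discriminant τ)⁻¹ := by
    have h := ModularForm.tendsto_atImInfty_tprod_one_sub_eta_q_pow.inv₀ one_ne_zero
    rw [IsBoundedAtImInfty, Filter.BoundedAtFilter]
    refine Filter.Tendsto.isBigO_one ℝ (c := (1 : ℂ)) ?_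
    rw [inv_one] at h
    refine h.congr fun τ => ?_
    rw [ModularForm.discriminant_eq_q_prod, pow_one, mul_inv, ← mul_assoc,
      mul_inv_cancel₀ (Function.Periodic.qParam_ne_zero _), one_mul]
  obtain ⟨S, hS, -⟩ := exists_hasLaurent one_pos hper mdiff_disc_inv 1 hbdd
  have h1 := hasLaurent_disc.mul hS
  have h2 : (ModularForm.discriminant * fun τ : ℍ => (ModularForm.discriminant τ)⁻¹) =
      fun _ => (1 : ℂ) := by
    funext τ
    exact mul_inv_cancel₀ (ModularForm.discriminant_ne_zero τ)
  rw [h2] at h1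
  have h3 := h1.unique one_pos (hasLaurent_const 1)
  rw [map_one] at h3
  rwa [← show S = discInvSeries ℂ by
    calc S = (discSeries ℂ * discInvSeries ℂ) * S := by rw [discSeries_mul_inv, one_mul]
      _ = discInvSeries ℂ * (discSeries ℂ * S) := by ring
      _ = discInvSeries ℂ := by rw [h3, mul_one]]

/-- Series of `isoJ`. -/
def isoJSeries : Option (ZMod p) → LaurentSeries (ZetaRing p)
  | none => jv 1 (p * p)
  | some b => jv (zetaU p ^ b.val) 1

/-- Series of `isoF`. -/
def isoFSeries : Option (ZMod p) → LaurentSeries (ZetaRing p)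
  | none => (p : LaurentSeries (ZetaRing p)) ^ 12 * deltaQ (ZetaRing p) p
  | some b => scale (zetaU p ^ b.val) (discSeries (ZetaRing p)) *
      qx (ZetaRing p) p (discInvSeries (ZetaRing p))

theorem qParam_affine (b : ℕ) (τ : ℍ) :
    𝕢 1 (affineH 1 p (b : ℤ) τ) = (Complex.exp (2 * Real.pi * Complex.I / p)) ^ b * 𝕢 p τ := by
  simp only [Function.Periodic.qParam, affineH, ← Complex.exp_nat_mul, ← Complex.exp_add]
  congr 1
  have : (p : ℂ) ≠ 0 := NeZero.ne _
  push_cast
  field_simp
  ring

theorem qParam_scale (τ : ℍ) : 𝕢 1 (scaleH p τ) = 𝕢 p τ ^ (p * p) := by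
  simp only [Function.Periodic.qParam, coe_scaleH, ← Complex.exp_nat_mul]
  congr 1
  have : (p : ℂ) ≠ 0 := NeZero.ne _
  push_cast
  field_simp

/-- `ι ζ^b` as a unit. -/
theorem map_zetaU_pow_val (b : ℕ) :
    ((Units.map (iotaC p : ZetaRing p →* ℂ) (zetaU p ^ b) : ℂˣ) : ℂ) =
      (Complex.exp (2 * Real.pi * Complex.I / p)) ^ b := by
  simp [iotaC, zetaHom, zetaU]

theorem hasLaurent_isoJ (i : Option (ZMod p)) :
    HasLaurent p (isoJ p i) (coeffMap (iotaC p) (isoJSeries p i)) := by
  cases i with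
  | none =>
    have h := hasLaurent_jFun.spread (h' := (p : ℝ)) (p * p) (scaleH p) (qParam_scale p)
    rw [← jv_one_eq] at h
    show HasLaurent p _ (coeffMap (iotaC p) (jv 1 (p * p)))
    rw [coeffMap_jv _ _ (mul_ne_zero (NeZero.ne p) (NeZero.ne p)), map_one]
    exact h
  | some b =>
    have h := hasLaurent_comp_scale hasLaurent_jFun (h' := (p : ℝ)) (affineH 1 p (b.val : ℤ))
      (Units.map (iotaC p : ZetaRing p →* ℂ) (zetaU p ^ b.val))
      (fun τ => by rw [map_zetaU_pow_val]; exact qParam_affine p b.val τ)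
    show HasLaurent p _ (coeffMap (iotaC p) (jv (zetaU p ^ b.val) 1))
    rw [coeffMap_jv _ _ one_ne_zero, jv, qx_one_apply]
    exact h

theorem hasLaurent_isoF (i : Option (ZMod p)) :
    HasLaurent p (isoF p i) (coeffMap (iotaC p) (isoFSeries p i)) := by
  have hinv := hasLaurent_qExpand_one p hasLaurent_disc_inv
  cases i with
  | none =>
    have h := ((hasLaurent_const (h := (p : ℝ)) ((p : ℂ) ^ 12)).mul
      (hasLaurent_disc.spread (h' := (p : ℝ)) (p * p) (scaleH p) (qParam_scale p))).mul hinv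
    rw [← qx_eq] at h
    show HasLaurent p _ (coeffMap (iotaC p) ((p : LaurentSeries (ZetaRing p)) ^ 12 * deltaQ _ p))
    rw [map_mul, map_pow, map_natCast, coeffMap_deltaQ]
    have hpp : p * p ≠ 0 := mul_ne_zero (NeZero.ne p) (NeZero.ne p)
    have hS : HahnSeries.C ((p : ℂ) ^ 12) * qx ℂ (p * p) (discSeries ℂ) *
        qx ℂ p (discInvSeries ℂ) = (p : LaurentSeries ℂ) ^ 12 * deltaQ ℂ p := by
      rw [map_pow, map_natCast, discSeries, discInvSeries, map_mul, map_mul, qx_single hpp,
        qx_single (NeZero.ne p), deltaQ,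
        show HahnSeries.single ((p : ℤ) * p - p) (1 : ℂ) =
          HahnSeries.single (((p * p : ℕ) : ℤ) * 1) 1 * HahnSeries.single ((p : ℤ) * (-1)) 1 by
            rw [HahnSeries.single_mul_single, mul_one, mul_one]
            congr 1
            push_cast
            ring]
      ring
    rw [← hS]
    have hfun : isoF p none = (fun _ => (p : ℂ) ^ 12) * (ModularForm.discriminant ∘ scaleH p) *
        fun τ : ℍ => (ModularForm.discriminant τ)⁻¹ := by
      funext τ
      simp [isoF, isoPoint, isoFactor, div_eq_mul_inv]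
    rw [hfun]
    exact h
  | some b =>
    have h := (hasLaurent_comp_scale hasLaurent_disc (h' := (p : ℝ)) (affineH 1 p (b.val : ℤ))
      (Units.map (iotaC p : ZetaRing p →* ℂ) (zetaU p ^ b.val))
      (fun τ => by rw [map_zetaU_pow_val]; exact qParam_affine p b.val τ)).mul hinv
    show HasLaurent p _ (coeffMap (iotaC p) (scale _ (discSeries _) * qx _ p (discInvSeries _)))
    rw [map_mul, coeffMap_scale, coeffMap_qx _ (NeZero.ne p), (coeffMap_discSeries _).1,
      (coeffMap_discSeries _).2]
    have hfun : isoF p (some b) = (ModularForm.discriminant ∘ affineH 1 p (b.val : ℤ)) *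
        fun τ : ℍ => (ModularForm.discriminant τ)⁻¹ := by
      funext τ
      simp [isoF, isoPoint, isoFactor, div_eq_mul_inv]
    rw [hfun]
    exact h

theorem mdiff_comp_isoPoint {f : ℍ → ℂ} (hf : MDiff f) (i : Option (ZMod p)) :
    MDiff fun τ => f (isoPoint p i τ) := by
  cases i with
  | none =>
    exact mdiff_comp_of_differentiableOn hf (scaleH p) (fun z => (p : ℂ) * z) (by fun_prop)
      (fun _ => rfl)
  | some b =>
    exact mdiff_comp_of_differentiableOn hf (affineH 1 p (b.val : ℤ))
      (fun z => (((1 : ℕ) : ℂ) * z + ((b.val : ℤ) : ℂ)) / p) (by fun_prop) (fun _ => rfl)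

theorem mdiff_isoJ (i : Option (ZMod p)) : MDiff (isoJ p i) :=
  mdiff_comp_isoPoint p mdiff_jFun i

theorem mdiff_isoF (i : Option (ZMod p)) : MDiff (isoF p i) := by
  have h : isoF p i = ((fun _ => isoFactor p i) * fun τ =>
      ModularForm.discriminant (isoPoint p i τ)) *
        fun τ : ℍ => (ModularForm.discriminant τ)⁻¹ := by
    funext τ
    simp [isoF, div_eq_mul_inv]
  rw [h]
  exact (mdifferentiable_const.mul (mdiff_comp_isoPoint p mdiff_disc i)).mul mdiff_disc_inv

end FLTAgent.Igusa
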