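import Fermat.Agent.Igusa.Transitive
import Mathlib.GroupTheory.Index
import Mathlib.GroupTheory.GroupAction.Quotient

/-!
# The index of the stabiliser of the standard family

`orbitDeg N`, the index of `fixGroup N`, satisfies the recursion of `ψ(N)` (`orbitDeg_mul`),
hence does not depend on the field (`orbitDeg_eq_orbitDeg`).
-/

set_option autoImplicit false

noncomputable section

open ModularCurve

namespace FLTAgent.Igusa.Ctx

variable {k : Type} [Field k] [IsAlgClosed k] {M : ℕ} (C : Ctx k M)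

/-- Automorphisms fixing the standard family of level `N`. -/
def fixGroup (N : ℕ) : Subgroup (Amb k M ≃ₐ[k] Amb k M) where
  carrier := {σ | ∀ d, d ∣ N → σ (C.std d) = C.std d}
  mul_mem' {σ τ} hσ hτ d hd := by rw [AlgEquiv.mul_apply, hτ d hd, hσ d hd]
  one_mem' _ _ := rfl
  inv_mem' {σ} hσ d hd := by
    show σ.symm (C.std d) = C.std d
    rw [AlgEquiv.symm_apply_eq, hσ d hd]

omit [IsAlgClosed k] in
theorem fixGroup_anti {N N' : ℕ} (h : N ∣ N') : C.fixGroup N' ≤ C.fixGroup N :=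
  fun _ hσ d hd => hσ d (hd.trans h)

/-- The index of the stabiliser of the standard family. -/
def orbitDeg (N : ℕ) : ℕ := (C.fixGroup N).relIndex (C.fixGroup 1)

omit [IsAlgClosed k] in
theorem orbitDeg_one : C.orbitDeg 1 = 1 := Subgroup.relIndex_self _

/-- The admissible neighbours of `std N`. -/
def nextSet (N p : ℕ) : Set (Amb k M) :=
  {y | C.Rel p (C.std N) y ∧ (p ∣ N → y ≠ C.std (N / p))}

theorem orbit_eq {N p : ℕ} (hp : p.Prime) (hNp : N * p ∣ M) :
    MulAction.orbit (C.fixGroup N) (C.std (N * p)) = C.nextSet N p := by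
  have hN : N ∣ M := (dvd_mul_right N p).trans hNp
  ext y
  constructor
  · rintro ⟨⟨σ, hσ⟩, rfl⟩
    show C.Rel p (C.std N) (σ (C.std (N * p))) ∧ (p ∣ N → σ (C.std (N * p)) ≠ C.std (N / p))
    refine ⟨hσ N dvd_rfl ▸ C.rel_map σ (C.rel_std_up hp hNp), fun hpN h => ?_⟩
    rw [← hσ _ (Nat.div_dvd_of_dvd hpN)] at h
    have h1 := C.std_inj hNp ((Nat.div_dvd_of_dvd hpN).trans hN) (σ.injective h)
    have h2 : N / p ≤ N := Nat.div_le_self N p
    have h3 : 0 < N := Nat.pos_of_ne_zero fun h => C.hM (Nat.eq_zero_of_zero_dvd (h ▸ hN))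
    nlinarith [hp.two_le]
  · rintro ⟨hy, hne⟩
    obtain ⟨τ, hτ, hτp⟩ := C.exists_move hp hNp (fun x hx => C.transitive N hN x hx) hy hne
    exact ⟨⟨τ, hτ⟩, hτp⟩

theorem stabilizer_eq {N p : ℕ} (hp : p.Prime) (hNp : N * p ∣ M) :
    MulAction.stabilizer (C.fixGroup N) (C.std (N * p)) =
      (C.fixGroup (N * p)).subgroupOf (C.fixGroup N) := by
  ext ⟨σ, hσ⟩
  rw [MulAction.mem_stabilizer_iff, Subgroup.mem_subgroupOf]
  constructor
  · intro h
    exact C.family_rigid hp hNp (C.isFamily_map (C.isFamily_std hNp) σ (hσ 1 (one_dvd N))) hσ h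
  · exact fun h => h _ dvd_rfl

theorem ncard_nextSet {N p : ℕ} (hp : p.Prime) (hNp : N * p ∣ M) :
    (C.nextSet N p).ncard = if p ∣ N then p else p + 1 := by
  classical
  have hN : N ∣ M := (dvd_mul_right N p).trans hNp
  have hpM : p ∣ M := (Dvd.intro_left N rfl).trans hNp
  have : NeZero p := ⟨hp.ne_zero⟩
  obtain ⟨m0, hm0⟩ := id hpM
  have hN0 : 0 < N := Nat.pos_of_ne_zero fun h => C.hM (Nat.eq_zero_of_zero_dvd (h ▸ hN))
  set m := m0 * N with hm'
  have hm : m ≠ 0 := mul_ne_zero (fun h => C.hM (by rw [hm0, h, mul_zero])) hN0.ne'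
  have hMN : M * N = m * p := by rw [hm', hm0]; ring
  have hmem : jv ((1 : kˣ) ^ p) (m * p) ∈ algPart k M := by
    rw [one_pow, ← hMN]; exact (C.isVx_std hN).2.1
  have hx : C.std N = vx ((1 : kˣ) ^ p) (m * p) := by rw [one_pow, ← hMN]; rfl
  set up : Amb k M := vx ((1 : kˣ) ^ (p * p)) (m * (p * p)) with hup
  set down : ℕ → Amb k M := fun a => vx (1 * C.zeta p ^ a) m with hdown
  have hroots : {y | C.Rel p (C.std N) y} =
      ((insert up ((Finset.range p).image down) : Finset (Amb k M)) : Set (Amb k M)) := by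
    ext y
    simp only [Set.mem_ofPred_eq, Finset.coe_insert, Finset.coe_image, Finset.coe_range,
      Set.mem_insert_iff, Set.mem_image, Set.mem_Iio]
    rw [hx]
    constructor
    · intro h
      rcases C.rel_cases hp hpM hm hmem h with h | ⟨a, ha, h⟩
      · exact Or.inl h
      · exact Or.inr ⟨a, ha, h.symm⟩
    · rintro (rfl | ⟨a, ha, rfl⟩)
      · exact C.rel_up hp hpM hm hmem
      · exact C.rel_down hp hpM hm hmem ha
  have hinj : Set.InjOn down (Finset.range p : Set ℕ) := by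
    intro a ha b hb h
    simp only [Finset.coe_range, Set.mem_Iio] at ha hb
    obtain ⟨-, h'⟩ := vx_inj (C.down_mem hp hpM hm hmem ha) (C.down_mem hp hpM hm hmem hb) hm hm h
    exact (C.zeta_spec hpM).pow_inj ha hb (by simpa using congrArg Units.val h')
  have hnot : up ∉ (Finset.range p).image down := by
    simp only [Finset.mem_image, Finset.mem_range]
    rintro ⟨a, ha, h⟩
    obtain ⟨h', -⟩ := vx_inj (C.down_mem hp hpM hm hmem ha) (C.up_mem hp hpM hm hmem) hm
      (mul_ne_zero hm (mul_ne_zero hp.ne_zero hp.ne_zero)) h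
    have : 1 < p * p := Nat.one_lt_mul_iff.mpr ⟨hp.pos, hp.pos, Or.inl hp.one_lt⟩
    have := Nat.pos_of_ne_zero hm
    nlinarith
  have hcard : ({y | C.Rel p (C.std N) y}).ncard = p + 1 := by
    rw [hroots, Set.ncard_coe_finset, Finset.card_insert_of_notMem hnot,
      Finset.card_image_of_injOn hinj, Finset.card_range]
  by_cases hpN : p ∣ N
  · rw [if_pos hpN]
    obtain ⟨t, ht⟩ := id hpN
    have ht' : N / p = t := by rw [ht, Nat.mul_div_cancel_left _ hp.pos]
    have hrel : C.Rel p (C.std N) (C.std (N / p)) := by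
      have := C.rel_std_down hp (d := t) (by rw [mul_comm, ← ht]; exact hN)
      rwa [mul_comm t p, ← ht, ← ht'] at this
    have hset : C.nextSet N p = {y | C.Rel p (C.std N) y} \ {C.std (N / p)} := by
      ext y
      simp [nextSet, hpN]
    rw [hset, Set.ncard_sdiff_singleton_of_mem (show C.std (N / p) ∈ {y | C.Rel p (C.std N) y}
      from hrel), hcard]
    rfl
  · rw [if_neg hpN, ← hcard]
    simp [nextSet, hpN]

theorem orbitDeg_mul {N p : ℕ} (hp : p.Prime) (hNp : N * p ∣ M) :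
    C.orbitDeg (N * p) = (if p ∣ N then p else p + 1) * C.orbitDeg N := by
  have hstep : (C.fixGroup (N * p)).relIndex (C.fixGroup N) = if p ∣ N then p else p + 1 := by
    rw [Subgroup.relIndex, ← C.stabilizer_eq hp hNp, MulAction.index_stabilizer,
      C.orbit_eq hp hNp, C.ncard_nextSet hp hNp]
  rw [orbitDeg, ← Subgroup.relIndex_mul_relIndex _ _ _ (C.fixGroup_anti (dvd_mul_right N p))
    (C.fixGroup_anti (one_dvd N)), hstep, orbitDeg]

theorem orbitDeg_pos : ∀ {N : ℕ}, N ∣ M → 0 < C.orbitDeg N := by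
  intro N
  induction N using Nat.strong_induction_on with
  | _ N ih =>
    intro hN
    rcases eq_or_ne N 1 with rfl | hN1
    · rw [orbitDeg_one]; exact one_pos
    obtain ⟨p, hp, N₀, rfl⟩ : ∃ p : ℕ, p.Prime ∧ p ∣ N :=
      ⟨_, Nat.minFac_prime hN1, Nat.minFac_dvd N⟩
    have hN₀0 : 0 < N₀ := Nat.pos_of_ne_zero fun h => C.hM (Nat.eq_zero_of_zero_dvd
      (by simpa [h] using hN))
    rw [mul_comm p N₀, C.orbitDeg_mul hp (by rwa [mul_comm])]
    refine Nat.mul_pos ?_ (ih N₀ (by nlinarith [hp.two_le]) ((dvd_mul_left N₀ p).trans hN))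
    split_ifs <;> [exact hp.pos; omega]

/-- The index does not depend on the field. -/
theorem orbitDeg_eq_orbitDeg {k' : Type} [Field k'] [IsAlgClosed k'] (C' : Ctx k' M) :
    ∀ {N : ℕ}, N ∣ M → C.orbitDeg N = C'.orbitDeg N := by
  intro N
  induction N using Nat.strong_induction_on with
  | _ N ih =>
    intro hN
    rcases eq_or_ne N 1 with rfl | hN1
    · rw [orbitDeg_one, orbitDeg_one]
    obtain ⟨p, hp, N₀, rfl⟩ : ∃ p : ℕ, p.Prime ∧ p ∣ N :=
      ⟨_, Nat.minFac_prime hN1, Nat.minFac_dvd N⟩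
    have hN₀0 : 0 < N₀ := Nat.pos_of_ne_zero fun h => C.hM (Nat.eq_zero_of_zero_dvd
      (by simpa [h] using hN))
    have hN' : N₀ * p ∣ M := by rwa [mul_comm]
    rw [mul_comm p N₀, C.orbitDeg_mul hp hN', C'.orbitDeg_mul hp hN',
      ih N₀ (by nlinarith [hp.two_le]) ((dvd_mul_left N₀ p).trans hN)]

end FLTAgent.Igusa.Ctx
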