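import Fermat.Agent.Igusa.Ambient

/-!
# The modular relation on the ambient field

`Ctx k M` bundles roots of unity and modular polynomial data. `Rel p x y` says that `y` is a
root of the modular polynomial at `x`; its roots at the vertices `vx c m` are computed
(`phi_map_vx`, `rel_cases`, `rel_step`).
-/

set_option autoImplicit false

noncomputable section

open ModularCurve IntermediateField Polynomial

namespace FLTAgent.Igusa

/-- A base field with a primitive `M`-th root of unity and modular polynomial data. -/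
structure Ctx (k : Type) [Field k] (M : ℕ) where
  hM : M ≠ 0
  hMk : (M : k) ≠ 0
  μ : kˣ
  hμ : IsPrimitiveRoot (μ : k) M
  D : AllData

namespace Ctx

variable {k : Type} [Field k] [IsAlgClosed k] {M : ℕ} (C : Ctx k M)

/-- The chosen primitive `p`-th root of unity. -/
def zeta (p : ℕ) : kˣ := C.μ ^ (M / p)

omit [IsAlgClosed k] in
theorem zeta_spec {p : ℕ} (hp : p ∣ M) : IsPrimitiveRoot (C.zeta p : k) p := by
  rw [zeta, Units.val_pow_eq_pow_val]
  exact C.hμ.pow (Nat.pos_of_ne_zero C.hM) (Nat.div_mul_cancel hp).symm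

/-- The modular polynomial of prime level `p` over `k`. -/
def phi (p : ℕ) : Polynomial (Polynomial k) :=
  if h : p.Prime ∧ p ∣ M then
    haveI : NeZero p := ⟨h.1.ne_zero⟩
    (C.D p h.1).phiK (C.zeta_spec h.2)
  else 1

/-- `y` is a root of the modular polynomial of level `p` at `x`. -/
def Rel (p : ℕ) (x y : Amb k M) : Prop :=
  ((C.phi p).map (Polynomial.aeval x).toRingHom).eval y = 0

omit [IsAlgClosed k] in
theorem rel_map {p : ℕ} {x y : Amb k M} (σ : Amb k M ≃ₐ[k] Amb k M) (h : C.Rel p x y) :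
    C.Rel p (σ x) (σ y) := by
  have h2 := congrArg (σ : Amb k M →+* Amb k M) h
  rw [map_zero, ← Polynomial.eval_map_apply, Polynomial.map_map] at h2
  have hcomp : (σ : Amb k M →+* Amb k M).comp (Polynomial.aeval (R := k) x).toRingHom =
      (Polynomial.aeval (R := k) (σ x)).toRingHom := by
    refine RingHom.ext fun P => ?_
    exact (Polynomial.aeval_algHom_apply (σ : Amb k M →ₐ[k] Amb k M) x P).symm
  rw [hcomp] at h2
  exact h2

section Roots

variable {p : ℕ} (hp : p.Prime) (hpM : p ∣ M)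
include C hp hpM

omit [IsAlgClosed k] in
theorem phi_monic : (C.phi p).Monic := by
  have : NeZero p := ⟨hp.ne_zero⟩
  rw [phi, dif_pos ⟨hp, hpM⟩]
  exact PolyData.phiK_monic _ _

variable {c : kˣ} {m : ℕ} (hm : m ≠ 0) (hmem : jv (c ^ p) (m * p) ∈ algPart k M)
include hm hmem

omit [IsAlgClosed k] hmem in
theorem eval_phi_series {x : LaurentSeries k}
    (hx : x = jv (c ^ (p * p)) (m * (p * p)) ∨ ∃ a < p, x = jv (c * C.zeta p ^ a) m) :
    ((C.phi p).map (Polynomial.aeval (jv (c ^ p) (m * p))).toRingHom).eval x = 0 := by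
  have : NeZero p := ⟨hp.ne_zero⟩
  rw [phi, dif_pos ⟨hp, hpM⟩, PolyData.phiK_eq _ _ c hm, Polynomial.eval_mul,
    Polynomial.eval_prod]
  rcases hx with rfl | ⟨a, ha, rfl⟩
  · simp
  · rw [Finset.prod_eq_zero (Finset.mem_range.mpr ha) (by simp), mul_zero]

omit [IsAlgClosed k] in
theorem root_mem {x : LaurentSeries k}
    (hx : x = jv (c ^ (p * p)) (m * (p * p)) ∨ ∃ a < p, x = jv (c * C.zeta p ^ a) m) :
    x ∈ algPart k M := by
  refine mem_algPart_of_monic
    (P := (C.phi p).map (Polynomial.aeval (R := k) (⟨_, hmem⟩ : algPart k M)).toRingHom)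
    ((C.phi_monic hp hpM).map _) ?_
  rw [Polynomial.map_map]
  have hcomp : (algebraMap (algPart k M) (LaurentSeries k)).comp
      (Polynomial.aeval (R := k) (⟨_, hmem⟩ : algPart k M)).toRingHom =
      (Polynomial.aeval (R := k) (jv (c ^ p) (m * p))).toRingHom := by
    refine RingHom.ext fun P => ?_
    exact (Polynomial.aeval_algHom_apply ((algPart k M).val.restrictScalars k)
      (⟨_, hmem⟩ : algPart k M) P).symm
  rw [hcomp]
  exact C.eval_phi_series hp hpM hm hx

omit [IsAlgClosed k] in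
theorem up_mem : jv (c ^ (p * p)) (m * (p * p)) ∈ algPart k M :=
  C.root_mem hp hpM hm hmem (Or.inl rfl)

omit [IsAlgClosed k] in
theorem down_mem {a : ℕ} (ha : a < p) : jv (c * C.zeta p ^ a) m ∈ algPart k M :=
  C.root_mem hp hpM hm hmem (Or.inr ⟨a, ha, rfl⟩)

-- The factorisation of the modular polynomial at `vx (c^p) (m p)`.
omit [IsAlgClosed k] in
open Classical in
theorem phi_map_vx :
    (C.phi p).map (Polynomial.aeval (vx (c ^ p) (m * p) : Amb k M)).toRingHom =
      (Polynomial.X - Polynomial.C (vx (c ^ (p * p)) (m * (p * p)))) *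
        ∏ a ∈ Finset.range p, (Polynomial.X - Polynomial.C (vx (c * C.zeta p ^ a) m)) := by
  have : NeZero p := ⟨hp.ne_zero⟩
  set u : algPart k M := ⟨_, hmem⟩
  have hcomp : (algebraMap (algPart k M) (LaurentSeries k)).comp
      (Polynomial.aeval (R := k) u).toRingHom =
      (Polynomial.aeval (R := k) (jv (c ^ p) (m * p))).toRingHom := by
    refine RingHom.ext fun P => ?_
    exact (Polynomial.aeval_algHom_apply ((algPart k M).val.restrictScalars k) u P).symm
  let u1 : algPart k M := ⟨_, C.up_mem hp hpM hm hmem⟩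
  let v : ℕ → algPart k M := fun a =>
    if h : jv (c * C.zeta p ^ a) m ∈ algPart k M then ⟨_, h⟩ else 0
  have hid : (C.phi p).map (Polynomial.aeval (R := k) u).toRingHom =
      (Polynomial.X - Polynomial.C u1) *
        ∏ a ∈ Finset.range p, (Polynomial.X - Polynomial.C (v a)) := by
    apply Polynomial.map_injective _ (algebraMap (algPart k M) (LaurentSeries k)).injective
    rw [Polynomial.map_map, hcomp, phi, dif_pos ⟨hp, hpM⟩, PolyData.phiK_eq _ _ c hm,
      Polynomial.map_mul, Polynomial.map_prod, Polynomial.map_sub, Polynomial.map_X,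
      Polynomial.map_C]
    congr 1
    refine Finset.prod_congr rfl fun a ha => ?_
    have hv : v a = ⟨_, C.down_mem hp hpM hm hmem (Finset.mem_range.mp ha)⟩ := dif_pos _
    rw [Polynomial.map_sub, Polynomial.map_X, Polynomial.map_C, hv]
    rfl
  have h2 := congrArg (Polynomial.map (emb k M).toRingHom) hid
  rw [Polynomial.map_map] at h2
  have hcomp2 : (emb k M).toRingHom.comp (Polynomial.aeval (R := k) u).toRingHom =
      (Polynomial.aeval (R := k) (vx (c ^ p) (m * p) : Amb k M)).toRingHom := by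
    refine RingHom.ext fun P => ?_
    rw [vx_eq hmem]
    exact (Polynomial.aeval_algHom_apply (emb k M) u P).symm
  rw [hcomp2] at h2
  rw [h2, Polynomial.map_mul, Polynomial.map_prod, Polynomial.map_sub, Polynomial.map_X,
    Polynomial.map_C, vx_eq (C.up_mem hp hpM hm hmem)]
  congr 1
  refine Finset.prod_congr rfl fun a ha => ?_
  have hv : v a = ⟨_, C.down_mem hp hpM hm hmem (Finset.mem_range.mp ha)⟩ := dif_pos _
  rw [Polynomial.map_sub, Polynomial.map_X, Polynomial.map_C, hv,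
    vx_eq (C.down_mem hp hpM hm hmem (Finset.mem_range.mp ha))]
  rfl

omit [IsAlgClosed k] in
theorem rel_up : C.Rel p (vx (c ^ p) (m * p)) (vx (c ^ (p * p)) (m * (p * p))) := by
  rw [Rel, C.phi_map_vx hp hpM hm hmem]
  simp

omit [IsAlgClosed k] in
theorem rel_down {a : ℕ} (ha : a < p) :
    C.Rel p (vx (c ^ p) (m * p)) (vx (c * C.zeta p ^ a) m) := by
  rw [Rel, C.phi_map_vx hp hpM hm hmem, Polynomial.eval_mul, Polynomial.eval_prod,
    Finset.prod_eq_zero (Finset.mem_range.mpr ha) (by simp), mul_zero]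

omit [IsAlgClosed k] in
theorem rel_cases {y : Amb k M} (h : C.Rel p (vx (c ^ p) (m * p)) y) :
    y = vx (c ^ (p * p)) (m * (p * p)) ∨ ∃ a < p, y = vx (c * C.zeta p ^ a) m := by
  rw [Rel, C.phi_map_vx hp hpM hm hmem, Polynomial.eval_mul, Polynomial.eval_prod, mul_eq_zero,
    Finset.prod_eq_zero_iff] at h
  rcases h with h | ⟨a, ha, h⟩
  · left
    simpa [sub_eq_zero] using h
  · right
    exact ⟨a, Finset.mem_range.mp ha, by simpa [sub_eq_zero] using h⟩

end Roots

/-- `y` is a vertex `vx c m`. -/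
def IsVx (y : Amb k M) (c : kˣ) (m : ℕ) : Prop :=
  m ≠ 0 ∧ jv c m ∈ algPart k M ∧ y = vx c m

omit [IsAlgClosed k] in
theorem isVx_inj {y : Amb k M} {c c' : kˣ} {m m' : ℕ} (h : IsVx y c m) (h' : IsVx y c' m') :
    m = m' ∧ c = c' :=
  vx_inj h.2.1 h'.2.1 h.1 h'.1 (h.2.2.symm.trans h'.2.2)

omit [IsAlgClosed k] in
theorem isVx_one_self (C : Ctx k M) : IsVx (vx 1 M : Amb k M) 1 M :=
  ⟨C.hM, self_mem_algPart, rfl⟩

section Roots2

variable {p : ℕ} (hp : p.Prime) (hpM : p ∣ M) {x : Amb k M} {d : kˣ} {m : ℕ}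
include C hp hpM

theorem rel_step (hx : IsVx x d m) (hdvd : p ∣ m) {y : Amb k M} (h : C.Rel p x y) :
    IsVx y (d ^ p) (m * p) ∨ ∃ c : kˣ, c ^ p = d ∧ IsVx y c (m / p) := by
  obtain ⟨m, rfl⟩ := hdvd
  rw [mul_comm p m] at hx ⊢
  have hm : m ≠ 0 := fun h0 => hx.1 (by simp [h0])
  obtain ⟨z, hz⟩ := IsAlgClosed.exists_pow_nat_eq (d : k) hp.pos
  have hz0 : z ≠ 0 := fun h0 => d.ne_zero (by rw [← hz, h0, zero_pow hp.ne_zero])
  obtain ⟨c, rfl⟩ : ∃ c : kˣ, c ^ p = d := ⟨Units.mk0 z hz0, Units.ext (by simpa using hz)⟩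
  obtain ⟨-, hmem, rfl⟩ := hx
  rw [Nat.mul_div_cancel _ hp.pos]
  rcases C.rel_cases hp hpM hm hmem h with rfl | ⟨a, ha, rfl⟩
  · refine Or.inl ⟨mul_ne_zero (mul_ne_zero hm hp.ne_zero) hp.ne_zero, ?_, ?_⟩
    · rw [← pow_mul, mul_assoc]
      exact C.up_mem hp hpM hm hmem
    · rw [← pow_mul, mul_assoc]
  · refine Or.inr ⟨c * C.zeta p ^ a, ?_, hm, C.down_mem hp hpM hm hmem ha, rfl⟩
    have h1 : C.zeta p ^ p = 1 := Units.ext (by simpa using (C.zeta_spec hpM).pow_eq_one)
    rw [mul_pow, ← pow_mul, mul_comm a p, pow_mul, h1, one_pow, mul_one]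

theorem exists_up (hx : IsVx x d m) (hdvd : p ∣ m) :
    ∃ y, C.Rel p x y ∧ IsVx y (d ^ p) (m * p) := by
  obtain ⟨m, rfl⟩ := hdvd
  rw [mul_comm p m] at hx ⊢
  have hm : m ≠ 0 := fun h0 => hx.1 (by simp [h0])
  obtain ⟨z, hz⟩ := IsAlgClosed.exists_pow_nat_eq (d : k) hp.pos
  have hz0 : z ≠ 0 := fun h0 => d.ne_zero (by rw [← hz, h0, zero_pow hp.ne_zero])
  obtain ⟨c, rfl⟩ : ∃ c : kˣ, c ^ p = d := ⟨Units.mk0 z hz0, Units.ext (by simpa using hz)⟩
  obtain ⟨-, hmem, rfl⟩ := hx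
  refine ⟨_, C.rel_up hp hpM hm hmem, mul_ne_zero (mul_ne_zero hm hp.ne_zero) hp.ne_zero, ?_, ?_⟩
  · rw [← pow_mul, mul_assoc]
    exact C.up_mem hp hpM hm hmem
  · rw [← pow_mul, mul_assoc]

omit [IsAlgClosed k] in
theorem exists_down (hx : IsVx x d m) (hdvd : p ∣ m) {c : kˣ} (hc : c ^ p = d) :
    ∃ y, C.Rel p x y ∧ IsVx y c (m / p) := by
  obtain ⟨m, rfl⟩ := hdvd
  rw [mul_comm p m] at hx ⊢
  subst hc
  have hm : m ≠ 0 := fun h0 => hx.1 (by simp [h0])
  obtain ⟨-, hmem, rfl⟩ := hx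
  rw [Nat.mul_div_cancel _ hp.pos]
  have h0 := C.rel_down hp hpM hm hmem hp.pos
  have h1 := C.down_mem hp hpM hm hmem hp.pos
  rw [pow_zero, mul_one] at h0 h1
  exact ⟨_, h0, hm, h1, rfl⟩

end Roots2

end Ctx

end FLTAgent.Igusa
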