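import Fermat.Agent.FiniteFlat.RatLocalized
import Fermat.Agent.Igusa.Series
import Mathlib.RingTheory.PowerSeries.Ideal
import Mathlib.RingTheory.Localization.Integer
import Mathlib.RingTheory.LocalRing.RingHom.Basic
import Mathlib.Algebra.Field.ZMod

/-!
# Laurent series over `ℤ_(ℓ)`

Reduction `redHom : ℤ_(ℓ) → 𝔽_ℓ` and the maps `inclSeries`, `redSeries` of Laurent series over
`ℤ_(ℓ)` to `ℚ((q))` and `𝔽_ℓ((q))`: the first is injective, the kernel of the second is generated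
by `ℓ`, and the source is integrally closed.
-/

set_option autoImplicit false

noncomputable section

open ModularCurve GaloisRep

namespace FLTAgent.Igusa

variable (ℓ : ℕ) [Fact ℓ.Prime]

/-- `ℤ_(ℓ)`. -/
abbrev Zl : Type := ↥(ratLocalizedAt ℓ)

variable {ℓ}

theorem den_ne_zero_zmod (a : Zl ℓ) : (((a : ℚ).den : ℕ) : ZMod ℓ) ≠ 0 := by
  rw [Ne, ZMod.natCast_eq_zero_iff]
  intro h
  exact (Fact.out : ℓ.Prime).one_lt.ne'
    (Nat.dvd_one.mp ((a.2 : Nat.Coprime _ _) ▸ Nat.dvd_gcd h dvd_rfl))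

/-- `num / den mod ℓ`. -/
def redFun (a : Zl ℓ) : ZMod ℓ := ((a : ℚ).num : ZMod ℓ) / ((a : ℚ).den : ZMod ℓ)

theorem redFun_eq {a : Zl ℓ} {n : ℤ} {d : ℕ} (hd : (d : ZMod ℓ) ≠ 0)
    (h : (a : ℚ) * d = n) : redFun a = (n : ZMod ℓ) / (d : ZMod ℓ) := by
  rw [redFun, div_eq_div_iff (den_ne_zero_zmod a) hd]
  have h1 : (a : ℚ).num * (d : ℤ) = n * ((a : ℚ).den : ℤ) := by
    have h2 : ((a : ℚ).num : ℚ) * d = n * ((a : ℚ).den : ℚ) := by
      rw [← h, ← Rat.mul_den_eq_num (a : ℚ)]; ring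
    exact_mod_cast h2
  have h3 := congrArg (fun z : ℤ => (z : ZMod ℓ)) h1
  push_cast at h3
  exact h3

variable (ℓ) in
/-- Reduction modulo `ℓ`. -/
def redHom : Zl ℓ →+* ZMod ℓ where
  toFun := redFun
  map_one' := by simp [redFun]
  map_zero' := by simp [redFun]
  map_add' a b := by
    have ha := den_ne_zero_zmod a
    have hb := den_ne_zero_zmod b
    rw [redFun_eq (a := a + b) (n := (a : ℚ).num * (b : ℚ).den + (b : ℚ).num * (a : ℚ).den)
      (d := (a : ℚ).den * (b : ℚ).den) (by push_cast; exact mul_ne_zero ha hb), redFun, redFun,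
      div_add_div _ _ ha hb]
    · push_cast; ring
    · push_cast
      linear_combination ((b : ℚ).den : ℚ) * Rat.mul_den_eq_num (a : ℚ) +
        ((a : ℚ).den : ℚ) * Rat.mul_den_eq_num (b : ℚ)
  map_mul' a b := by
    have ha := den_ne_zero_zmod a
    have hb := den_ne_zero_zmod b
    rw [redFun_eq (a := a * b) (n := (a : ℚ).num * (b : ℚ).num)
      (d := (a : ℚ).den * (b : ℚ).den) (by push_cast; exact mul_ne_zero ha hb), redFun, redFun,
      div_mul_div_comm]
    · push_cast; ring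
    · push_cast
      linear_combination ((b : ℚ) * ((b : ℚ).den : ℚ)) * Rat.mul_den_eq_num (a : ℚ) +
        ((a : ℚ).num : ℚ) * Rat.mul_den_eq_num (b : ℚ)

theorem coprime_num_of_red_ne_zero {a : Zl ℓ} (h : redHom ℓ a ≠ 0) :
    Nat.Coprime (a : ℚ).num.natAbs ℓ := by
  rw [Nat.coprime_comm, (Fact.out : ℓ.Prime).coprime_iff_not_dvd]
  intro hd
  apply h
  show redFun a = 0
  rw [redFun, (ZMod.intCast_zmod_eq_zero_iff_dvd _ _).mpr (Int.natCast_dvd.mpr hd), zero_div]

theorem isUnit_of_red_ne_zero {a : Zl ℓ} (h : redHom ℓ a ≠ 0) : IsUnit a := by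
  have ha : (a : ℚ) ≠ 0 := fun h0 => h (by rw [show a = 0 from Subtype.ext h0, map_zero])
  refine ⟨⟨a, ⟨(a : ℚ)⁻¹, ?_⟩, ?_, ?_⟩, rfl⟩
  · show Nat.Coprime (a : ℚ)⁻¹.den ℓ
    rw [Rat.den_inv_of_ne_zero ha]
    exact coprime_num_of_red_ne_zero h
  · exact Subtype.ext (mul_inv_cancel₀ ha)
  · exact Subtype.ext (inv_mul_cancel₀ ha)

theorem exists_mul_of_red_eq_zero {a : Zl ℓ} (h : redHom ℓ a = 0) :
    ∃ b : Zl ℓ, a = (ℓ : Zl ℓ) * b := by
  have h' : redFun a = 0 := h
  rw [redFun, div_eq_zero_iff, or_iff_left (den_ne_zero_zmod a),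
    ZMod.intCast_zmod_eq_zero_iff_dvd] at h'
  obtain ⟨c, hc⟩ := h'
  refine ⟨⟨(c : ℚ) * ((a : ℚ).den : ℚ)⁻¹, mul_mem (FiniteFlat.intCast_mem_ratLocalizedAt c)
    (FiniteFlat.inv_natCast_mem_ratLocalizedAt a.2)⟩, Subtype.ext ?_⟩
  show (a : ℚ) = (ℓ : ℚ) * ((c : ℚ) * ((a : ℚ).den : ℚ)⁻¹)
  have hc' : ((a : ℚ).num : ℚ) = (ℓ : ℚ) * c := by exact_mod_cast hc
  rw [← mul_assoc, ← hc', ← div_eq_mul_inv, Rat.num_div_den]

theorem red_natCast_self : redHom ℓ (ℓ : Zl ℓ) = 0 := by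
  rw [map_natCast, ZMod.natCast_self]

theorem mem_or_inv_mem (q : ℚ) : q ∈ ratLocalizedAt ℓ ∨ q⁻¹ ∈ ratLocalizedAt ℓ := by
  rcases eq_or_ne q 0 with rfl | hq
  · exact Or.inl (Subring.zero_mem _)
  by_cases h : Nat.Coprime q.den ℓ
  · exact Or.inl h
  · right
    show Nat.Coprime q⁻¹.den ℓ
    rw [Rat.den_inv_of_ne_zero hq, Nat.coprime_comm, (Fact.out : ℓ.Prime).coprime_iff_not_dvd]
    rw [Nat.coprime_comm, (Fact.out : ℓ.Prime).coprime_iff_not_dvd, not_not] at h
    intro h'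
    have h2 := Nat.dvd_gcd h' h
    rw [q.reduced, Nat.dvd_one] at h2
    exact (Fact.out : ℓ.Prime).one_lt.ne' h2

/-- Some member divides all members. -/
theorem exists_dominant {ι : Type} (s : Finset ι) (a : ι → ℚ) (h : ∃ i ∈ s, a i ≠ 0) :
    ∃ i ∈ s, a i ≠ 0 ∧ ∀ l ∈ s, a l / a i ∈ ratLocalizedAt ℓ := by
  classical
  induction s using Finset.induction with
  | empty => simp at h
  | @insert x s hx ih =>
    by_cases hs : ∃ i ∈ s, a i ≠ 0
    · obtain ⟨i, his, hi, hmax⟩ := ih hs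
      rcases mem_or_inv_mem (ℓ := ℓ) (a x / a i) with hle | hge
      · exact ⟨i, Finset.mem_insert_of_mem his, hi,
          Finset.forall_mem_insert _ _ _ |>.mpr ⟨hle, hmax⟩⟩
      · rcases eq_or_ne (a x) 0 with hax | hax
        · exact ⟨i, Finset.mem_insert_of_mem his, hi,
            Finset.forall_mem_insert _ _ _ |>.mpr ⟨by simp [hax], hmax⟩⟩
        · refine ⟨x, Finset.mem_insert_self _ _, hax,
            Finset.forall_mem_insert _ _ _ |>.mpr ⟨by simp [hax], fun l hl => ?_⟩⟩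
          rw [inv_div] at hge
          have := mul_mem (hmax l hl) hge
          rwa [div_mul_div_cancel₀ hi] at this
    · push Not at hs
      obtain ⟨i, hi, hne⟩ := h
      obtain rfl : i = x := (Finset.mem_insert.mp hi).resolve_right fun h' => hne (hs i h')
      exact ⟨i, Finset.mem_insert_self _ _, hne, Finset.forall_mem_insert _ _ _ |>.mpr
        ⟨by simp [hne], fun l hl => by simp [hs l hl]⟩⟩

variable (ℓ) in
/-- `ℤ_(ℓ)((q)) → ℚ((q))`. -/
def inclSeries : LaurentSeries (Zl ℓ) →+* LaurentSeries ℚ := coeffMap (ratLocalizedAt ℓ).subtype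

variable (ℓ) in
/-- `ℤ_(ℓ)((q)) → 𝔽_ℓ((q))`. -/
def redSeries : LaurentSeries (Zl ℓ) →+* LaurentSeries (ZMod ℓ) := coeffMap (redHom ℓ)

omit [Fact (Nat.Prime ℓ)] in
theorem inclSeries_injective : Function.Injective (inclSeries ℓ) := fun x y h => by
  ext i
  exact congrArg (fun z : LaurentSeries ℚ => z.coeff i) h

theorem exists_mul_of_redSeries_eq_zero {x : LaurentSeries (Zl ℓ)} (h : redSeries ℓ x = 0) :
    ∃ y, x = (ℓ : LaurentSeries (Zl ℓ)) * y := by
  have hc : ∀ i, ∃ b : Zl ℓ, x.coeff i = (ℓ : Zl ℓ) * b := fun i =>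
    exists_mul_of_red_eq_zero (congrArg (fun z : LaurentSeries (ZMod ℓ) => z.coeff i) h)
  choose b hb using hc
  refine ⟨⟨b, x.isPWO_support.mono fun i hi h0 => hi ?_⟩, ?_⟩
  · have := hb i
    rw [h0] at this
    rcases mul_eq_zero.mp this.symm with h1 | h1
    · exact absurd (congrArg Subtype.val h1) (by simp [(Fact.out : ℓ.Prime).ne_zero])
    · exact h1
  · ext i
    rw [← map_natCast (HahnSeries.C (Γ := ℤ)), HahnSeries.C_apply,
      HahnSeries.coeff_single_zero_mul]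
    exact congrArg Subtype.val (hb i)

instance isIntegrallyClosed_laurentSeries_zl : IsIntegrallyClosed (LaurentSeries (Zl ℓ)) := by
  have : IsIntegrallyClosed (PowerSeries (Zl ℓ)) := inferInstance
  exact isIntegrallyClosed_of_isLocalization (LaurentSeries (Zl ℓ))
    (Submonoid.powers (PowerSeries.X : PowerSeries (Zl ℓ)))
    (powers_le_nonZeroDivisors_of_noZeroDivisors PowerSeries.X_ne_zero)

/-- An element of the fraction field integral over an integrally closed domain lies in it. -/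
theorem exists_eq_of_isIntegralElem {R K : Type} [CommRing R] [IsDomain R] [IsIntegrallyClosed R]
    [Field K] (f : R →+* K) (hf : Function.Injective f) {x : K} {a b : R} (hb : b ≠ 0)
    (hx : x * f b = f a) (hint : f.IsIntegralElem x) : ∃ r, f r = x := by
  let g : FractionRing R →+* K := IsFractionRing.lift (A := R) hf
  have hg : g.comp (algebraMap R (FractionRing R)) = f :=
    RingHom.ext fun r => IsFractionRing.lift_algebraMap hf r
  set r0 : FractionRing R := algebraMap R _ a / algebraMap R _ b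
  have hgr : g r0 = x := by
    rw [map_div₀, ← RingHom.comp_apply g, ← RingHom.comp_apply g, hg, eq_comm,
      eq_div_iff fun h => hb (hf (h.trans (map_zero f).symm)), hx]
  obtain ⟨P, hP, hP0⟩ := hint
  have hr : IsIntegral R r0 := ⟨P, hP, g.injective (by
    rw [map_zero, Polynomial.hom_eval₂, hg, hgr]; exact hP0)⟩
  obtain ⟨r, hr'⟩ := IsIntegrallyClosed.algebraMap_eq_of_integral hr
  exact ⟨r, by rw [← hgr, ← hr', ← RingHom.comp_apply g, hg]⟩

end FLTAgent.Igusa
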