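import Fermat.Agent.GoodReduction.TwoMultiples
import Fermat.Agent.Igusa.Basis
import Fermat.Prelude.Def_ModularCurve_IgusaScheme
import Mathlib.RingTheory.Polynomial.Eisenstein.Basic
import Mathlib.FieldTheory.Minpoly.IsIntegrallyClosed

/-!
# The `q`-expansion principle for the Igusa charts

`exists_div_of_red_eq_zero`: an element of a chart ring of the Igusa model whose expansion
vanishes modulo `ℓ ∤ N` is `ℓ` times an element of the chart ring. Elements of the chart rings
have `ℤ_(ℓ)`-integral expansions (`exists_series_of_mem_chartAlg`).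
-/

set_option autoImplicit false

noncomputable section

open ModularCurve ModularCurve.IgusaScheme GaloisRep Polynomial

namespace FLTAgent.Igusa

variable {ℓ : ℕ} [Fact ℓ.Prime] {N : ℕ} [NeZero N]

set_option quotPrecheck false in
local notation "F" => ↥(modularFunctionFieldFull N)

omit [Fact (Nat.Prime ℓ)] in
theorem ev_incl (P : Polynomial (Zl ℓ)) :
    inclSeries ℓ (ev (jqModC (Zl ℓ)) P) =
      Polynomial.aeval jq (P.map (ratLocalizedAt ℓ).subtype) := by
  rw [inclSeries, ← RingHom.comp_apply, coeffMap_ev, coeffMap_jqModC, RingHom.comp_apply,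
    ev_eq_aeval, jqModC_rat]
  rfl

theorem ev_red (P : Polynomial (Zl ℓ)) :
    redSeries ℓ (ev (jqModC (Zl ℓ)) P) =
      Polynomial.aeval (jqModC (ZMod ℓ)) (P.map (redHom ℓ)) := by
  rw [redSeries, ← RingHom.comp_apply, coeffMap_ev, coeffMap_jqModC, RingHom.comp_apply,
    ev_eq_aeval]
  rfl

/-- Scaling a nonzero family of polynomials to a primitive integral one. -/
theorem exists_primitive {ι : Type} [Fintype ι] (P : ι → Polynomial ℚ) (h : ∃ i, P i ≠ 0) :
    ∃ (c : ℚ) (P' : ι → Polynomial (Zl ℓ)), c ≠ 0 ∧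
      (∀ i, (P' i).map (ratLocalizedAt ℓ).subtype = Polynomial.C c * P i) ∧
      ∃ i, (P' i).map (redHom ℓ) ≠ 0 := by
  classical
  obtain ⟨i0, hi0⟩ := h
  set s : Finset ((_ : ι) × ℕ) := Finset.univ.sigma fun i => (P i).support
  obtain ⟨⟨i, n⟩, hin, hne, hmax⟩ := exists_dominant (ℓ := ℓ) s (fun x => (P x.1).coeff x.2) (by
    refine ⟨⟨i0, (P i0).natDegree⟩, ?_, ?_⟩
    · simp [s, Polynomial.mem_support_iff, hi0]
    · simpa using hi0)
  set c := ((P i).coeff n)⁻¹ with hc
  have hlift : ∀ l, Polynomial.C c * P l ∈ Polynomial.lifts (ratLocalizedAt ℓ).subtype := by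
    intro l
    rw [Polynomial.lifts_iff_coeff_lifts]
    intro m
    rw [Polynomial.coeff_C_mul]
    by_cases hm : (P l).coeff m = 0
    · rw [hm, mul_zero]; exact ⟨0, rfl⟩
    · refine ⟨⟨c * (P l).coeff m, ?_⟩, rfl⟩
      have := hmax ⟨l, m⟩ (by simp [s, Polynomial.mem_support_iff, hm])
      rwa [div_eq_inv_mul] at this
  choose P' hP' using fun l => (Polynomial.mem_lifts _).mp (hlift l)
  refine ⟨c, P', inv_ne_zero hne, hP', i, fun h0 => ?_⟩
  have h1 : (P' i).coeff n = 1 := Subtype.ext (by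
    have := congrArg (fun R => Polynomial.coeff R n) (hP' i)
    simp only [Polynomial.coeff_map, Polynomial.coeff_C_mul, hc] at this
    rw [inv_mul_cancel₀ hne] at this
    exact this)
  have := congrArg (fun R => Polynomial.coeff R n) h0
  simp [h1] at this

namespace MonBasis

variable (B : MonBasis ℓ N)

theorem red_sum_ne_zero {P : Fin B.n → Polynomial (Zl ℓ)}
    (h : ∃ i, (P i).map (redHom ℓ) ≠ 0) :
    redSeries ℓ (∑ i, ev (jqModC (Zl ℓ)) (P i) * B.e i) ≠ 0 := by
  obtain ⟨i, hi⟩ := h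
  intro h0
  simp only [map_sum, map_mul, ev_red] at h0
  exact hi (B.indep _ h0 i)

/-- A combination with integral expansion has integral coefficients. -/
theorem coeff_integral (P : Fin B.n → Polynomial ℚ) (y : LaurentSeries (Zl ℓ))
    (h : inclSeries ℓ y = ∑ i, Polynomial.aeval jq (P i) * inclSeries ℓ (B.e i)) :
    ∃ P' : Fin B.n → Polynomial (Zl ℓ), ∀ i, (P' i).map (ratLocalizedAt ℓ).subtype = P i := by
  by_cases hP : ∃ i, P i ≠ 0
  swap
  · push Not at hP
    exact ⟨0, fun i => by simp [hP i]⟩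
  obtain ⟨c, P', hc, hP', hred⟩ := exists_primitive (ℓ := ℓ) P hP
  rcases mem_or_inv_mem (ℓ := ℓ) c⁻¹ with hcl | hcl
  · refine ⟨fun i => Polynomial.C ⟨c⁻¹, hcl⟩ * P' i, fun i => ?_⟩
    rw [Polynomial.map_mul, Polynomial.map_C, hP', ← mul_assoc, ← map_mul Polynomial.C]
    simp [hc]
  · rw [inv_inv] at hcl
    have heq : HahnSeries.C (⟨c, hcl⟩ : Zl ℓ) * y =
        ∑ i, ev (jqModC (Zl ℓ)) (P' i) * B.e i := by
      apply inclSeries_injective
      rw [map_mul, h, Finset.mul_sum, map_sum]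
      refine Finset.sum_congr rfl fun i _ => ?_
      rw [map_mul, ev_incl, hP', map_mul, Polynomial.aeval_C, inclSeries, HahnSeries.C_apply,
        coeffMap_single, algebraMap_laurentSeries_eq_single, mul_assoc]
      rfl
    by_cases hu : redHom ℓ ⟨c, hcl⟩ = 0
    · refine absurd ?_ (B.red_sum_ne_zero hred)
      rw [← heq, map_mul, redSeries, HahnSeries.C_apply, coeffMap_single, hu, map_zero, zero_mul]
    · obtain ⟨u, hu'⟩ := isUnit_of_red_ne_zero hu
      refine ⟨fun i => Polynomial.C (↑u⁻¹ : Zl ℓ) * P' i, fun i => ?_⟩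
      rw [Polynomial.map_mul, Polynomial.map_C, hP', ← mul_assoc, ← map_mul Polynomial.C]
      have h1 : (ratLocalizedAt ℓ).subtype (↑u⁻¹ : Zl ℓ) * c = 1 := by
        have := congrArg (ratLocalizedAt ℓ).subtype (Units.inv_mul u)
        rw [map_mul, map_one, hu'] at this
        exact this
      rw [h1, map_one, one_mul]

theorem incl_mem (i : Fin B.n) : inclSeries ℓ (B.e i) ∈ modularFunctionFieldFull N := by
  have h := B.mem_closure i
  generalize B.e i = x at h ⊢
  induction h using Submonoid.closure_induction with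
  | mem y hy =>
    obtain ⟨d, hd, rfl⟩ := hy
    have : NeZero d := ⟨fun h => NeZero.ne N (Nat.eq_zero_of_zero_dvd (h ▸ hd))⟩
    rw [inclSeries, coeffMap_qx _ (NeZero.ne d), coeffMap_jqModC, jqModC_rat, qx_eq]
    exact jqd_mem_full N hd
  | one => rw [map_one]; exact one_mem _
  | mul x y _ _ hx hy => rw [map_mul]; exact mul_mem hx hy

/-- The basis elements in the function field. -/
def eF (i : Fin B.n) : F := ⟨inclSeries ℓ (B.e i), B.incl_mem i⟩

/-- Every element of the function field is a combination with a primitive denominator. -/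
theorem exists_repr (x : F) :
    ∃ Q : Polynomial (Zl ℓ), Q.map (redHom ℓ) ≠ 0 ∧ ∃ P : Fin B.n → Polynomial ℚ,
      Polynomial.aeval jq (Q.map (ratLocalizedAt ℓ).subtype) * (x : LaurentSeries ℚ) =
        ∑ i, Polynomial.aeval jq (P i) * inclSeries ℓ (B.e i) := by
  obtain ⟨P, hPne, hP⟩ := exists_rat_relation (N := N) (ι := Option (Fin B.n))
    (by simp [← B.degree_eq]) (v := fun o => o.elim (x : LaurentSeries ℚ) fun i =>
      inclSeries ℓ (B.e i)) (fun o => by cases o <;> simp [B.incl_mem])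
  rw [Fintype.sum_option] at hP
  simp only [Option.elim_none, Option.elim_some] at hP
  have h0 : P none ≠ 0 := by
    intro h0
    rw [h0, map_zero, zero_mul, zero_add] at hP
    have hne : ∃ i, P (some i) ≠ 0 := by
      obtain ⟨o, ho⟩ := hPne
      cases o with
      | none => exact absurd h0 ho
      | some i => exact ⟨i, ho⟩
    obtain ⟨c, P', hc, hP', hred⟩ := exists_primitive (ℓ := ℓ) (fun i => P (some i)) hne
    refine B.red_sum_ne_zero hred ?_
    have : inclSeries ℓ (∑ i, ev (jqModC (Zl ℓ)) (P' i) * B.e i) = 0 := by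
      rw [map_sum, ← mul_zero (algebraMap ℚ (LaurentSeries ℚ) c), ← hP, Finset.mul_sum]
      refine Finset.sum_congr rfl fun i _ => ?_
      rw [map_mul, ev_incl, hP', map_mul, Polynomial.aeval_C, mul_assoc]
    rw [inclSeries_injective (this.trans (map_zero _).symm), map_zero]
  obtain ⟨c, Q, hc, hQ, ⟨_, hQred⟩⟩ :=
    exists_primitive (ℓ := ℓ) (fun _ : Unit => P none) ⟨(), h0⟩
  refine ⟨Q (), hQred, fun i => Polynomial.C (-c) * P (some i), ?_⟩
  rw [hQ, map_mul, Polynomial.aeval_C, mul_assoc, eq_neg_of_add_eq_zero_left hP, mul_neg,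
    Finset.mul_sum, ← Finset.sum_neg_distrib]
  refine Finset.sum_congr rfl fun i _ => ?_
  rw [map_mul, Polynomial.aeval_C, map_neg, neg_mul, neg_mul, mul_assoc]

end MonBasis

omit [Fact (Nat.Prime ℓ)] [NeZero N] in
theorem exists_series_algebraMap (a : Zl ℓ) :
    ∃ y, inclSeries ℓ y = ((algebraMap (Zl ℓ) F a : F) : LaurentSeries ℚ) := by
  refine ⟨HahnSeries.C a, ?_⟩
  have h : ((algebraMap (Zl ℓ) F a : F) : LaurentSeries ℚ) =
      algebraMap ℚ (LaurentSeries ℚ) (a : ℚ) := by
    show algebraMap F (LaurentSeries ℚ) ((algebraMap ℚ F) (a : ℚ)) = _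
    rw [eq_ratCast, map_ratCast, eq_ratCast]
  rw [h, algebraMap_laurentSeries_eq_single, inclSeries, HahnSeries.C_apply, coeffMap_single]
  rfl

/-- Elements integral over an algebra with integral expansions have integral expansions. -/
theorem exists_series_of_mem_chartAlg (hℓN : ¬ ℓ ∣ N) {S : Set F}
    (hS : ∀ s ∈ S, ∃ y, inclSeries ℓ y = (s : LaurentSeries ℚ)) {x : F}
    (hx : x ∈ chartAlg N ℓ S) : ∃ y, inclSeries ℓ y = (x : LaurentSeries ℚ) := by
  have hadj : ∀ a ∈ Algebra.adjoin (Zl ℓ) S, ∃ y, inclSeries ℓ y = (a : LaurentSeries ℚ) := by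
    intro a ha
    induction ha using Algebra.adjoin_induction with
    | mem s hs => exact hS s hs
    | algebraMap a => exact exists_series_algebraMap a
    | add a b _ _ ha hb =>
      obtain ⟨u, hu⟩ := ha; obtain ⟨v, hv⟩ := hb
      exact ⟨u + v, by rw [map_add, hu, hv]; rfl⟩
    | mul a b _ _ ha hb =>
      obtain ⟨u, hu⟩ := ha; obtain ⟨v, hv⟩ := hb
      exact ⟨u * v, by rw [map_mul, hu, hv]; rfl⟩
  obtain ⟨p, hp, hp0⟩ := (mem_chartAlg_iff N ℓ).mp hx
  set φ : Algebra.adjoin (Zl ℓ) S →+* LaurentSeries ℚ :=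
    (algebraMap F (LaurentSeries ℚ)).comp (algebraMap (Algebra.adjoin (Zl ℓ) S) F)
  have hlifts : p.map φ ∈ Polynomial.lifts (inclSeries ℓ) :=
    (Polynomial.lifts_iff_coeff_lifts _).mpr fun n => by
      rw [Polynomial.coeff_map]
      exact hadj _ (p.coeff n).2
  obtain ⟨p', hp'map, -, hp'⟩ := Polynomial.lifts_and_natDegree_eq_and_monic hlifts (hp.map φ)
  have hint : (inclSeries ℓ).IsIntegralElem (x : LaurentSeries ℚ) := by
    refine ⟨p', hp', ?_⟩
    rw [← Polynomial.eval_map, hp'map, Polynomial.eval_map]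
    have := congrArg (algebraMap F (LaurentSeries ℚ)) hp0
    rwa [Polynomial.hom_eval₂, map_zero] at this
  obtain ⟨B⟩ := exists_monBasis (N := N) hℓN
  obtain ⟨Q, hQ, P, hP⟩ := B.exists_repr x
  have hb : ev (jqModC (Zl ℓ)) Q ≠ 0 := by
    intro h0
    have := congrArg (redSeries ℓ) h0
    rw [ev_red, map_zero] at this
    exact hQ ((transcendental_iff.mp (transcendental_of_lead lead_jqModC one_ne_zero (by norm_num)))
      _ this)
  by_cases hPne : ∃ i, P i ≠ 0
  swap
  · push Not at hPne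
    refine exists_eq_of_isIntegralElem (inclSeries ℓ) inclSeries_injective hb (a := 0) ?_ hint
    rw [ev_incl, mul_comm, hP]
    simp [hPne]
  obtain ⟨c, P', hc, hP', -⟩ := exists_primitive (ℓ := ℓ) P hPne
  rcases mem_or_inv_mem (ℓ := ℓ) c with hcl | hcl
  · refine exists_eq_of_isIntegralElem (inclSeries ℓ) inclSeries_injective
      (b := HahnSeries.C (⟨c, hcl⟩ : Zl ℓ) * ev (jqModC (Zl ℓ)) Q)
      (mul_ne_zero (fun h => hc (congrArg Subtype.val ((map_eq_zero_iff HahnSeries.C
        HahnSeries.C_injective).mp h))) hb)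
      (a := ∑ i, ev (jqModC (Zl ℓ)) (P' i) * B.e i) ?_ hint
    rw [map_sum, map_mul, ev_incl, mul_comm (x : LaurentSeries ℚ), mul_assoc, hP, Finset.mul_sum]
    refine Finset.sum_congr rfl fun i _ => ?_
    rw [map_mul, ev_incl, hP', map_mul, Polynomial.aeval_C, inclSeries, HahnSeries.C_apply,
      coeffMap_single, algebraMap_laurentSeries_eq_single, mul_assoc]
    rfl
  · refine exists_eq_of_isIntegralElem (inclSeries ℓ) inclSeries_injective hb
      (a := HahnSeries.C (⟨c⁻¹, hcl⟩ : Zl ℓ) * ∑ i, ev (jqModC (Zl ℓ)) (P' i) * B.e i) ?_ hint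
    rw [ev_incl, mul_comm (x : LaurentSeries ℚ), hP, map_mul, map_sum, Finset.mul_sum]
    refine Finset.sum_congr rfl fun i _ => ?_
    rw [map_mul, ev_incl, hP', map_mul, Polynomial.aeval_C, inclSeries, HahnSeries.C_apply,
      coeffMap_single, algebraMap_laurentSeries_eq_single, ← mul_assoc, ← mul_assoc,
      HahnSeries.single_mul_single, zero_add]
    simp [hc]

theorem eF_mem_chartAlgFin (B : MonBasis ℓ N) (i : Fin B.n) :
    B.eF i ∈ chartAlgFin N ℓ := by
  have key : ∀ x ∈ Submonoid.closure (genSeries ℓ N),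
      ∃ z ∈ chartAlgFin N ℓ, (z : LaurentSeries ℚ) = inclSeries ℓ x := by
    intro x hx
    induction hx using Submonoid.closure_induction with
    | one => exact ⟨1, one_mem _, by rw [map_one]; rfl⟩
    | mul x y _ _ hx hy =>
      obtain ⟨u, hu, hu'⟩ := hx; obtain ⟨v, hv, hv'⟩ := hy
      exact ⟨u * v, mul_mem hu hv, by rw [map_mul, ← hu', ← hv']; rfl⟩
    | mem y hy =>
      obtain ⟨d, hd, rfl⟩ := hy
      have : NeZero d := ⟨fun h => NeZero.ne N (Nat.eq_zero_of_zero_dvd (h ▸ hd))⟩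
      refine ⟨⟨qExpand ℚ d jq, jqd_mem_full N hd⟩, (mem_chartAlg_iff N ℓ).mpr ?_, ?_⟩
      · obtain ⟨P, hP, hP0⟩ := isIntegralElem_qExpand_jq d
        let g : Polynomial ℤ →+* Algebra.adjoin (Zl ℓ) ({jFull N} : Set F) :=
          Polynomial.eval₂RingHom (Int.castRingHom _)
            ⟨jFull N, Algebra.subset_adjoin (Set.mem_singleton _)⟩
        refine ⟨P.map g, hP.map g, ?_⟩
        apply (algebraMap F (LaurentSeries ℚ)).injective
        rw [map_zero, Polynomial.hom_eval₂, Polynomial.eval₂_map]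
        convert! hP0 using 2
        refine Polynomial.ringHom_ext (fun a => ?_) ?_
        · simp [g, evInt]
        · simp [g, evInt]
      · rw [inclSeries, coeffMap_qx _ (NeZero.ne d), coeffMap_jqModC, jqModC_rat]
        exact (RingHom.congr_fun (qx_eq d) jq).symm
  obtain ⟨z, hz, hz'⟩ := key _ (B.mem_closure i)
  rwa [show B.eF i = z from Subtype.ext hz'.symm]

theorem dvd_of_pow_dvd_mul {g S h : Polynomial (Zl ℓ)} (hS : S.map (redHom ℓ) ≠ 0) :
    ∀ m : ℕ, g * S = (ℓ : Polynomial (Zl ℓ)) ^ m * h → (ℓ : Polynomial (Zl ℓ)) ^ m ∣ g := by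
  intro m
  induction m generalizing g h with
  | zero => intro _; rw [pow_zero]; exact one_dvd _
  | succ m ih =>
    intro heq
    have hred := congrArg (Polynomial.map (redHom ℓ)) heq
    rw [Polynomial.map_mul, Polynomial.map_mul, Polynomial.map_pow, Polynomial.map_natCast,
      show ((ℓ : ℕ) : Polynomial (ZMod ℓ)) = 0 by
        rw [← map_natCast (Polynomial.C (R := ZMod ℓ)), ZMod.natCast_self, map_zero],
      zero_pow m.succ_ne_zero, zero_mul, mul_eq_zero, or_iff_left hS] at hred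
    have hc : ∀ n, ∃ b : Zl ℓ, g.coeff n = (ℓ : Zl ℓ) * b := fun n => by
      apply exists_mul_of_red_eq_zero
      rw [← Polynomial.coeff_map, hred, Polynomial.coeff_zero]
    have hdvd : (ℓ : Polynomial (Zl ℓ)) ∣ g := by
      rw [← map_natCast (Polynomial.C (R := Zl ℓ)), Polynomial.C_dvd_iff_dvd_coeff]
      exact fun n => (hc n).imp fun b hb => hb
    obtain ⟨g', rfl⟩ := hdvd
    have hl : (ℓ : Polynomial (Zl ℓ)) ≠ 0 := by
      rw [← map_natCast (Polynomial.C (R := Zl ℓ)), Ne, Polynomial.C_eq_zero]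
      intro h0
      exact (Fact.out : ℓ.Prime).ne_zero (by exact_mod_cast congrArg Subtype.val h0)
    rw [pow_succ', mul_assoc, mul_assoc] at heq
    rw [pow_succ']
    exact mul_dvd_mul_left _ (ih (mul_left_cancel₀ hl heq))

/-- If `ℓ y` and `S y` are integral over `ℤ_(ℓ)[X]`, with `S` nonzero mod `ℓ`, so is `y`. -/
theorem isIntegral_of_two_multiples {K : Type} [Field K] [Algebra (Polynomial (Zl ℓ)) K]
    (hinj : Function.Injective (algebraMap (Polynomial (Zl ℓ)) K)) {y : K}
    {S : Polynomial (Zl ℓ)} (hS : S.map (redHom ℓ) ≠ 0)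
    (h1 : IsIntegral (Polynomial (Zl ℓ)) (algebraMap (Polynomial (Zl ℓ)) K ℓ * y))
    (h2 : IsIntegral (Polynomial (Zl ℓ)) (algebraMap (Polynomial (Zl ℓ)) K S * y)) :
    IsIntegral (Polynomial (Zl ℓ)) y := by
  have : FaithfulSMul (Polynomial (Zl ℓ)) K := (faithfulSMul_iff_algebraMap_injective _ _).mpr hinj
  have hl : (ℓ : Polynomial (Zl ℓ)) ≠ 0 := by
    intro h0
    rw [← map_natCast (Polynomial.C (R := Zl ℓ)), Polynomial.C_eq_zero] at h0
    exact (Fact.out : ℓ.Prime).ne_zero (by exact_mod_cast congrArg Subtype.val h0)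
  refine GoodReduction.isIntegral_of_coprime_multiples hl
    (fun h => hS (by rw [h, Polynomial.map_zero])) (fun n g h he => ?_) h1 h2
  refine dvd_of_pow_dvd_mul (S := S ^ n) (h := h) ?_ n (he.trans (mul_comm _ _))
  rw [Polynomial.map_pow]
  exact pow_ne_zero _ hS

omit [Fact (Nat.Prime ℓ)] [NeZero N] in
theorem adjoin_coeff {t : F} (a : Algebra.adjoin (Zl ℓ) ({t} : Set F)) :
    ∃ P : Polynomial (Zl ℓ), Polynomial.aeval t P = (a : F) := by
  have h : (a : F) ∈ Algebra.adjoin (Zl ℓ) ({t} : Set F) := a.2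
  revert h
  generalize (a : F) = z
  rw [Algebra.adjoin_singleton_eq_range_aeval]
  exact fun h => h

/-- Integrality of `y` over `ℤ_(ℓ)[t]` from two multiples. -/
theorem mem_chartAlg_of_two_multiples {t : F} (ht : Transcendental (Zl ℓ) t) {y : F}
    {S : Polynomial (Zl ℓ)} (hS : S.map (redHom ℓ) ≠ 0)
    (h1 : (ℓ : F) * y ∈ chartAlg N ℓ {t})
    (h2 : Polynomial.aeval t S * y ∈ chartAlg N ℓ {t}) : y ∈ chartAlg N ℓ {t} := by
  let : Algebra (Polynomial (Zl ℓ)) F := (Polynomial.aeval t).toRingHom.toAlgebra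
  have hconv : ∀ z : F, z ∈ chartAlg N ℓ {t} ↔ IsIntegral (Polynomial (Zl ℓ)) z := by
    intro z
    rw [mem_chartAlg_iff]
    constructor
    · rintro ⟨p, hp, hp0⟩
      have hl : p.map (algebraMap (Algebra.adjoin (Zl ℓ) ({t} : Set F)) F) ∈
          Polynomial.lifts (algebraMap (Polynomial (Zl ℓ)) F) :=
        (Polynomial.lifts_iff_coeff_lifts _).mpr fun n => by
          rw [Polynomial.coeff_map]
          obtain ⟨P, hP⟩ := adjoin_coeff (p.coeff n)
          exact ⟨P, hP⟩
      obtain ⟨q, hq, -, hqm⟩ := Polynomial.lifts_and_natDegree_eq_and_monic hl (hp.map _)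
      refine ⟨q, hqm, ?_⟩
      rw [← Polynomial.eval_map, hq, Polynomial.eval_map]
      exact hp0
    · rintro ⟨q, hq, hq0⟩
      refine ⟨q.map
        ((Polynomial.aeval t).toRingHom.codRestrict (Algebra.adjoin (Zl ℓ) ({t} : Set F))
        fun P => Polynomial.aeval_mem_adjoin_singleton _ _), hq.map _, ?_⟩
      rw [Polynomial.eval₂_map]
      exact hq0
  rw [hconv] at h1 h2 ⊢
  refine isIntegral_of_two_multiples (fun P Q h => ?_) hS ?_ h2
  · exact sub_eq_zero.mp
      ((transcendental_iff.mp ht) (P - Q) (by rw [map_sub]; exact sub_eq_zero.mpr h))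
  · rwa [map_natCast]

theorem transcendental_jFull : Transcendental ℚ (jFull N) := by
  rintro ⟨P, hP, hP0⟩
  refine transcendental_of_lead lead_jqModC one_ne_zero (by norm_num) ⟨P, hP, ?_⟩
  have := congrArg (algebraMap F (LaurentSeries ℚ)) hP0
  rw [map_zero, Polynomial.aeval_def, Polynomial.hom_eval₂] at this
  rw [jqModC_rat, Polynomial.aeval_def]
  convert! this using 2
  · exact Subsingleton.elim _ _

omit [Fact (Nat.Prime ℓ)] [NeZero N] in
theorem transcendental_zl {t : F} (ht : Transcendental ℚ t) : Transcendental (Zl ℓ) t :=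
  fun h => ht (h.extendScalars (R := Zl ℓ) (S := ℚ) fun _ _ h => Subtype.ext h)

omit [Fact (Nat.Prime ℓ)] in
theorem exists_series_jFull :
    ∃ y, inclSeries ℓ y = ((jFull N : F) : LaurentSeries ℚ) := by
  refine ⟨jqModC (Zl ℓ), ?_⟩
  rw [inclSeries, coeffMap_jqModC, jqModC_rat]
  rfl

omit [Fact (Nat.Prime ℓ)] in
theorem exists_series_jFull_inv :
    ∃ y, inclSeries ℓ y = (((jFull N)⁻¹ : F) : LaurentSeries ℚ) := by
  refine ⟨HahnSeries.single 1 1 * HahnSeries.ofPowerSeries ℤ (Zl ℓ)
    ((jNum.invOfUnit 1).map (Int.castRingHom (Zl ℓ))), ?_⟩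
  refine eq_inv_of_mul_eq_one_left ?_
  have hj : inclSeries ℓ (jqModC (Zl ℓ)) = jq := by
    rw [inclSeries, coeffMap_jqModC, jqModC_rat]
  show _ * jq = 1
  rw [← hj, ← map_mul, jqModC, mul_mul_mul_comm, HahnSeries.single_mul_single, ← map_mul,
    ← map_mul (PowerSeries.map (Int.castRingHom (Zl ℓ))), mul_comm (jNum.invOfUnit 1),
    PowerSeries.mul_invOfUnit _ _ (by rw [constantCoeff_jNum]; rfl), map_one, map_one]
  simp

/-- The saturation statement, for both charts. -/
theorem exists_div_of_red_eq_zero (hℓN : ¬ ℓ ∣ N) {t : F}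
    (ht : t = jFull N ∨ t = (jFull N)⁻¹) {x : F} (hx : x ∈ chartAlg N ℓ {t})
    {y : LaurentSeries (Zl ℓ)} (hy : inclSeries ℓ y = (x : LaurentSeries ℚ))
    (hy0 : redSeries ℓ y = 0) : ∃ b ∈ chartAlg N ℓ {t}, x = (ℓ : F) * b := by
  obtain ⟨y₁, rfl⟩ := exists_mul_of_redSeries_eq_zero hy0
  have hl : (ℓ : F) ≠ 0 := Nat.cast_ne_zero.mpr (Fact.out : ℓ.Prime).ne_zero
  refine ⟨x / (ℓ : F), ?_, (mul_div_cancel₀ x hl).symm⟩
  set b : F := x / (ℓ : F)
  have hb : inclSeries ℓ y₁ = (b : LaurentSeries ℚ) := by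
    have h1 : (x : LaurentSeries ℚ) = (ℓ : LaurentSeries ℚ) * (b : LaurentSeries ℚ) := by
      have h2 := congrArg (algebraMap F (LaurentSeries ℚ)) (mul_div_cancel₀ x hl).symm
      rw [map_mul, map_natCast] at h2
      exact h2
    have hl' : (ℓ : LaurentSeries ℚ) ≠ 0 := by
      rw [← map_natCast (algebraMap F (LaurentSeries ℚ))]
      exact fun h => hl ((algebraMap F (LaurentSeries ℚ)).injective (h.trans (map_zero _).symm))
    apply mul_left_cancel₀ hl'
    rw [← h1, ← hy, map_mul, map_natCast]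
  obtain ⟨B⟩ := exists_monBasis (N := N) hℓN
  obtain ⟨Q, hQ, P, hP⟩ := B.exists_repr b
  obtain ⟨P', hP'⟩ := B.coeff_integral P (ev (jqModC (Zl ℓ)) Q * y₁)
    (by rw [map_mul, ev_incl, hb]; exact hP)
  have hQb : Polynomial.aeval (jFull N) Q * b ∈ chartAlgFin N ℓ := by
    have hev : ∀ R : Polynomial (Zl ℓ),
        ((Polynomial.aeval (jFull N) R : F) : LaurentSeries ℚ) =
          Polynomial.aeval jq (R.map (ratLocalizedAt ℓ).subtype) := by
      intro R
      show algebraMap F (LaurentSeries ℚ) (Polynomial.aeval (jFull N) R) = _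
      rw [Polynomial.aeval_def, Polynomial.hom_eval₂, Polynomial.aeval_def, Polynomial.eval₂_map]
      congr 1
      refine RingHom.ext fun a => ?_
      show algebraMap F (LaurentSeries ℚ) ((algebraMap ℚ F) (a : ℚ)) =
        algebraMap ℚ (LaurentSeries ℚ) (a : ℚ)
      rw [eq_ratCast, map_ratCast, eq_ratCast]
    have heq : Polynomial.aeval (jFull N) Q * b =
        ∑ i, Polynomial.aeval (jFull N) (P' i) * B.eF i := by
      apply (algebraMap F (LaurentSeries ℚ)).injective
      rw [map_mul, map_sum]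
      show ((Polynomial.aeval (jFull N) Q : F) : LaurentSeries ℚ) * _ = _
      rw [hev]
      refine hP.trans (Finset.sum_congr rfl fun i _ => ?_)
      rw [map_mul, ← hP' i, ← hev]
      rfl
    rw [heq]
    exact sum_mem fun i _ => mul_mem (adjoin_le_chartAlg N ℓ _
      (Polynomial.aeval_mem_adjoin_singleton _ _)) (eF_mem_chartAlgFin B i)
  have hlb : (ℓ : F) * b ∈ chartAlg N ℓ {t} := by rwa [mul_div_cancel₀ x hl]
  rcases ht with rfl | rfl
  · exact mem_chartAlg_of_two_multiples (transcendental_zl transcendental_jFull) hQ hlb hQb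
  · have hj : jFull N ≠ 0 := jFull_ne_zero N
    have hmono : Polynomial.aeval (jFull N) Q * b ∈
        chartAlg N ℓ (insert ((jFull N)⁻¹)⁻¹ {(jFull N)⁻¹}) :=
      chartAlg_mono N ℓ (Set.singleton_subset_iff.mpr (by simp)) hQb
    obtain ⟨r, hr⟩ := exists_pow_mul_mem_chartAlg (Set.mem_singleton _) (inv_ne_zero hj) hmono
    have hrev : (Polynomial.X ^ r * Q.reverse).map (redHom ℓ) ≠ 0 := by
      rw [Polynomial.map_mul, Polynomial.map_pow, Polynomial.map_X]
      refine mul_ne_zero (pow_ne_zero _ Polynomial.X_ne_zero) fun h => hQ ?_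
      ext n
      by_cases hn : n ≤ Q.natDegree
      · have := congrArg (fun R => Polynomial.coeff R (Polynomial.revAt Q.natDegree n)) h
        simpa [Polynomial.coeff_reverse] using this
      · simp [Polynomial.coeff_eq_zero_of_natDegree_lt (not_le.mp hn)]
    refine mem_chartAlg_of_two_multiples (transcendental_zl fun h => transcendental_jFull
      (by simpa using h.inv)) hrev hlb ?_
    have hrv : Polynomial.aeval (jFull N)⁻¹ Q.reverse * jFull N ^ Q.natDegree =
        Polynomial.aeval (jFull N) Q := by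
      have : Invertible (jFull N) := invertibleOfNonzero hj
      have := Polynomial.eval₂_reverse_mul_pow (algebraMap (Zl ℓ) F) (jFull N) Q
      rwa [invOf_eq_inv] at this
    have hfin := mul_mem (pow_mem (subset_chartAlg N ℓ _ (Set.mem_singleton (jFull N)⁻¹))
      Q.natDegree) hr
    have h' : Polynomial.aeval (jFull N)⁻¹ (Polynomial.X ^ r * Q.reverse) * b =
        (jFull N)⁻¹ ^ Q.natDegree * ((jFull N)⁻¹ ^ r * (Polynomial.aeval (jFull N) Q * b)) := by
      rw [map_mul, map_pow, Polynomial.aeval_X, ← hrv, inv_pow, inv_pow]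
      field_simp
    rw [h']
    exact hfin

end FLTAgent.Igusa
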