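import Fermat.Agent.Igusa.Saturation
import Mathlib.RingTheory.TensorProduct.Maps
import Mathlib.LinearAlgebra.Basis.VectorSpace
import Mathlib.AlgebraicGeometry.Pullbacks
import Mathlib.AlgebraicGeometry.Properties

/-!
# Igusa's theorem on the special fibre

`isIntegral_specialFibre`: the base change of the Igusa model to a field of characteristic
`ℓ ∤ N` is an integral scheme. Both charts tensored with the field embed in Laurent series
(`isDomain_chart_tensor`).
-/

set_option autoImplicit false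

noncomputable section

open AlgebraicGeometry CategoryTheory CategoryTheory.Limits ModularCurve ModularCurve.IgusaScheme
open GaloisRep TensorProduct

namespace FLTAgent.Igusa

variable {ℓ : ℕ} [Fact ℓ.Prime] {N : ℕ} [NeZero N]

set_option quotPrecheck false in
local notation "F" => ↥(modularFunctionFieldFull N)

/-- The expansion with coefficients in `ℤ_(ℓ)` of a chart element. -/
def expandChart (hℓN : ¬ ℓ ∣ N) {S : Set F}
    (hS : ∀ s ∈ S, ∃ y, inclSeries ℓ y = (s : LaurentSeries ℚ)) :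
    chartAlg N ℓ S →+* LaurentSeries (Zl ℓ) where
  toFun x := (exists_series_of_mem_chartAlg hℓN hS x.2).choose
  map_one' := inclSeries_injective (by
    rw [(exists_series_of_mem_chartAlg hℓN hS (1 : chartAlg N ℓ S).2).choose_spec, map_one]
    rfl)
  map_zero' := inclSeries_injective (by
    rw [(exists_series_of_mem_chartAlg hℓN hS (0 : chartAlg N ℓ S).2).choose_spec, map_zero]
    rfl)
  map_mul' x y := inclSeries_injective (by
    rw [(exists_series_of_mem_chartAlg hℓN hS (x * y).2).choose_spec, map_mul,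
      (exists_series_of_mem_chartAlg hℓN hS x.2).choose_spec,
      (exists_series_of_mem_chartAlg hℓN hS y.2).choose_spec]
    rfl)
  map_add' x y := inclSeries_injective (by
    rw [(exists_series_of_mem_chartAlg hℓN hS (x + y).2).choose_spec, map_add,
      (exists_series_of_mem_chartAlg hℓN hS x.2).choose_spec,
      (exists_series_of_mem_chartAlg hℓN hS y.2).choose_spec]
    rfl)

theorem incl_expandChart (hℓN : ¬ ℓ ∣ N) {S : Set F}
    (hS : ∀ s ∈ S, ∃ y, inclSeries ℓ y = (s : LaurentSeries ℚ)) (x : chartAlg N ℓ S) :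
    inclSeries ℓ (expandChart hℓN hS x) = ((x : F) : LaurentSeries ℚ) :=
  (exists_series_of_mem_chartAlg hℓN hS x.2).choose_spec

theorem expandChart_algebraMap (hℓN : ¬ ℓ ∣ N) {S : Set F}
    (hS : ∀ s ∈ S, ∃ y, inclSeries ℓ y = (s : LaurentSeries ℚ)) (a : Zl ℓ) :
    expandChart hℓN hS (algebraMap (Zl ℓ) (chartAlg N ℓ S) a) = HahnSeries.C a := by
  apply inclSeries_injective
  rw [incl_expandChart]
  show algebraMap F (LaurentSeries ℚ) ((algebraMap ℚ F) (a : ℚ)) = _
  rw [eq_ratCast, map_ratCast, inclSeries, HahnSeries.C_apply, coeffMap_single,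
    ← algebraMap_laurentSeries_eq_single, eq_ratCast]
  rfl

theorem ringHom_zl_ext {R : Type} [CommRing R] (f g : Zl ℓ →+* R) : f = g := by
  refine RingHom.ext fun a => ?_
  set d : Zl ℓ := Nat.cast (a : ℚ).den with hd
  have hdu : IsUnit d := isUnit_of_red_ne_zero (by
    rw [hd, map_natCast]
    exact den_ne_zero_zmod a)
  have h : a * d = (((a : ℚ).num : ℤ) : Zl ℓ) := Subtype.ext (by
    rw [hd]
    push_cast
    exact Rat.mul_den_eq_num (a : ℚ))
  have h1 := congrArg f h
  have h2 := congrArg g h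
  rw [map_mul, map_intCast] at h1 h2
  rw [show g d = f d by rw [hd, map_natCast, map_natCast]] at h2
  exact (hdu.map f).mul_right_cancel (h1.trans h2.symm)

variable {K : Type} [Field K] [CharP K ℓ] [Algebra (Zl ℓ) K]

theorem algebraMap_eq_cast_red :
    algebraMap (Zl ℓ) K = (ZMod.castHom (dvd_refl ℓ) K).comp (redHom ℓ) :=
  ringHom_zl_ext _ _

omit [CharP K ℓ] in
theorem exists_tensor_hom (hℓN : ¬ ℓ ∣ N) {S : Set F}
    (hS : ∀ s ∈ S, ∃ y, inclSeries ℓ y = (s : LaurentSeries ℚ)) :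
    ∃ Φ : chartAlg N ℓ S ⊗[Zl ℓ] K →+* LaurentSeries K, ∀ a c,
      Φ (a ⊗ₜ c) = coeffMap (algebraMap (Zl ℓ) K) (expandChart hℓN hS a) * HahnSeries.C c := by
  let alg : Algebra (Zl ℓ) (LaurentSeries K) :=
    (HahnSeries.C.comp (algebraMap (Zl ℓ) K)).toAlgebra
  have := @IsScalarTower.of_algebraMap_eq' (Zl ℓ) (Zl ℓ) (LaurentSeries K) _ _ _ _ alg alg rfl
  let f : chartAlg N ℓ S →ₐ[Zl ℓ] LaurentSeries K :=
    { toRingHom := (coeffMap (algebraMap (Zl ℓ) K)).comp (expandChart hℓN hS)
      commutes' := fun a => by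
        show coeffMap (algebraMap (Zl ℓ) K) (expandChart hℓN hS (algebraMap _ _ a)) =
          HahnSeries.C (algebraMap (Zl ℓ) K a)
        rw [expandChart_algebraMap]
        exact coeffMap_single _ _ _ }
  let g : K →ₐ[Zl ℓ] LaurentSeries K :=
    { toRingHom := HahnSeries.C
      commutes' := fun a => rfl }
  exact ⟨(Algebra.TensorProduct.lift f g fun _ _ => Commute.all _ _).toRingHom, fun a c => rfl⟩

omit [CharP K ℓ] in
theorem nontrivial_chart_tensor (hℓN : ¬ ℓ ∣ N) {S : Set F}
    (hS : ∀ s ∈ S, ∃ y, inclSeries ℓ y = (s : LaurentSeries ℚ)) :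
    Nontrivial (chartAlg N ℓ S ⊗[Zl ℓ] K) := by
  obtain ⟨Φ, -⟩ := exists_tensor_hom (K := K) hℓN hS
  exact Φ.domain_nontrivial

omit [Fact (Nat.Prime ℓ)] in
theorem exists_series_singleton {t : F} (ht : t = jFull N ∨ t = (jFull N)⁻¹) :
    ∀ s ∈ ({t} : Set F), ∃ y, inclSeries ℓ y = (s : LaurentSeries ℚ) := by
  rintro s rfl
  rcases ht with rfl | rfl
  · exact exists_series_jFull
  · exact exists_series_jFull_inv

theorem isDomain_chart_tensor (hℓN : ¬ ℓ ∣ N) {t : F} (ht : t = jFull N ∨ t = (jFull N)⁻¹) :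
    IsDomain (chartAlg N ℓ {t} ⊗[Zl ℓ] K) := by
  classical
  have hS := exists_series_singleton (ℓ := ℓ) ht
  obtain ⟨Φ, hΦ⟩ := exists_tensor_hom (K := K) hℓN hS
  let : Algebra (ZMod ℓ) K := ZMod.algebra K ℓ
  let v := Module.Basis.ofVectorSpace (ZMod ℓ) K
  have hsmul : ∀ (r : Zl ℓ) (x : K), r • x = redHom ℓ r • x := fun r x => by
    rw [Algebra.smul_def, Algebra.smul_def, algebraMap_eq_cast_red]
    rfl
  -- every tensor is a combination of `a ⊗ vᵢ`
  have hrep : ∀ z : chartAlg N ℓ {t} ⊗[Zl ℓ] K, ∃ a : _ →₀ chartAlg N ℓ {t},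
      z = a.sum fun i x => x ⊗ₜ[Zl ℓ] v i := by
    intro z
    induction z using TensorProduct.induction_on with
    | zero => exact ⟨0, by simp⟩
    | tmul x c =>
      have hc := v.linearCombination_repr c
      rw [Finsupp.linearCombination_apply] at hc
      refine ⟨(v.repr c).mapRange (fun r => ((r.val : ℕ) : chartAlg N ℓ {t}) * x) (by simp), ?_⟩
      rw [Finsupp.sum_mapRange_index (by simp)]
      conv_lhs => rw [← hc]
      rw [Finsupp.sum, TensorProduct.tmul_sum]
      refine Finset.sum_congr rfl fun i _ => ?_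
      rw [show (v.repr c i) • v i = ((v.repr c i).val : Zl ℓ) • v i by
        rw [hsmul, map_natCast, ZMod.natCast_zmod_val], ← TensorProduct.smul_tmul,
        Algebra.smul_def, map_natCast]
    | add y z hy hz =>
      obtain ⟨a, rfl⟩ := hy
      obtain ⟨b, rfl⟩ := hz
      exact ⟨a + b,
        (Finsupp.sum_add_index' (by simp) (fun _ _ _ => TensorProduct.add_tmul _ _ _)).symm⟩
  have hinj : Function.Injective Φ := by
    rw [injective_iff_map_eq_zero]
    intro z hz
    obtain ⟨a, rfl⟩ := hrep z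
    refine Finset.sum_eq_zero fun i hi => ?_
    have hred : redSeries ℓ (expandChart hℓN hS (a i)) = 0 := by
      ext n
      have hn := congrArg (fun w : LaurentSeries K => w.coeff n) hz
      simp only [Finsupp.sum, map_sum, hΦ, HahnSeries.coeff_sum,
        HahnSeries.coeff_zero] at hn
      have hlin : ∑ l ∈ a.support, redHom ℓ ((expandChart hℓN hS (a l)).coeff n) • v l = 0 := by
        rw [← hn]
        refine Finset.sum_congr rfl fun l _ => ?_
        rw [mul_comm, HahnSeries.C_apply, HahnSeries.coeff_single_zero_mul, coeffMap_coeff,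
          ← hsmul, Algebra.smul_def, mul_comm]
      exact linearIndependent_iff'.mp v.linearIndependent a.support _ hlin i hi
    obtain ⟨b, hb, hab⟩ :=
      exists_div_of_red_eq_zero hℓN ht (a i).2 (incl_expandChart hℓN hS (a i)) hred
    have hab' : a i = (ℓ : Zl ℓ) • (⟨b, hb⟩ : chartAlg N ℓ {t}) := by
      rw [Algebra.smul_def, map_natCast]
      exact Subtype.ext (by simp [hab])
    show (a i) ⊗ₜ[Zl ℓ] v i = 0
    rw [hab', TensorProduct.smul_tmul, hsmul, red_natCast_self, zero_smul, TensorProduct.tmul_zero]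
  have := nontrivial_chart_tensor (K := K) hℓN hS
  exact hinj.isDomain

omit [Fact (Nat.Prime ℓ)] [CharP K ℓ] in
theorem isIntegral_pullback_chart {A : Type} [CommRing A] [Algebra (Zl ℓ) A]
    [IsDomain (A ⊗[Zl ℓ] K)] {f : Spec (CommRingCat.of A) ⟶ Spec (CommRingCat.of (Zl ℓ))}
    (hf : f = Spec.map (CommRingCat.ofHom (algebraMap (Zl ℓ) A))) :
    IsIntegral (pullback f (Spec.map (CommRingCat.ofHom (algebraMap (Zl ℓ) K)))) := by
  subst hf
  have : IsIntegral (Spec (CommRingCat.of (A ⊗[Zl ℓ] K))) := inferInstance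
  exact IsIntegral.of_isIso (pullbackSpecIso (Zl ℓ) A K).inv

theorem isIntegral_of_two_charts {X U V : Scheme.{0}} (i : U ⟶ X) (j : V ⟶ X) [IsOpenImmersion i]
    [IsOpenImmersion j] [IsIntegral U] [IsIntegral V]
    (hcov : ∀ x : X, x ∈ Set.range i ∨ x ∈ Set.range j)
    (hmeet : (Set.range i ∩ Set.range j).Nonempty) : IsIntegral X := by
  have hi : IsPreirreducible (Set.range i) := by
    rw [← Set.image_univ]
    exact (IrreducibleSpace.isIrreducible_univ _).isPreirreducible.image _ i.continuous.continuousOn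
  have hj : IsPreirreducible (Set.range j) := by
    rw [← Set.image_univ]
    exact (IrreducibleSpace.isIrreducible_univ _).isPreirreducible.image _ j.continuous.continuousOn
  have hio : IsOpen (Set.range i) := i.isOpenEmbedding.isOpen_range
  have hjo : IsOpen (Set.range j) := j.isOpenEmbedding.isOpen_range
  have key : ∀ u : Set X, IsOpen u → u.Nonempty →
      (Set.range i ∩ (u ∩ Set.range j)).Nonempty := by
    rintro u hu ⟨x, hx⟩
    rcases hcov x with h | h
    · exact hi u _ hu hjo ⟨x, h, hx⟩ (by obtain ⟨y, hy, hy'⟩ := hmeet; exact ⟨y, hy, hy'⟩)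
    · obtain ⟨y, hy, hy', hy''⟩ := hj u _ hu hio ⟨x, h, hx⟩
        (by obtain ⟨y, hy, hy'⟩ := hmeet; exact ⟨y, hy', hy⟩)
      exact ⟨y, hy'', hy', hy⟩
  have : PreirreducibleSpace X := ⟨fun u v hu hv ⟨x, _, hx⟩ ⟨y, _, hy⟩ => by
    obtain ⟨a, ha, ha', -⟩ := key u hu ⟨x, hx⟩
    obtain ⟨b, hb, hb', -⟩ := key v hv ⟨y, hy⟩
    obtain ⟨z, -, hz, hz'⟩ := hi u v hu hv ⟨a, ha, ha'⟩ ⟨b, hb, hb'⟩
    exact ⟨z, trivial, hz, hz'⟩⟩
  have : IrreducibleSpace X := { toNonempty := ⟨hmeet.choose⟩ }
  have : ∀ x : X, _root_.IsReduced (X.presheaf.stalk x) := by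
    intro x
    rcases hcov x with ⟨y, rfl⟩ | ⟨y, rfl⟩
    · exact isReduced_of_injective (i.stalkMap y).hom
        (asIso (i.stalkMap y)).commRingCatIsoToRingEquiv.injective
    · exact isReduced_of_injective (j.stalkMap y).hom
        (asIso (j.stalkMap y)).commRingCatIsoToRingEquiv.injective
  have := isReduced_of_isReduced_stalk X
  exact isIntegral_of_irreducibleSpace_of_isReduced X

variable (N ℓ) in
/-- Igusa: the special fibre of the model at `ℓ ∤ N` is integral. -/
theorem isIntegral_specialFibre (hℓN : ¬ ℓ ∣ N) :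
    IsIntegral (pullback (igusaTo N ℓ)
      (Spec.map (CommRingCat.ofHom (algebraMap (Zl ℓ) K)))) := by
  set g := Spec.map (CommRingCat.ofHom (algebraMap (Zl ℓ) K))
  set X := pullback (igusaTo N ℓ) g
  have : IsDomain (chartAlgFin N ℓ ⊗[Zl ℓ] K) := isDomain_chart_tensor hℓN (Or.inl rfl)
  have : IsDomain (chartAlgInf N ℓ ⊗[Zl ℓ] K) := isDomain_chart_tensor hℓN (Or.inr rfl)
  let i := pullback.snd (ιFin N ℓ) (pullback.fst (igusaTo N ℓ) g)
  let j := pullback.snd (ιInf N ℓ) (pullback.fst (igusaTo N ℓ) g)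
  have hU : IsIntegral (pullback (ιFin N ℓ) (pullback.fst (igusaTo N ℓ) g)) := by
    have := isIntegral_pullback_chart (K := K) (ιFin_igusaTo N ℓ)
    exact IsIntegral.of_isIso (pullbackRightPullbackFstIso (igusaTo N ℓ) g (ιFin N ℓ)).inv
  have hV : IsIntegral (pullback (ιInf N ℓ) (pullback.fst (igusaTo N ℓ) g)) := by
    have := isIntegral_pullback_chart (K := K) (ιInf_igusaTo N ℓ)
    exact IsIntegral.of_isIso (pullbackRightPullbackFstIso (igusaTo N ℓ) g (ιInf N ℓ)).inv
  refine isIntegral_of_two_charts i j (fun x => ?_) ?_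
  · rw [IsOpenImmersion.range_pullbackSnd, IsOpenImmersion.range_pullbackSnd]
    exact mem_range_ιFin_or_mem_range_ιInf N ℓ _
  · have : Nontrivial (chartAlgMid N ℓ ⊗[Zl ℓ] K) := nontrivial_chart_tensor hℓN (by
      rintro s (rfl | rfl)
      · exact exists_series_jFull
      · exact exists_series_jFull_inv)
    let W := Spec (CommRingCat.of (chartAlgMid N ℓ ⊗[Zl ℓ] K))
    let a : W ⟶ XMid N ℓ := Spec.map (CommRingCat.ofHom
      (Algebra.TensorProduct.includeLeftRingHom (R := Zl ℓ) (A := chartAlgMid N ℓ) (B := K)))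
    let b : W ⟶ Spec (CommRingCat.of K) := Spec.map (CommRingCat.ofHom
      (Algebra.TensorProduct.includeRight (R := Zl ℓ) (A := chartAlgMid N ℓ) (B := K)).toRingHom)
    have hw : (a ≫ fFin N ℓ ≫ ιFin N ℓ) ≫ igusaTo N ℓ = b ≫ g := by
      simp only [Category.assoc, ιFin_igusaTo]
      rw [← Spec.map_comp, ← Spec.map_comp, ← Spec.map_comp, ← CommRingCat.ofHom_comp,
        ← CommRingCat.ofHom_comp, ← CommRingCat.ofHom_comp]
      congr 2
      refine RingHom.ext fun r => ?_
      show ((inclFin N ℓ) (algebraMap (Zl ℓ) _ r)) ⊗ₜ[Zl ℓ] (1 : K) =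
        (1 : chartAlgMid N ℓ) ⊗ₜ[Zl ℓ] algebraMap (Zl ℓ) K r
      rw [AlgHom.commutes, Algebra.algebraMap_eq_smul_one, TensorProduct.smul_tmul,
        ← Algebra.algebraMap_eq_smul_one]
    have : Nonempty W := inferInstanceAs (Nonempty (PrimeSpectrum _))
    obtain ⟨w⟩ := ‹Nonempty W›
    refine ⟨pullback.lift _ _ hw w, ?_, ?_⟩
    · rw [IsOpenImmersion.range_pullbackSnd]
      show (pullback.lift _ _ hw ≫ pullback.fst _ _) w ∈ Set.range (ιFin N ℓ)
      rw [pullback.lift_fst]
      exact ⟨(a ≫ fFin N ℓ) w, rfl⟩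
    · rw [IsOpenImmersion.range_pullbackSnd]
      show (pullback.lift _ _ hw ≫ pullback.fst _ _) w ∈ Set.range (ιInf N ℓ)
      rw [pullback.lift_fst, glue_condition]
      exact ⟨(a ≫ fInf N ℓ) w, rfl⟩

end FLTAgent.Igusa
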