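import Fermat.Agent.Igusa.Relation

/-!
# Transitivity on linked families

`transitive`: in any algebraically closed field with a primitive `M`-th root of unity and for
`N ∣ M`, the automorphisms of `Amb` fixing `j` act transitively on the families `(x_d)_{d ∣ N}`
linked by the modular polynomials (`IsFamily`). The standard one is `std d = j(q^d)`.
-/

set_option autoImplicit false

noncomputable section

open ModularCurve IntermediateField Polynomial

namespace FLTAgent.Igusa.Ctx

variable {k : Type} [Field k] [IsAlgClosed k] {M : ℕ} (C : Ctx k M)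

/-- `std d = j(q^d)`. -/
def std (_C : Ctx k M) (d : ℕ) : Amb k M := vx 1 (M * d)

theorem isVx_std {d : ℕ} (hd : d ∣ M) : IsVx (C.std d) 1 (M * d) := by
  induction d using Nat.strong_induction_on with
  | _ d ih =>
    rcases eq_or_ne d 1 with rfl | hd1
    · rw [std, mul_one]; exact C.isVx_one_self
    · have hp := Nat.minFac_prime hd1
      have hpM : d.minFac ∣ M := (Nat.minFac_dvd d).trans hd
      obtain ⟨e, he⟩ := Nat.minFac_dvd d
      have hd0 : d ≠ 0 := fun h => C.hM (Nat.eq_zero_of_zero_dvd (h ▸ hd))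
      have he0 : 0 < e := Nat.pos_of_ne_zero fun h => hd0 (by rw [he, h, mul_zero])
      have helt : e < d := by
        calc e = 1 * e := (one_mul e).symm
          _ < d.minFac * e := Nat.mul_lt_mul_of_pos_right hp.one_lt he0
          _ = d := he.symm
      have hx := ih e helt ((Dvd.intro_left _ he.symm).trans hd)
      obtain ⟨y, -, hy⟩ := C.exists_up hp hpM hx (hpM.mul_right e)
      rw [one_pow, mul_assoc, mul_comm e, ← he] at hy
      exact ⟨hy.1, hy.2.1, rfl⟩

theorem std_inj {d e : ℕ} (hd : d ∣ M) (he : e ∣ M) (h : C.std d = C.std e) : d = e :=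
  Nat.eq_of_mul_eq_mul_left (Nat.pos_of_ne_zero C.hM)
    (isVx_inj (C.isVx_std hd) (h ▸ C.isVx_std he)).1

theorem rel_std_up {d p : ℕ} (hp : p.Prime) (hdp : d * p ∣ M) :
    C.Rel p (C.std d) (C.std (d * p)) := by
  have hpM : p ∣ M := (Dvd.intro_left d rfl).trans hdp
  obtain ⟨y, hy, hyv⟩ :=
    C.exists_up hp hpM (C.isVx_std ((dvd_mul_right d p).trans hdp)) (hpM.mul_right d)
  rw [one_pow, mul_assoc] at hyv
  rwa [hyv.2.2] at hy

theorem rel_std_down {d p : ℕ} (hp : p.Prime) (hdp : d * p ∣ M) :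
    C.Rel p (C.std (d * p)) (C.std d) := by
  have hpM : p ∣ M := (Dvd.intro_left d rfl).trans hdp
  obtain ⟨y, hy, hyv⟩ :=
    C.exists_down hp hpM (C.isVx_std hdp) ((dvd_mul_left p d).mul_left M) (c := 1) (one_pow p)
  rw [← mul_assoc, Nat.mul_div_cancel _ hp.pos] at hyv
  rwa [hyv.2.2] at hy

theorem transcendental_std {d : ℕ} (hd : d ∣ M) : Transcendental k (C.std d) :=
  vx_transcendental (C.isVx_std hd).2.1 (C.isVx_std hd).1

/-- A family indexed by the divisors of `N`, starting at `j`, linked by modular polynomials,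
without backtracking. -/
structure IsFamily (N : ℕ) (x : ℕ → Amb k M) : Prop where
  one : x 1 = C.std 1
  edge : ∀ d p : ℕ, p.Prime → d * p ∣ N → C.Rel p (x d) (x (d * p))
  nb : ∀ d p : ℕ, p.Prime → d * p * p ∣ N → x d ≠ x (d * p * p)

theorem isFamily_std {N : ℕ} (hN : N ∣ M) : C.IsFamily N C.std where
  one := rfl
  edge d p hp h := C.rel_std_up hp (h.trans hN)
  nb d p hp h hne := by
    have h2 := C.std_inj (((dvd_mul_right d p).trans (dvd_mul_right _ p)).trans (h.trans hN))
      (h.trans hN) hne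
    have hd : 0 < d := Nat.pos_of_ne_zero fun h0 => C.hM
      (Nat.eq_zero_of_zero_dvd (by simpa [h0] using h.trans hN))
    have : 1 < p * p := Nat.one_lt_mul_iff.mpr ⟨hp.pos, hp.pos, Or.inl hp.one_lt⟩
    nlinarith

omit [IsAlgClosed k] in
theorem isFamily_map {N : ℕ} {x : ℕ → Amb k M} (hx : C.IsFamily N x)
    (σ : Amb k M ≃ₐ[k] Amb k M) (hσ : σ (C.std 1) = C.std 1) :
    C.IsFamily N (fun d => σ (x d)) where
  one := by show σ (x 1) = _; rw [hx.one, hσ]
  edge d p hp h := C.rel_map σ (hx.edge d p hp h)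
  nb d p hp h hne := hx.nb d p hp h (σ.injective hne)

omit [IsAlgClosed k] in
theorem isFamily_mono {N N' : ℕ} {x : ℕ → Amb k M} (hx : C.IsFamily N x) (h : N' ∣ N) :
    C.IsFamily N' x where
  one := hx.one
  edge d p hp hd := hx.edge d p hp (hd.trans h)
  nb d p hp hd := hx.nb d p hp (hd.trans h)

/-- All members of a family are vertices whose exponent has denominator dividing the index. -/
theorem family_vx {N : ℕ} (hN : N ∣ M) {x : ℕ → Amb k M} (hx : C.IsFamily N x) :
    ∀ d : ℕ, d ∣ N → ∃ c m, IsVx (x d) c m ∧ M / d ∣ m := by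
  intro d
  induction d using Nat.strong_induction_on with
  | _ d ih =>
    intro hd
    rcases eq_or_ne d 1 with rfl | hd1
    · refine ⟨1, M, ?_, by simp⟩
      have h := C.isVx_std (one_dvd M)
      rw [mul_one] at h
      rw [hx.one]
      exact h
    · obtain ⟨e, he⟩ := Nat.minFac_dvd d
      have hp := Nat.minFac_prime hd1
      set p := d.minFac
      have hdM : d ∣ M := hd.trans hN
      have hpM : p ∣ M := (Nat.minFac_dvd d).trans hdM
      have hd0 : d ≠ 0 := fun h => C.hM (Nat.eq_zero_of_zero_dvd (h ▸ hdM))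
      have he0 : 0 < e := Nat.pos_of_ne_zero fun h => hd0 (by rw [he, h, mul_zero])
      have helt : e < d := by
        calc e = 1 * e := (one_mul e).symm
          _ < p * e := Nat.mul_lt_mul_of_pos_right hp.one_lt he0
          _ = d := he.symm
      have hed : e ∣ d := Dvd.intro_left _ he.symm
      obtain ⟨c, m, hv, hm⟩ := ih e helt (hed.trans hd)
      obtain ⟨t, ht⟩ := hdM
      have hMe : M / e = p * t := by
        rw [ht, he, mul_assoc, Nat.mul_comm p, mul_assoc, Nat.mul_div_cancel_left _ he0, mul_comm]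
      have hMd : M / d = t := by
        rw [ht, Nat.mul_div_cancel_left _ (Nat.pos_of_ne_zero hd0)]
      rw [hMe] at hm
      obtain ⟨s, rfl⟩ := hm
      have hrel := hx.edge e p hp (by rw [mul_comm, ← he]; exact hd)
      rw [mul_comm e p, ← he] at hrel
      rcases C.rel_step hp hpM hv ((dvd_mul_right p t).trans (dvd_mul_right _ s)) hrel
        with h | ⟨c', -, h⟩
      · refine ⟨_, _, h, ?_⟩
        rw [hMd]
        exact ((dvd_mul_left t p).trans (dvd_mul_right _ s)).mul_right _
      · refine ⟨_, _, h, ?_⟩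
        rw [hMd, mul_assoc, Nat.mul_div_cancel_left _ hp.pos]
        exact dvd_mul_right t s

omit [IsAlgClosed k] in
/-- A power of `μ` gives an automorphism fixing every family of level `N` and moving
`s`-exponents. -/
theorem exists_mu_aut (a : ℕ) :
    ∃ σ : Amb k M ≃ₐ[k] Amb k M, ∀ (y : Amb k M) (c : kˣ) (m : ℕ), IsVx y c m →
      IsVx (σ y) (C.μ ^ (a * m) * c) m := by
  have hu : (C.μ ^ a) ^ M = 1 := by
    rw [← pow_mul, mul_comm, pow_mul,
      show C.μ ^ M = 1 from Units.ext (by simpa using C.hμ.pow_eq_one), one_pow]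
  obtain ⟨σ, hσ⟩ := exists_scaleAut (k := k) C.hM (C.μ ^ a) hu
  refine ⟨σ, ?_⟩
  rintro y c m ⟨hm, hmem, rfl⟩
  obtain ⟨h1, h2⟩ := hσ c m hm hmem
  rw [← pow_mul] at h1 h2
  exact ⟨hm, h1, h2⟩

omit [IsAlgClosed k] in
theorem mu_pow_eq_one {n : ℕ} (h : M ∣ n) : C.μ ^ n = 1 := by
  obtain ⟨t, rfl⟩ := h
  rw [pow_mul, show C.μ ^ M = 1 from Units.ext (by simpa using C.hμ.pow_eq_one), one_pow]

theorem isAlgebraic_adjoin_std {N : ℕ} (hN : N ∣ M) :
    Algebra.IsAlgebraic k⟮C.std N⟯ (Amb k M) := by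
  set L1 := algebraicClosure k⟮C.std N⟯ (Amb k M)
  -- every `std d`, `d ∣ N`, is algebraic over `k(std N)`
  have key : ∀ e d : ℕ, d * e = N → C.std d ∈ L1 := by
    intro e
    induction e using Nat.strong_induction_on with
    | _ e ih =>
      intro d hde
      rcases eq_or_ne e 1 with rfl | he1
      · rw [mul_one] at hde
        subst hde
        exact mem_algebraicClosure_iff.mpr
          (isAlgebraic_algebraMap (⟨_, mem_adjoin_simple_self k _⟩ : k⟮C.std d⟯))
      · obtain ⟨e', he'⟩ := Nat.minFac_dvd e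
        have hp := Nat.minFac_prime he1
        set p := e.minFac
        have hN0 : N ≠ 0 := fun h => C.hM (Nat.eq_zero_of_zero_dvd (h ▸ hN))
        have he'0 : 0 < e' := Nat.pos_of_ne_zero fun h => hN0 (by rw [← hde, he', h]; simp)
        have he'lt : e' < e := by
          calc e' = 1 * e' := (one_mul _).symm
            _ < p * e' := Nat.mul_lt_mul_of_pos_right hp.one_lt he'0
            _ = e := he'.symm
        have hdp : d * p ∣ M := (Dvd.intro e' (by rw [mul_assoc, ← he', hde])).trans hN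
        have hmem := ih e' he'lt (d * p) (by rw [mul_assoc, ← he', hde])
        have hpM : p ∣ M := (Dvd.intro_left d rfl).trans hdp
        have hrel := C.rel_std_down hp hdp
        have halg : IsAlgebraic L1 (C.std d) := by
          refine ⟨(C.phi p).map (Polynomial.aeval (R := k) (⟨_, hmem⟩ : L1)).toRingHom,
            ((C.phi_monic hp hpM).map _).ne_zero, ?_⟩
          rw [Polynomial.aeval_def, ← Polynomial.eval_map, Polynomial.map_map]
          have hcomp : (algebraMap L1 (Amb k M)).comp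
              (Polynomial.aeval (R := k) (⟨_, hmem⟩ : L1)).toRingHom =
              (Polynomial.aeval (R := k) (C.std (d * p))).toRingHom := by
            refine RingHom.ext fun P => ?_
            exact (Polynomial.aeval_algHom_apply (L1.val.restrictScalars k)
              (⟨_, hmem⟩ : L1) P).symm
          rw [hcomp]
          exact hrel
        exact mem_algebraicClosure_iff.mpr (halg.restrictScalars k⟮C.std N⟯)
  have h1 : k⟮(vx 1 M : Amb k M)⟯ ≤ L1.restrictScalars k := by
    rw [adjoin_simple_le_iff, IntermediateField.mem_restrictScalars]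
    have := key N 1 (one_mul N)
    simpa [Ctx.std] using this
  refine ⟨fun z => ?_⟩
  obtain ⟨P, hP, hz⟩ := isAlgebraic_adjoin_vx_self.isAlgebraic (R := k⟮(vx 1 M : Amb k M)⟯) z
  have : IsAlgebraic L1 z := by
    let g : k⟮(vx 1 M : Amb k M)⟯ →+* L1 :=
      (algebraMap k⟮(vx 1 M : Amb k M)⟯ (Amb k M)).codRestrict L1 fun a => h1 a.2
    refine ⟨P.map g, Polynomial.map_ne_zero hP, ?_⟩
    rw [Polynomial.aeval_def, Polynomial.eval₂_map]
    exact hz
  exact this.restrictScalars k⟮C.std N⟯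

theorem exists_aut_one_to {N : ℕ} (hN : N ∣ M) :
    ∃ σ : Amb k M ≃ₐ[k] Amb k M, σ (C.std 1) = C.std N :=
  exists_equiv_map (C.transcendental_std (one_dvd M)) (C.transcendental_std hN)
    (C.isAlgebraic_adjoin_std (one_dvd M)) (C.isAlgebraic_adjoin_std hN)

/-- The prime step: `j(q^p)` has a conjugate over `k(j)` other than itself. -/
theorem exists_move_prime {p : ℕ} (hp : p.Prime) (hpM : p ∣ M) :
    ∃ σ : Amb k M ≃ₐ[k] Amb k M, σ (C.std 1) = C.std 1 ∧ σ (C.std p) ≠ C.std p := by
  have : NeZero p := ⟨hp.ne_zero⟩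
  set K := k⟮(vx 1 M : Amb k M)⟯
  have : Algebra.IsAlgebraic K (Amb k M) := isAlgebraic_adjoin_vx_self
  have : IsAlgClosure K (Amb k M) := ⟨inferInstance, inferInstance⟩
  have : Normal K (Amb k M) := IsAlgClosure.normal K (Amb k M)
  set y := C.std p
  have hint : IsIntegral K y := Algebra.IsIntegral.isIntegral y
  by_contra hcon
  push Not at hcon
  have hfix : ∀ z : Amb k M, Polynomial.aeval z (minpoly K y) = 0 → z = y := by
    intro z hz
    obtain ⟨σ, hσ⟩ := minpoly.exists_algEquiv_of_root' hint.isAlgebraic hz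
    have h1 : (σ.restrictScalars k) (C.std 1) = C.std 1 := by
      rw [std, mul_one]
      exact σ.commutes (⟨_, mem_adjoin_simple_self k _⟩ : K)
    exact hσ.symm.trans (hcon _ h1)
  -- the minimal polynomial divides the separable modular polynomial
  obtain ⟨m0, hm0⟩ := hpM
  have hm0' : m0 ≠ 0 := fun h => C.hM (by rw [hm0, h, mul_zero])
  have hpM : p ∣ M := ⟨m0, hm0⟩
  have hM' : M = m0 * p := by rw [hm0, mul_comm]
  have hmem : jv ((1 : kˣ) ^ p) (m0 * p) ∈ algPart k M := by
    rw [one_pow, ← hM']; exact self_mem_algPart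
  set Q : Polynomial K := (C.phi p).map
    (Polynomial.aeval (R := k) (⟨_, mem_adjoin_simple_self k _⟩ : K)).toRingHom
  have hQmap : Q.map (algebraMap K (Amb k M)) =
      (Polynomial.X - Polynomial.C (vx ((1 : kˣ) ^ (p * p)) (m0 * (p * p)))) *
        ∏ a ∈ Finset.range p, (Polynomial.X - Polynomial.C (vx (1 * C.zeta p ^ a) m0)) := by
    rw [← C.phi_map_vx hp hpM hm0' hmem, Polynomial.map_map]
    congr 1
    refine RingHom.ext fun P => ?_
    rw [one_pow, ← hM']
    exact (Polynomial.aeval_algHom_apply (K.val) (⟨_, mem_adjoin_simple_self k _⟩ : K) P).symm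
  have hQy : Polynomial.aeval y Q = 0 := by
    rw [Polynomial.aeval_def, ← Polynomial.eval_map, hQmap]
    have : y = vx ((1 : kˣ) ^ (p * p)) (m0 * (p * p)) := by
      simp only [y, std, one_pow, hM', mul_assoc]
    simp [this]
  have hsep : (minpoly K y).Separable := by
    refine Polynomial.Separable.of_dvd ?_ (minpoly.dvd K y hQy)
    rw [← Polynomial.separable_map (algebraMap K (Amb k M)), hQmap]
    refine (Polynomial.separable_X_sub_C.mul (Polynomial.separable_prod_X_sub_C_iff'.mpr ?_) ?_)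
    · intro a ha b hb hab
      have h1 := C.down_mem hp hpM hm0' hmem (Finset.mem_range.mp ha)
      have h2 := C.down_mem hp hpM hm0' hmem (Finset.mem_range.mp hb)
      obtain ⟨-, h⟩ := vx_inj h1 h2 hm0' hm0' hab
      exact (C.zeta_spec hpM).pow_inj (Finset.mem_range.mp ha) (Finset.mem_range.mp hb)
        (by simpa using congrArg Units.val (mul_left_cancel h))
    · refine IsCoprime.prod_right fun a ha => Polynomial.isCoprime_X_sub_C_of_isUnit_sub
        (isUnit_iff_ne_zero.mpr (sub_ne_zero.mpr fun h => ?_))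
      obtain ⟨h', -⟩ := vx_inj (C.up_mem hp hpM hm0' hmem)
        (C.down_mem hp hpM hm0' hmem (Finset.mem_range.mp ha))
        (mul_ne_zero hm0' (mul_ne_zero hp.ne_zero hp.ne_zero)) hm0' h
      have : 1 < p * p := Nat.one_lt_mul_iff.mpr ⟨hp.pos, hp.pos, Or.inl hp.one_lt⟩
      have := Nat.pos_of_ne_zero hm0'
      nlinarith
  have hdeg : (minpoly K y).natDegree ≤ 1 := by
    rw [← Polynomial.card_rootSet_eq_natDegree hsep (IsAlgClosed.splits _) (K := Amb k M)]
    refine Fintype.card_le_one_iff_subsingleton.mpr ⟨fun a b => Subtype.ext ?_⟩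
    rw [hfix a (Polynomial.mem_rootSet.mp a.2).2, hfix b (Polynomial.mem_rootSet.mp b.2).2]
  obtain ⟨⟨z, hzK⟩, hz⟩ := minpoly.mem_range_of_degree_eq_one K y
    ((Polynomial.degree_eq_iff_natDegree_eq_of_pos one_pos).mpr
      (le_antisymm hdeg (minpoly.natDegree_pos hint)))
  change z = y at hz
  subst hz
  -- pull back to Laurent series
  have hy : y = emb k M ⟨jv 1 (M * p), (C.isVx_std hpM).2.1⟩ :=
    (C.isVx_std hpM).2.2.trans (vx_eq _)
  let j' : algPart k M := ⟨jv 1 M, self_mem_algPart⟩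
  have hK : K = IntermediateField.map (emb k M) k⟮j'⟯ := by
    rw [IntermediateField.adjoin_map, Set.image_singleton, ← vx_eq self_mem_algPart]
  rw [hy, hK] at hzK
  obtain ⟨z', hz', hze⟩ := hzK
  have hz'' : z' = ⟨jv 1 (M * p), (C.isVx_std hpM).2.1⟩ := (emb k M).toRingHom.injective hze
  have hbad : jv (1 : kˣ) (M * p) ∈ IntermediateField.adjoin k {jv (1 : kˣ) M} := by
    have h : ((algPart k M).val.restrictScalars k) z' ∈
        IntermediateField.map ((algPart k M).val.restrictScalars k) k⟮j'⟯ := ⟨z', hz', rfl⟩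
    rw [IntermediateField.adjoin_map, Set.image_singleton] at h
    rw [hz''] at h
    exact h
  refine PolyData.jv_not_mem_adjoin (C.D p hp) (C.zeta_spec hpM) hp.one_lt ?_ hm0' ?_
  · intro h0
    exact C.hMk (by rw [hm0, Nat.cast_mul, h0, zero_mul])
  · rwa [← mul_assoc, ← hM']

/-- Fricke: an automorphism exchanging `std d` and `std (N / d)`, given transitivity at `N`. -/
theorem exists_fricke {N : ℕ} (hN : N ∣ M)
    (htr : ∀ x, C.IsFamily N x → ∃ σ : Amb k M ≃ₐ[k] Amb k M, ∀ d, d ∣ N → σ (C.std d) = x d) :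
    ∃ ψ : Amb k M ≃ₐ[k] Amb k M, ∀ d, d ∣ N → ψ (C.std d) = C.std (N / d) := by
  obtain ⟨σ₀, hσ₀⟩ := C.exists_aut_one_to hN
  have hN0 : N ≠ 0 := fun h => C.hM (Nat.eq_zero_of_zero_dvd (h ▸ hN))
  have hz : C.IsFamily N (fun d => σ₀.symm (C.std (N / d))) := by
    refine ⟨?_, fun d p hp h => ?_, fun d p hp h hne => ?_⟩
    · show σ₀.symm (C.std (N / 1)) = _
      rw [Nat.div_one, ← hσ₀, AlgEquiv.symm_apply_apply]
    · obtain ⟨t, ht⟩ := h
      have hdp : 0 < d * p := Nat.pos_of_ne_zero fun h => hN0 (by rw [ht, h, zero_mul])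
      have hd : 0 < d := Nat.pos_of_mul_pos_right hdp
      refine C.rel_map σ₀.symm ?_
      rw [show N / d = t * p by rw [ht, mul_assoc, Nat.mul_div_cancel_left _ hd, mul_comm],
        show N / (d * p) = t by rw [ht, Nat.mul_div_cancel_left _ hdp]]
      exact C.rel_std_down hp ((Dvd.intro d (by rw [ht]; ring)).trans hN)
    · obtain ⟨t, ht⟩ := h
      have hdpp : 0 < d * p * p := Nat.pos_of_ne_zero fun h => hN0 (by rw [ht, h, zero_mul])
      have hd : 0 < d := Nat.pos_of_mul_pos_right (Nat.pos_of_mul_pos_right hdpp)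
      have h2 := σ₀.symm.injective hne
      rw [show N / d = t * (p * p) by
          rw [ht, mul_assoc d p p, mul_assoc, Nat.mul_div_cancel_left _ hd, mul_comm],
        show N / (d * p * p) = t by rw [ht, Nat.mul_div_cancel_left _ hdpp]] at h2
      have htM : t * (p * p) ∣ M := (Dvd.intro d (by rw [ht]; ring)).trans hN
      have h3 := C.std_inj htM ((dvd_mul_right t _).trans htM) h2
      have ht0 : 0 < t := Nat.pos_of_ne_zero fun h => hN0 (by rw [ht, h, mul_zero])
      have : 1 < p * p := Nat.one_lt_mul_iff.mpr ⟨hp.pos, hp.pos, Or.inl hp.one_lt⟩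
      nlinarith
  obtain ⟨σ₁, hσ₁⟩ := htr _ hz
  refine ⟨σ₁.trans σ₀, fun d hd => ?_⟩
  rw [AlgEquiv.trans_apply, hσ₁ d hd, AlgEquiv.apply_symm_apply]

/-- The stabiliser of the standard family of level `N` moves `std (N*p)` to any other admissible
neighbour of `std N`. -/
theorem exists_move {N p : ℕ} (hp : p.Prime) (hNp : N * p ∣ M)
    (htr : ∀ x, C.IsFamily N x → ∃ σ : Amb k M ≃ₐ[k] Amb k M, ∀ d, d ∣ N → σ (C.std d) = x d)
    {y : Amb k M} (hy : C.Rel p (C.std N) y) (hne : p ∣ N → y ≠ C.std (N / p)) :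
    ∃ τ : Amb k M ≃ₐ[k] Amb k M, (∀ d, d ∣ N → τ (C.std d) = C.std d) ∧
      τ (C.std (N * p)) = y := by
  have hN : N ∣ M := (dvd_mul_right N p).trans hNp
  have hpM : p ∣ M := (Dvd.intro_left N rfl).trans hNp
  have hN0 : N ≠ 0 := fun h => C.hM (Nat.eq_zero_of_zero_dvd (h ▸ hN))
  obtain ⟨ψ, hψ⟩ := C.exists_fricke hN htr
  have hψs : ∀ d, d ∣ N → ψ.symm (C.std d) = C.std (N / d) := fun d hd => by
    rw [AlgEquiv.symm_apply_eq, hψ _ (Nat.div_dvd_of_dvd hd), Nat.div_div_self hd hN0]
  have hj : ψ.symm (C.std N) = C.std 1 := by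
    rw [hψs N dvd_rfl, Nat.div_self (Nat.pos_of_ne_zero hN0)]
  have : NeZero p := ⟨hp.ne_zero⟩
  have hjv : IsVx (C.std 1) (1 : kˣ) M := by simpa using C.isVx_std (one_dvd M)
  obtain ⟨b, -, hb⟩ := C.exists_down hp hpM hjv hpM (c := 1) (one_pow p)
  obtain ⟨m0, hm0⟩ := id hpM
  have hMp : M / p = m0 := by rw [hm0, Nat.mul_div_cancel_left _ hp.pos]
  -- automorphisms fixing the standard family and moving `b` to a given lower neighbour
  have hlow : ∀ (u : Amb k M) (c : kˣ), c ^ p = 1 → IsVx u c (M / p) →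
      ∃ g : Amb k M ≃ₐ[k] Amb k M, (∀ d, d ∣ N → g (C.std d) = C.std d) ∧ g b = u := by
    intro u c hc hu
    obtain ⟨a, -, ha⟩ := (C.zeta_spec hpM).eq_pow_of_pow_eq_one
      (show (c : k) ^ p = 1 by rw [← Units.val_pow_eq_pow_val, hc, Units.val_one])
    obtain ⟨g, hg⟩ := C.exists_mu_aut a
    refine ⟨g, fun d hd => ?_, ?_⟩
    · obtain ⟨-, -, h⟩ := hg _ _ _ (C.isVx_std (hd.trans hN))
      rw [h, C.mu_pow_eq_one ((dvd_mul_right M d).mul_left a), one_mul]
      rfl
    · obtain ⟨-, -, h⟩ := hg _ _ _ hb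
      rw [h, hu.2.2, mul_one]
      congr 1
      refine Units.ext ?_
      rw [← ha, zeta, ← Units.val_pow_eq_pow_val, ← pow_mul, mul_comm]
  -- if `p ∤ N`, some automorphism fixing the standard family moves `b` to `std p`
  have hhigh : ¬ p ∣ N →
      ∃ g : Amb k M ≃ₐ[k] Amb k M, (∀ d, d ∣ N → g (C.std d) = C.std d) ∧ g b = C.std p := by
    intro hpN
    obtain ⟨σ, hσ1, hσ⟩ := C.exists_move_prime hp hpM
    have hneigh : ∀ z, C.Rel p (C.std 1) z → z ≠ C.std p →
        ∃ c : kˣ, c ^ p = 1 ∧ IsVx z c (M / p) := by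
      intro z hz hzne
      rcases C.rel_step hp hpM hjv hpM hz with h | ⟨c, hc, h⟩
      · rw [one_pow] at h
        exact absurd h.2.2 hzne
      · exact ⟨c, hc, h⟩
    have hrp : C.Rel p (C.std 1) (C.std p) := by
      simpa using C.rel_std_up (d := 1) hp (by simpa using hpM)
    obtain ⟨c, hc, hc'⟩ := hneigh _ (hσ1 ▸ C.rel_map σ hrp) hσ
    obtain ⟨ρ, hρ⟩ := C.exists_mu_aut N
    have hρfix : ∀ d, d ∣ N → ρ (σ (C.std d)) = σ (C.std d) := by
      intro d hd
      obtain ⟨c', m, hv, hm⟩ := C.family_vx hN (C.isFamily_map (C.isFamily_std hN) σ hσ1) d hd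
      obtain ⟨-, -, h⟩ := hρ _ _ _ hv
      rw [h, hv.2.2]
      congr 1
      obtain ⟨t, rfl⟩ := hm
      obtain ⟨e, rfl⟩ := hd
      have hdM : d ∣ M := (dvd_mul_right d e).trans hN
      rw [C.mu_pow_eq_one ⟨e * t, ?_⟩, one_mul]
      obtain ⟨w, hw⟩ := hdM
      have hd0 : 0 < d := Nat.pos_of_ne_zero fun h => C.hM (by rw [hw, h, zero_mul])
      rw [hw, Nat.mul_div_cancel_left _ hd0]
      ring
    have hρmove : ρ (σ (C.std p)) ≠ σ (C.std p) := by
      intro h
      have h2 := (isVx_inj (h ▸ hρ _ _ _ hc') hc').2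
      rw [mul_eq_right] at h2
      have h3 := (C.hμ.pow_eq_one_iff_dvd _).mp (by simpa using congrArg Units.val h2)
      rw [hMp, hm0] at h3
      exact hpN (Nat.dvd_of_mul_dvd_mul_right
        (Nat.pos_of_ne_zero fun h => C.hM (by rw [hm0, h, mul_zero])) h3)
    set g1 := (σ.trans ρ).trans σ.symm
    have hg1 : ∀ d, d ∣ N → g1 (C.std d) = C.std d := fun d hd => by
      simp only [g1, AlgEquiv.trans_apply, hρfix d hd, AlgEquiv.symm_apply_apply]
    have hg1p : g1 (C.std p) ≠ C.std p := fun h => hρmove (by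
      have := congrArg σ h
      simpa [g1] using this)
    have hg11 : g1 (C.std 1) = C.std 1 := hg1 1 (one_dvd N)
    obtain ⟨c', hc'1, hc'2⟩ := hneigh _ (hg11 ▸ C.rel_map g1 hrp) hg1p
    obtain ⟨g2, hg2, hg2b⟩ := hlow _ c' hc'1 hc'2
    refine ⟨g2.trans g1.symm, fun d hd => ?_, ?_⟩
    · rw [AlgEquiv.trans_apply, hg2 d hd, AlgEquiv.symm_apply_eq, hg1 d hd]
    · rw [AlgEquiv.trans_apply, hg2b, AlgEquiv.symm_apply_apply]
  have hall : ∀ z, C.Rel p (C.std N) z → (p ∣ N → z ≠ C.std (N / p)) →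
      ∃ g : Amb k M ≃ₐ[k] Amb k M, (∀ d, d ∣ N → g (C.std d) = C.std d) ∧ g b = ψ.symm z := by
    intro z hz hzne
    have hrel : C.Rel p (C.std 1) (ψ.symm z) := hj ▸ C.rel_map ψ.symm hz
    rcases C.rel_step hp hpM hjv hpM hrel with h | ⟨c, hc, h⟩
    · rw [one_pow] at h
      have hz' : ψ.symm z = C.std p := h.2.2
      by_cases hpN : p ∣ N
      · refine absurd ?_ (hzne hpN)
        rw [← hψ p hpN, ← hz', AlgEquiv.apply_symm_apply]
      · obtain ⟨g, hg, hgb⟩ := hhigh hpN
        exact ⟨g, hg, hgb.trans hz'.symm⟩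
    · exact hlow _ c hc h
  have h0 : p ∣ N → C.std (N * p) ≠ C.std (N / p) := fun h heq => by
    have h1 := C.std_inj hNp ((Nat.div_dvd_of_dvd h).trans hN) heq
    have : N / p ≤ N := Nat.div_le_self N p
    have := Nat.pos_of_ne_zero hN0
    nlinarith [hp.two_le]
  obtain ⟨g0, hg0, hg0b⟩ := hall _ (C.rel_std_up hp hNp) h0
  obtain ⟨g, hg, hgb⟩ := hall y hy hne
  refine ⟨((ψ.symm.trans g0.symm).trans g).trans ψ, fun d hd => ?_, ?_⟩
  · have hd' : N / d ∣ N := Nat.div_dvd_of_dvd hd
    simp only [AlgEquiv.trans_apply, hψs d hd]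
    rw [show g0.symm (C.std (N / d)) = C.std (N / d) by rw [AlgEquiv.symm_apply_eq, hg0 _ hd'],
      hg _ hd', hψ _ hd', Nat.div_div_self hd hN0]
  · simp only [AlgEquiv.trans_apply]
    rw [show g0.symm (ψ.symm (C.std (N * p))) = b by rw [AlgEquiv.symm_apply_eq, hg0b], hgb,
      AlgEquiv.apply_symm_apply]

/-- A family of level `N*p` agreeing with the standard one at `N*p` and on divisors of `N` is
standard. -/
theorem family_rigid {N p : ℕ} (hp : p.Prime) (hNp : N * p ∣ M) {x : ℕ → Amb k M}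
    (hx : C.IsFamily (N * p) x) (hlow : ∀ d, d ∣ N → x d = C.std d)
    (htop : x (N * p) = C.std (N * p)) : ∀ e, e ∣ N * p → x e = C.std e := by
  have key : ∀ t d : ℕ, d * t = N → x (d * p) = C.std (d * p) := by
    intro t
    induction t using Nat.strong_induction_on with
    | _ t ih =>
      intro d hdt
      rcases eq_or_ne t 1 with rfl | ht1
      · rw [mul_one] at hdt; rw [hdt]; exact htop
      obtain ⟨t', ht'⟩ := Nat.minFac_dvd t
      have hq := Nat.minFac_prime ht1
      set q := t.minFac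
      have hN0 : N ≠ 0 := fun h => C.hM (Nat.eq_zero_of_zero_dvd (by simpa [h] using hNp))
      have ht'0 : 0 < t' := Nat.pos_of_ne_zero fun h => hN0 (by rw [← hdt, ht', h]; simp)
      have ht'lt : t' < t := by
        calc t' = 1 * t' := (one_mul _).symm
          _ < q * t' := Nat.mul_lt_mul_of_pos_right hq.one_lt ht'0
          _ = t := ht'.symm
      have hnext := ih t' ht'lt (d * q) (by rw [mul_assoc, ← ht', hdt])
      have hdN : d ∣ N := Dvd.intro t hdt
      have hdqN : d * q ∣ N := Dvd.intro t' (by rw [mul_assoc, ← ht', hdt])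
      have hd0 : 0 < d := Nat.pos_of_ne_zero fun h => hN0 (by rw [← hdt, h, zero_mul])
      have hdpq : d * p * q ∣ N * p := by rw [mul_right_comm]; exact mul_dvd_mul_right hdqN p
      have hdqpM : d * q * p ∣ M := (mul_dvd_mul_right hdqN p).trans hNp
      have hpM : p ∣ M := (Dvd.intro_left N rfl).trans hNp
      have hqM : q ∣ M := ((Dvd.intro_left d rfl).trans hdqN).trans
        ((dvd_mul_right N p).trans hNp)
      have hedge1 := hx.edge d p hp ((dvd_mul_right (d * p) q).trans hdpq)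
      rw [hlow d hdN] at hedge1
      have hdMv := C.isVx_std (hdN.trans ((dvd_mul_right N p).trans hNp))
      rcases C.rel_step hp hpM hdMv (hpM.mul_right d) hedge1 with h | ⟨c, hc, h⟩
      · rw [one_pow, mul_assoc] at h
        exact h.2.2
      · exfalso
        have hdiv : M * d / p * p = M * d := Nat.div_mul_cancel (hpM.mul_right d)
        have hedge2 := hx.edge (d * p) q hq hdpq
        have hpqM : p * q ∣ M :=
          (Dvd.intro d (by ring : p * q * d = d * q * p)).trans hdqpM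
        have hqdvd : q ∣ M * d / p := by
          rw [Nat.dvd_div_iff_mul_dvd (hpM.mul_right d)]
          exact hpqM.mul_right d
        have hdiv2 : M * d / p / q * q = M * d / p := Nat.div_mul_cancel hqdvd
        rw [mul_right_comm, hnext] at hedge2
        have hv := C.isVx_std hdqpM
        have hp2 := hp.two_le
        have hq2 := hq.two_le
        have hMd : 0 < M * d := Nat.mul_pos (Nat.pos_of_ne_zero C.hM) hd0
        set w := M * d / p with hw
        rcases C.rel_step hq hqM h hqdvd hedge2 with h' | ⟨c', -, h'⟩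
        · have h3 := (isVx_inj hv h').1
          have h4 : M * d * (q * p) = w * q := by rw [← h3]; ring
          rw [← hdiv] at h4
          nlinarith [Nat.mul_le_mul (Nat.mul_le_mul_left w (hp2)) (le_refl (q * p))]
        · have h3 := (isVx_inj hv h').1
          have h4 : M * d * (q * p) = w / q := by rw [← h3]; ring
          have h5 : w / q ≤ w := Nat.div_le_self w q
          have h6 : w ≤ M * d := Nat.div_le_self _ _
          nlinarith [Nat.mul_le_mul hq2 hp2]
  intro e he
  by_cases heN : e ∣ N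
  · exact hlow e heN
  · have hpe : p ∣ e := by
      by_contra hpe
      exact heN ((Nat.Coprime.dvd_of_dvd_mul_right
        ((hp.coprime_iff_not_dvd.mpr hpe).symm) he))
    obtain ⟨d, rfl⟩ := hpe
    obtain ⟨t, ht⟩ : d ∣ N := Nat.dvd_of_mul_dvd_mul_left hp.pos (by rwa [mul_comm p N])
    rw [mul_comm p d]
    exact key t d ht.symm

/-- **Transitivity** on families. -/
theorem transitive (N : ℕ) : N ∣ M → ∀ x : ℕ → Amb k M, C.IsFamily N x →
    ∃ σ : Amb k M ≃ₐ[k] Amb k M, ∀ d, d ∣ N → σ (C.std d) = x d := by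
  induction N using Nat.strong_induction_on with
  | _ N ih =>
    intro hN x hx
    rcases eq_or_ne N 1 with rfl | hN1
    · refine ⟨AlgEquiv.refl, fun d hd => ?_⟩
      rw [Nat.dvd_one.mp hd, hx.one]
      rfl
    obtain ⟨p, hp, N₀, hN₀⟩ : ∃ p : ℕ, p.Prime ∧ p ∣ N :=
      ⟨_, Nat.minFac_prime hN1, Nat.minFac_dvd N⟩
    have hN0 : N ≠ 0 := fun h => C.hM (Nat.eq_zero_of_zero_dvd (h ▸ hN))
    have hN₀0 : 0 < N₀ := Nat.pos_of_ne_zero fun h => hN0 (by rw [hN₀, h, mul_zero])
    have hN₀lt : N₀ < N := by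
      calc N₀ = 1 * N₀ := (one_mul _).symm
        _ < p * N₀ := Nat.mul_lt_mul_of_pos_right hp.one_lt hN₀0
        _ = N := hN₀.symm
    rw [mul_comm] at hN₀
    subst hN₀
    have hN₀M : N₀ ∣ M := (dvd_mul_right _ _).trans hN
    obtain ⟨σ, hσ⟩ := ih N₀ hN₀lt hN₀M _ (C.isFamily_mono hx (dvd_mul_right _ _))
    have hσ1 : σ.symm (C.std 1) = C.std 1 := by
      rw [AlgEquiv.symm_apply_eq, hσ 1 (one_dvd _), hx.one]
    have hx' := C.isFamily_map hx σ.symm hσ1
    have hlow : ∀ d, d ∣ N₀ → σ.symm (x d) = C.std d := fun d hd => by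
      rw [AlgEquiv.symm_apply_eq, hσ d hd]
    obtain ⟨τ, hτ, hτp⟩ := C.exists_move hp hN (fun x hx => ih N₀ hN₀lt hN₀M x hx)
      (y := σ.symm (x (N₀ * p))) (hlow N₀ dvd_rfl ▸ hx'.edge N₀ p hp dvd_rfl)
      (fun hpN h => hx'.nb (N₀ / p) p hp
        (by rw [Nat.div_mul_cancel hpN]) (by
          show σ.symm (x (N₀ / p)) = σ.symm (x (N₀ / p * p * p))
          rw [Nat.div_mul_cancel hpN, h, hlow _ (Nat.div_dvd_of_dvd hpN)]))
    have hτ1 : τ.symm (C.std 1) = C.std 1 := by
      rw [AlgEquiv.symm_apply_eq, hτ 1 (one_dvd _)]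
    have hrig := C.family_rigid hp hN (C.isFamily_map hx' τ.symm hτ1)
      (fun d hd => by
        show τ.symm (σ.symm (x d)) = _
        rw [hlow d hd, AlgEquiv.symm_apply_eq, hτ d hd])
      (by
        show τ.symm (σ.symm (x (N₀ * p))) = _
        rw [← hτp, AlgEquiv.symm_apply_apply])
    refine ⟨τ.trans σ, fun d hd => ?_⟩
    rw [AlgEquiv.trans_apply, ← hrig d hd, AlgEquiv.apply_symm_apply, AlgEquiv.apply_symm_apply]

end FLTAgent.Igusa.Ctx
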